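import Fermat.Agent.RT.Assembly.Residual
import Fermat.Agent.Arith.Chebotarev.Main
import Fermat.Agent.EC.Rep.Involution
import Fermat.Prelude.Def_ModularCurve_GenusNumerics

/-!
# An auxiliary prime for level lowering at `p`

A prime `r ≡ 11 mod 12` at which the Frey representation cannot be special: it kills the elliptic
points, and can be removed from the level afterwards.
-/

set_option autoImplicit false

noncomputable section

open WeierstrassCurve Polynomial
open scoped WeierstrassCurve.Affine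

namespace Fermat.Agent.RT.LowerP

local notation "Q̄" => AlgebraicClosure ℚ
local notation "GQ" => AlgebraicClosure ℚ ≃ₐ[ℚ] AlgebraicClosure ℚ

/-- A level divisible by a prime `r ≡ 11 mod 12` has no elliptic points. -/
theorem nuTwo_nuThree_eq_zero {r M : ℕ} (hr : r.Prime) (h12 : r % 12 = 11) (hrM : r ∣ M) :
    ModularCurve.nuTwo M = 0 ∧ ModularCurve.nuThree M = 0 := by
  have : Fact r.Prime := ⟨hr⟩
  constructor
  · refine Nat.card_eq_zero.mpr (Or.inl ⟨fun ⟨x, hx⟩ => ?_⟩)
    have h := congrArg (ZMod.castHom hrM (ZMod r)) hx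
    rw [map_add, map_pow, map_one, map_zero] at h
    exact (ZMod.exists_sq_eq_neg_one_iff.mp
      ⟨ZMod.castHom hrM (ZMod r) x, by linear_combination -h⟩) (by omega)
  · refine Nat.card_eq_zero.mpr (Or.inl ⟨fun ⟨x, hx⟩ => ?_⟩)
    have h := congrArg (ZMod.castHom hrM (ZMod r)) hx
    rw [map_add, map_add, map_pow, map_one, map_zero] at h
    set y := ZMod.castHom hrM (ZMod r) x
    have hy : y ≠ 0 := fun h0 => one_ne_zero (α := ZMod r) (by simp [h0] at h)
    have h3 : y ^ 3 = 1 := by linear_combination (y - 1) * h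
    obtain ⟨j, hj⟩ : ∃ j, r - 1 = 3 * j + 1 := ⟨(r - 2) / 3, by omega⟩
    have h1 : y = 1 := by
      have := ZMod.pow_card_sub_one_eq_one hy
      rwa [hj, pow_succ, pow_mul, h3, one_pow, one_mul] at this
    rw [h1] at h
    have : ((3 : ℕ) : ZMod r) = 0 := by
      push_cast
      linear_combination h
    have := Nat.le_of_dvd (by norm_num) ((ZMod.natCast_eq_zero_iff 3 r).mp this)
    omega

/-- In an irreducible two dimensional representation, a trace zero invertible element cannot have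
all its translates by a normal subgroup containing a nontrivial unipotent of trace zero. -/
theorem exists_trace_mul_ne_zero {G F V : Type*} [Group G] [Field F] [AddCommGroup V] [Module F V]
    [Module.Finite F V] (hV : Module.finrank F V = 2) (ρ : G →* Module.End F V)
    (hirr : ∀ W : Submodule F V, (∀ σ, ∀ x ∈ W, ρ σ x ∈ W) → W = ⊥ ∨ W = ⊤)
    (H : Subgroup G) [H.Normal] {c u : G} (hu : u ∈ H) (hu2 : (ρ u - 1) ^ 2 = 0)
    (hu1 : ρ u ≠ 1) (hc : LinearMap.trace F V (ρ c) = 0) (hcd : LinearMap.det (ρ c) ≠ 0) :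
    ∃ h ∈ H, LinearMap.trace F V (ρ (c * h)) ≠ 0 := by
  by_contra hall
  push Not at hall
  set n := ρ u - 1 with hn
  obtain ⟨v, hv⟩ : ∃ v, n v ≠ 0 := by
    by_contra h0
    push Not at h0
    exact hu1 (sub_eq_zero.mp (hn ▸ LinearMap.ext h0))
  have hnn : n (n v) = 0 := by
    simpa [pow_two] using LinearMap.congr_fun hu2 v
  have hli : LinearIndependent F ![n v, v] := by
    rw [linearIndependent_fin2]
    refine ⟨fun h0 => hv (by simp at h0; rw [h0, map_zero]), fun a ha => hv ?_⟩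
    simp at ha
    have := congrArg n ha
    rw [map_smul, hnn] at this
    rcases smul_eq_zero.mp this with h0 | h0
    · rw [← ha, h0, zero_smul]
    · exact h0
  let b := basisOfLinearIndependentOfCardEqFinrank hli (by rw [hV]; simp)
  have hb : ∀ i, b i = ![n v, v] i := fun i => by
    simp [b, coe_basisOfLinearIndependentOfCardEqFinrank]
  let φ := LinearMap.toMatrixAlgEquiv b
  have htr : ∀ x, LinearMap.trace F V x = (φ x).trace := fun x =>
    LinearMap.trace_eq_matrix_trace F b x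
  have hb0 : b.repr (n v) = Finsupp.single 0 1 := by
    rw [← show b 0 = n v from hb 0, Module.Basis.repr_self]
  have hN : φ n = !![0, 1; 0, 0] := by
    ext i j
    rw [LinearMap.toMatrixAlgEquiv_apply, hb]
    fin_cases i <;> fin_cases j <;> simp [hnn, hb0]
  have N00 : φ n 0 0 = 0 := by simp [hN]
  have N01 : φ n 0 1 = 1 := by simp [hN]
  have N10 : φ n 1 0 = 0 := by simp [hN]
  have N11 : φ n 1 1 = 0 := by simp [hN]
  set C := φ (ρ c) with hC
  have hC0 : C 0 0 + C 1 1 = 0 := by rw [← Matrix.trace_fin_two, ← htr, hc]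
  have hu' : ρ u = n + 1 := by rw [hn, sub_add_cancel]
  have hgg : ∀ {g : G}, ρ g * ρ g⁻¹ = 1 := fun {g} => by rw [← map_mul, mul_inv_cancel, map_one]
  have hcn : ∀ g : G, LinearMap.trace F V (ρ c * (ρ g * n * ρ g⁻¹)) = 0 := fun g => by
    have h1 := hall (g * u * g⁻¹) (Subgroup.Normal.conj_mem ‹_› u hu g)
    have e : ρ (c * (g * u * g⁻¹)) = ρ c + ρ c * (ρ g * n * ρ g⁻¹) := by
      rw [map_mul, map_mul, map_mul, hu', mul_add (ρ g), add_mul, mul_one, hgg, mul_add, mul_one,
        add_comm]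
    rw [e, map_add, hc, zero_add] at h1
    exact h1
  have hC1 : C 1 0 = 0 := by
    have h1 := hcn 1
    rw [inv_one, map_one, one_mul, mul_one, htr, map_mul, ← hC, Matrix.trace_fin_two] at h1
    simpa [Matrix.mul_apply, Fin.sum_univ_two, N00, N01, N10, N11] using h1
  have hC00 : C 0 0 ≠ 0 := fun h0 => hcd (by
    rw [← LinearMap.det_toMatrix b]
    show (φ (ρ c)).det = 0
    rw [← hC, Matrix.det_fin_two, h0, hC1]
    ring)
  have hstab : ∀ g, φ (ρ g) 1 0 = 0 := fun g => by
    set X := φ (ρ g) with hX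
    set Y := φ (ρ g⁻¹) with hY
    have h2 : LinearMap.trace F V (ρ c * (n * (ρ g * n * ρ g⁻¹))) = 0 := by
      have h1 := hall (u * (g * u * g⁻¹))
        (H.mul_mem hu (Subgroup.Normal.conj_mem ‹_› u hu g))
      have hcu : LinearMap.trace F V (ρ c * n) = 0 := by
        simpa using hcn 1
      have e : ρ (c * (u * (g * u * g⁻¹))) = ρ c + ρ c * n + ρ c * (ρ g * n * ρ g⁻¹) +
          ρ c * (n * (ρ g * n * ρ g⁻¹)) := by
        rw [map_mul, map_mul, map_mul, map_mul, hu', mul_add (ρ g), add_mul _ (ρ g * 1), mul_one,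
          hgg]
        simp only [add_mul, mul_add, mul_one, one_mul]
        abel
      rw [e, map_add, map_add, map_add, hcn g, hcu, hc, add_zero, add_zero, zero_add] at h1
      exact h1
    rw [htr, map_mul, map_mul, map_mul, map_mul, ← hC, ← hX, ← hY, Matrix.trace_fin_two] at h2
    have hYX : Y * X = 1 := by rw [hX, hY, ← map_mul, ← map_mul, inv_mul_cancel, map_one, map_one]
    simp [Matrix.mul_apply, Fin.sum_univ_two, hC00, hC1, N00, N01, N10, N11] at h2
    rcases h2 with h2 | h2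
    · exact h2
    · have h10 := congrFun (congrFun hYX 1) 0
      have h11 := congrFun (congrFun hYX 1) 1
      simp [Matrix.mul_apply, Fin.sum_univ_two, h2] at h10 h11
      rcases h10 with h | h
      · simp [h] at h11
      · exact h
  refine (hirr (F ∙ n v) fun g x hx => ?_).elim (fun h0 => hv (by
    simpa [Submodule.span_singleton_eq_bot] using h0)) (fun h0 => ?_)
  · obtain ⟨a, rfl⟩ := Submodule.mem_span_singleton.mp hx
    rw [map_smul]
    refine Submodule.smul_mem _ _ (Submodule.mem_span_singleton.mpr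
      ⟨φ (ρ g) 0 0, ?_⟩)
    have := b.sum_repr (ρ g (b 0))
    rw [Fin.sum_univ_two, ← LinearMap.toMatrixAlgEquiv_apply b (ρ g) 0 0,
      ← LinearMap.toMatrixAlgEquiv_apply b (ρ g) 1 0] at this
    change φ (ρ g) 0 0 • b 0 + φ (ρ g) 1 0 • b 1 = _ at this
    rw [hstab, zero_smul, add_zero, hb] at this
    exact this
  · have hfr := finrank_span_singleton (K := F) hv
    rw [h0, finrank_top, hV] at hfr
    omega

variable {P : FreyPackage} [Fact P.p.Prime]

/-- A prime `r ≡ 11 mod 12` outside a given finite set, good for the Frey curve, with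
`a_r ^ 2 ≠ (r + 1) ^ 2` modulo `p`. -/
theorem exists_aux_prime
    (hirr : Affine.Point.GaloisRepIsIrreducible (K := Q̄) ℚ P.freyCurve P.p) (T : Finset ℕ) :
    ∃ r : ℕ, r.Prime ∧ r ∉ T ∧ r % 12 = 11 ∧ r ≠ P.p ∧ P.freyCurveInt.IsGoodPrimeFor r ∧
      (Assembly.freyAbar P (ZMod P.p) r) ^ 2 ≠ ((r : ZMod P.p) + 1) ^ 2 := by
  classical
  have hp2 : P.p ≠ 2 := by have := P.hp5; omega
  set R := Assembly.freyRho P (ZMod P.p) with hR
  have h12 := EC.FrobTrace.card_rootsOfUnity_Qbar 12
  let χ : GQ →* (ZMod 12)ˣ :=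
    { toFun := fun σ => modularCyclotomicCharacter Q̄ h12 (σ : Q̄ ≃+* Q̄)
      map_one' := map_one (modularCyclotomicCharacter Q̄ h12)
      map_mul' := fun σ τ => map_mul (modularCyclotomicCharacter Q̄ h12) (σ : Q̄ ≃+* Q̄) τ }
  let δ : GQ →* ZMod P.p := LinearMap.det.comp R.ρ
  let H : Subgroup GQ := δ.toHomUnits.ker ⊓ χ.ker
  -- a unipotent element in `H`
  obtain ⟨A₂, hA₂⟩ := Arith.exists_liesOverPrime Nat.prime_two
  obtain ⟨σ₂, hσ₂, hne₂⟩ := Assembly.exists_inertia_two_ne_one (k := ZMod P.p) (P := P) hA₂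
  have hchar := Assembly.charpoly_freyRho_inertia (k := ZMod P.p) Nat.prime_two
    (Ne.symm hp2) hA₂ hσ₂
  have hsq : (R.ρ σ₂ - 1) ^ 2 = 0 := by
    have := LinearMap.aeval_self_charpoly (R.ρ σ₂)
    rw [hchar] at this
    simpa using this
  have hdet₂ : δ σ₂ = 1 := by
    show LinearMap.det (R.ρ σ₂) = 1
    rw [LinearMap.det_eq_sign_charpoly_coeff, hchar, R.finrank_eq]
    simp [coeff_zero_eq_eval_zero]
  have h2k : (2 : ZMod P.p) ≠ 0 := by
    have : ((2 : ℕ) : ZMod P.p) ≠ 0 := by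
      rw [Ne, ZMod.natCast_eq_zero_iff]
      exact fun h => hp2 ((Nat.prime_dvd_prime_iff_eq P.pp Nat.prime_two).mp h)
    simpa using this
  have hu : R.ρ (σ₂ ^ 2) - 1 = (2 : ZMod P.p) • (R.ρ σ₂ - 1) := by
    rw [map_pow, two_smul, ← sub_eq_zero]
    rw [← hsq]
    noncomm_ring
  have huH : σ₂ ^ 2 ∈ H := by
    refine ⟨?_, ?_⟩
    · show δ.toHomUnits (σ₂ ^ 2) = 1
      exact Units.ext (by rw [MonoidHom.coe_toHomUnits, map_pow, hdet₂, one_pow]; rfl)
    · show χ (σ₂ ^ 2) = 1
      rw [map_pow]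
      generalize χ σ₂ = z
      revert z; decide
  have hu2 : (R.ρ (σ₂ ^ 2) - 1) ^ 2 = 0 := by rw [hu, _root_.smul_pow, hsq, smul_zero]
  have hu1 : R.ρ (σ₂ ^ 2) ≠ 1 := fun h0 => hne₂ (by
    rw [h0, sub_self] at hu
    exact sub_eq_zero.mp ((smul_eq_zero.mp hu.symm).resolve_left h2k))
  -- complex conjugation
  set c : GQ := complexConjugation
  have hemb : ∀ ζ : Q̄, ζ ^ 12 = 1 → c ζ = ζ ^ 11 := fun ζ hζ => by
    apply complexEmbedding.injective
    show complexEmbedding (c ζ) = complexEmbedding (ζ ^ 11)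
    rw [complexEmbedding_complexConjugation, map_pow]
    have h1 : complexEmbedding ζ ^ 12 = 1 := by rw [← map_pow, hζ, map_one]
    rw [← Complex.inv_eq_conj (Complex.norm_eq_one_of_pow_eq_one h1 (by norm_num))]
    exact (eq_inv_of_mul_eq_one_left (by rw [← pow_succ]; exact h1)).symm
  have hχc : ((χ c : (ZMod 12)ˣ) : ZMod 12) = 11 := by
    show ((modularCyclotomicCharacter Q̄ h12 _ : (ZMod 12)ˣ) : ZMod 12) = _
    exact (Arith.modularCyclotomicCharacter_eq_natCast h12 (c := 11) hemb).trans rfl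
  have hcc : c * c = 1 := by
    refine AlgEquiv.ext fun x => complexEmbedding.injective ?_
    show complexEmbedding (c (c x)) = complexEmbedding x
    rw [complexEmbedding_complexConjugation, complexEmbedding_complexConjugation,
      Complex.conj_conj]
  have hcdet : LinearMap.det (R.ρ c) = -1 := by
    refine (LinearMap.det_baseChange (A := ZMod P.p) _).trans ?_
    rw [EC.Rep.det_residualRep_involution _ hp2 hcc EC.Rep.complexConjugation_ne_one]
    simp
  have hctr : LinearMap.trace (ZMod P.p) _ (R.ρ c) = 0 := by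
    have h := LinearMap.aeval_self_charpoly (R.ρ c)
    rw [EC.FrobTrace.charpoly_of_finrank_eq_two R.finrank_eq, hcdet] at h
    have hρc : R.ρ c * R.ρ c = 1 := by rw [← map_mul, hcc, map_one]
    simp [pow_two, hρc] at h
    by_contra h0
    have ht0 : LinearMap.trace (ZMod P.p) _ (R.ρ c) • R.ρ c = 0 := by
      rw [Algebra.smul_def, ← neg_eq_zero, ← h]
      abel
    have hz : R.ρ c = 0 := (smul_eq_zero.mp ht0).resolve_left h0
    rw [hz, LinearMap.det_zero' (Module.finBasisOfFinrankEq _ _ R.finrank_eq)] at hcdet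
    exact one_ne_zero (neg_eq_zero.mp hcdet.symm)
  have hirr' : R.IsIrreducible := by
    have h := hirr
    rw [EC.Reduction.Frey.freyCurve_eq_map] at h
    exact EC.Rep.baseChange_residualRep_isIrreducible _ hp2 h _
  obtain ⟨τ, hτ, hne⟩ := exists_trace_mul_ne_zero R.finrank_eq R.ρ hirr' H huH hu2 hu1 hctr
    (by rw [hcdet]; exact neg_ne_zero.mpr one_ne_zero)
  -- Chebotarev
  obtain ⟨L₁, hL₁, h₁⟩ := R.factorsThroughFiniteLevel
  obtain ⟨ζ, hζ⟩ := HasEnoughRootsOfUnity.exists_primitiveRoot Q̄ 12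
  let L₂ : IntermediateField ℚ Q̄ := IntermediateField.adjoin ℚ {ζ}
  have : FiniteDimensional ℚ L₂ :=
    IntermediateField.adjoin.finiteDimensional (Algebra.IsIntegral.isIntegral ζ)
  obtain ⟨r, hr, hrT, A, hA, σ, hσ, he⟩ := Arith.Chebotarev.exists_frobenius_eq (R.ρ.prod χ)
    (L₁ ⊔ L₂) (fun g hg => Prod.ext (h₁ g fun x hx => hg x ((le_sup_left : L₁ ≤ L₁ ⊔ L₂) hx))
      (by
        refine Units.ext ?_
        show ((modularCyclotomicCharacter Q̄ h12 _ : (ZMod 12)ˣ) : ZMod 12) = 1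
        rw [Arith.modularCyclotomicCharacter_eq_natCast h12 (c := 1) fun μ hμ => ?_]
        · rfl
        obtain ⟨i, -, rfl⟩ := hζ.eq_pow_of_pow_eq_one hμ
        show g (ζ ^ i) = _
        rw [map_pow, pow_one, hg ζ ((le_sup_right : L₂ ≤ L₁ ⊔ L₂)
          (IntermediateField.mem_adjoin_simple_self ℚ ζ))]))
    (c * τ) (T ∪ {2, 3, P.p} ∪ P.freyCurveInt.Δ.natAbs.primeFactors)
  simp only [Finset.mem_union, Finset.mem_insert, Finset.mem_singleton, not_or] at hrT
  obtain ⟨⟨hrT, hr2, hr3, hrp⟩, hrΔ⟩ := hrT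
  have hgood : P.freyCurveInt.IsGoodPrimeFor r := fun h => hrΔ (Nat.mem_primeFactors.mpr
    ⟨hr, Int.natCast_dvd.mp h, Int.natAbs_ne_zero.mpr (EC.Reduction.Frey.Δ_ne_zero P)⟩)
  have hdvd : ¬ r ∣ 12 := fun h => by
    rcases (hr.dvd_mul (m := 4) (n := 3)).mp h with h | h
    · exact hr2 ((Nat.prime_dvd_prime_iff_eq hr Nat.prime_two).mp
        (hr.dvd_of_dvd_pow (show r ∣ 2 ^ 2 from h)))
    · exact hr3 ((Nat.prime_dvd_prime_iff_eq hr Nat.prime_three).mp h)
  have e1 : R.ρ σ = R.ρ c * R.ρ τ := (congrArg Prod.fst he).trans (map_mul _ _ _)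
  have e2 : χ σ = χ c := (congrArg Prod.snd he).trans (by
    show χ (c * τ) = χ c
    rw [map_mul, show χ τ = 1 from hτ.2, mul_one])
  have hr12 : r % 12 = 11 := by
    have h := congrArg (fun z : (ZMod 12)ˣ => (z : ZMod 12)) e2
    have hs : ((χ σ : (ZMod 12)ˣ) : ZMod 12) = r :=
      Arith.modularCyclotomicCharacter_eq_natCast h12
        fun μ hμ => Arith.frobenius_root hA hr hσ hμ hdvd
    simp only [hs, hχc] at h
    have h' := congrArg ZMod.val h
    rwa [ZMod.val_natCast] at h'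
  refine ⟨r, hr, hrT, hr12, hrp, hgood, ?_⟩
  have hcp := Assembly.charpoly_freyRho_frobenius (k := ZMod P.p) hr hgood hrp hA hσ
  rw [EC.FrobTrace.charpoly_of_finrank_eq_two R.finrank_eq, e1] at hcp
  have ht := congrArg (fun f => Polynomial.coeff f 1) hcp
  have hd := congrArg (fun f => Polynomial.coeff f 0) hcp
  simp [coeff_X_pow] at ht hd
  have hτd : LinearMap.det (R.ρ τ) = 1 := congrArg Units.val hτ.1
  rw [hcdet, hτd, mul_one] at hd
  rw [← hd, neg_add_cancel, ← ht, ← map_mul, zero_pow two_ne_zero]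
  exact pow_ne_zero 2 hne

end Fermat.Agent.RT.LowerP

end
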