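import Fermat.Agent.RT.LowerP.Defs
import Fermat.Agent.RT.Mazur.Rational

/-!
# Kummer data of fixed classes

A `p`-torsion class fixed by the group of a coefficient field has Kummer data over that field.
-/

set_option autoImplicit false
set_option synthInstance.maxHeartbeats 400000
set_option linter.unusedSectionVars false

noncomputable section

namespace Fermat.Agent.RT.LowerP

open ModularCurve AlgebraicCurve
open Fermat.Agent.Semistable Fermat.Agent.Arith Fermat.Agent.RT.MazurP

variable {A : ValuationSubring QBar} {p M : ℕ} [Fact p.Prime] [NeZero M] {hpM : ¬ p ∣ M}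
  [CharP (Res A) p] [FF.IsFunctionField (Res A) (KM A M)]

theorem prime_smul_cls {C : CoefField A p} (K : Kum hpM C) : (p : ℤ) • cls K = 0 :=
  Pic0.mem_torsion.mp ((JacTorsion.toTorsion (K := QBar) (F := FB (p * M)) (m := p)
    (Additive.ofMul ⟨Units.mk0 K.f K.f_ne, K.dvd⟩)).2)

/-- A fixed torsion class has Kummer data. -/
theorem exists_kum_of_fixed (hA : A.LiesOverPrime p) (hM : (M : Res A) ≠ 0) (C : CoefField A p)
    (x : JZero (p * M)) (hx : (p : ℤ) • x = 0) (hfix : ∀ τ ∈ C.H, τ • x = x) :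
    ∃ K : Kum hpM C, cls K = x := by
  obtain ⟨f, hfx, -, hff⟩ := RT.Mazur.exists_fixed_kummer (m := p)
    (S := arithmeticGalois (modularFunctionFieldFull (p * M)) '' (C.H : Set GQ))
    (P₀ := Mazur.Eisenstein.placeInf (p * M))
    (by rintro _ ⟨τ, -, rfl⟩; exact RT.Mazur.galois_smul_placeInf τ)
    (fun y : FB (p * M) => (y : LSer).leadingCoeff)
    (fun c y => by
      show ((algebraMap QBar LSer c) * (y : LSer)).leadingCoeff = _
      rw [HahnSeries.leadingCoeff_mul, algebraMap_laurentSeries_eq_single,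
        HahnSeries.leadingCoeff_of_single])
    (fun y hy => HahnSeries.leadingCoeff_ne_zero.mpr fun h => hy (Subtype.ext h))
    (by rintro _ ⟨τ, -, rfl⟩ y; exact JacTorsion.coeffMap_leadingCoeff (τ : QBar →+* QBar) _)
    (x := ⟨x, Pic0.mem_torsion.mpr hx⟩) (by rintro _ ⟨τ, hτ, rfl⟩; exact hfix τ hτ)
  obtain ⟨K, hK⟩ := Kum.exists_of (hpM := hpM) (C := C) hA hM (f := ((f : (FB (p * M))ˣ) : FB (p * M)))
    (Units.ne_zero _) f.2 (fun τ hτ => hff _ ⟨τ, hτ, rfl⟩)
  refine ⟨K, ?_⟩
  rw [cls, show (⟨Units.mk0 K.f K.f_ne, K.dvd⟩ : JacTorsion.divGrp QBar (FB (p * M)) p) = f from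
    Subtype.ext (Units.ext hK), hfx]

end Fermat.Agent.RT.LowerP

end
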