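import Fermat.Agent.RT.LowerP.Kernel
import Fermat.Agent.RT.LowerP.KumExists
import Fermat.Agent.GaloisReps.HeckeGalois

/-!
# From eigen classes to an eigenform of level `M`

An eigen class of non-Eisenstein system fixed by inertia, or moved by the wild generator to a
class fixed by the tame field, gives a congruent eigenform of level `M`.
-/

set_option autoImplicit false
set_option synthInstance.maxHeartbeats 400000
set_option maxHeartbeats 1000000
set_option linter.unusedSectionVars false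

noncomputable section

namespace Fermat.Agent.RT.LowerP

open ModularCurve AlgebraicCurve
open Fermat.Agent.Semistable Fermat.Agent.Arith Fermat.Agent.RT.MazurP

variable {A : ValuationSubring QBar} {p M : ℕ} [hpf : Fact p.Prime] [CharP (Res A) p] [NeZero M]
  [FF.IsFunctionField (Res A) (KM A M)]

/-- The steps performed on a single Kummer datum. -/
structure Steps {hpM : ¬ p ∣ M} (V : VUnit A hpM) (G : ℕ → Prop) (a : ℕ → ℤ) : Prop where
  delta : ∀ {C : CoefField A p} (K : Kum hpM C), IsEigen (p * M) G a (cls K) → (p : ℤ) ∣ K.δ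
  tame : ∀ {C : CoefField A p} (K : Kum hpM C), (p : ℤ) ∣ K.δ → ¬ p ∣ C.e → OrdDvd K
  wild : ∀ {W : Wild A p} (K : Kum hpM W.C) (R : SigmaRel W K) (K₀ : Kum hpM W.C₁),
    R.f₀ = K₀.f → IsTriv K₀ → IsEigen (p * M) G a (cls K) → IsEigen (p * M) G a (cls K₀) →
      (p : ℤ) ∣ K.δ → OrdDvd K
  sigma : ∀ {W : Wild A p} (K : Kum hpM W.C) (K₀ : Kum hpM W.C₁), IsTriv K₀ →
    W.σ • cls K = cls K + cls K₀ → ∃ R : SigmaRel W K, R.f₀ = K₀.f
  form : ∀ {C : CoefField A p} (K : Kum hpM C), IsEigen (p * M) G a (cls K) → OrdDvd K →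
    (p : ℤ) ∣ K.δ → CongAt M p G a ∨ ∃ K' : Kum hpM C, IsTriv K' ∧ cls K' = cls K

variable {h : Setup A M p}

/-- The eigen classes give an eigenform of level `M`. -/
theorem congAt_of_steps (hs : SmulOne h) (V : VUnit A h.hqM) (hV : V.Simple) {G : ℕ → Prop}
    {a : ℕ → ℤ} (st : Steps V G a) (hp5 : 5 ≤ p)
    (hcls : (∃ y : JZero (p * M), y ≠ 0 ∧ (p : ℤ) • y = 0 ∧ IsEigen (p * M) G a y ∧
        ∀ τ ∈ A.inertiaSubgroupIn ℚ, τ • y = y) ∨
      ∃ (W : Wild A p) (x : JZero (p * M)), (p : ℤ) • x = 0 ∧ IsEigen (p * M) G a x ∧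
        (∀ τ ∈ W.C.H, τ • x = x) ∧ W.σ • x ≠ x ∧
        ∀ τ ∈ W.C₁.H, τ • (W.σ • x - x) = W.σ • x - x) : CongAt M p G a := by
  have hp : p.Prime := hpf.out
  rcases hcls with ⟨y, hy0, hpy, hy, hfix⟩ | ⟨W, x, hpx, hx, hfix, hmov, hfix₀⟩
  · obtain ⟨K, hK⟩ := exists_kum_of_fixed (hpM := h.hqM) h.hA h.hM (unramField (p := p) h.hA) y hpy
      hfix
    have hKe : IsEigen (p * M) G a (cls K) := hK.symm ▸ hy
    have hd := st.delta K hKe
    have he : ¬ p ∣ (unramField (p := p) h.hA).e := by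
      rw [unramField_e]; exact hp.not_dvd_one
    rcases st.form K hKe (st.tame K hd he) hd with hc | ⟨K', hK', e⟩
    · exact hc
    · exact (false_of_isTriv_small hs V hV K' hK' (by rw [e, hK]; exact hy0)
        (by rw [unramField_e]; omega)).elim
  · set x₀ := W.σ • x - x with hx₀
    have hx₀0 : x₀ ≠ 0 := sub_ne_zero.mpr hmov
    have hpx₀ : (p : ℤ) • x₀ = 0 := by
      have e : (p : ℤ) • (W.σ • x) = W.σ • ((p : ℤ) • x) :=
        (map_zsmul (DistribSMul.toAddMonoidHom (JZero (p * M)) W.σ) (p : ℤ) x).symm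
      rw [hx₀, zsmul_sub, hpx, sub_zero, e, hpx]
      exact map_zero (DistribSMul.toAddMonoidHom (JZero (p * M)) W.σ)
    have hx₀e : IsEigen (p * M) G a x₀ := fun l hl hG => by
      rw [hx₀, map_sub, ← GaloisReps.galois_heckeOperatorBar, hx l hl hG, zsmul_sub]
      congr 1
      exact map_zsmul (DistribSMul.toAddMonoidHom (JZero (p * M)) W.σ) (a l) x
    obtain ⟨K₁, hK₁⟩ := exists_kum_of_fixed (hpM := h.hqM) h.hA h.hM W.C₁ x₀ hpx₀ hfix₀
    have hK₁e : IsEigen (p * M) G a (cls K₁) := hK₁.symm ▸ hx₀e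
    have hd₁ := st.delta K₁ hK₁e
    have he₁ : ¬ p ∣ W.C₁.e := by
      rw [W.e₁_eq]
      exact fun hd => absurd (Nat.le_of_dvd (by omega) hd) (by omega)
    rcases st.form K₁ hK₁e (st.tame K₁ hd₁ he₁) hd₁ with hc | ⟨K₀, hK₀, e₀⟩
    · exact hc
    obtain ⟨K, hK⟩ := exists_kum_of_fixed (hpM := h.hqM) h.hA h.hM W.C x hpx hfix
    have hKe : IsEigen (p * M) G a (cls K) := hK.symm ▸ hx
    have hK₀e : IsEigen (p * M) G a (cls K₀) := e₀.symm ▸ hK₁e
    have hrel : W.σ • x = x + cls K₀ := by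
      rw [e₀, hK₁, hx₀]; abel
    have hd := st.delta K hKe
    obtain ⟨R, hR⟩ := st.sigma K K₀ hK₀ (by rw [hK]; exact hrel)
    rcases st.form K hKe (st.wild K R K₀ hR hK₀ hKe hK₀e hd) hd with hc | ⟨K', hK', e⟩
    · exact hc
    obtain ⟨R', hR'⟩ := st.sigma K' K₀ hK₀ (by rw [e, hK]; exact hrel)
    refine (false_of_isTriv_wild hs V hV K' hK' R' K₀ hR' hK₀ ?_ (by rw [e₀, hK₁]; exact hx₀0)).elim
    rw [e, hK]
    exact fun h0 => hmov (by
      rw [h0]; exact map_zero (DistribSMul.toAddMonoidHom (JZero (p * M)) W.σ))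

end Fermat.Agent.RT.LowerP

end
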