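import Fermat.Agent.RT.LowerP.Defs
import Fermat.Agent.RT.MazurP.LocalE
import Fermat.Agent.RT.Mazur.Residual
import Fermat.Agent.RT.Mazur.Principle.EigenClass
import Fermat.Agent.GaloisReps.Results
import Fermat.Agent.Arith.Chebotarev.Main
import Fermat.Agent.Deform.Burnside
import Fermat.Agent.Deform.Residual
import Fermat.Agent.EC.Reduction.Frey
import Fermat.Agent.RT.Assembly.Forms
import Fermat.Prelude.Def_FLTPrelim_ModularRep

/-!
# The eigen classes with the Galois action of the residual representation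

The classes in `J₀(p M)[p]` with the eigenvalues of the Frey curve are nonzero, satisfy its
quadratic relations by Eichler–Shimura and Chebotarev, and so contain either a class fixed by
inertia at `p` or a class moved by the wild generator of the field of its `p`-torsion.
-/

set_option autoImplicit false
set_option synthInstance.maxHeartbeats 400000
set_option maxHeartbeats 1000000

noncomputable section

open ModularCurve AlgebraicCurve CongruenceSubgroup
open Fermat.Agent.Semistable Fermat.Agent.Arith Fermat.Agent.RT.MazurP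

namespace Fermat.Agent.RT.LowerP

/-- The `m`-torsion of the Jacobian of level `N`. -/
abbrev Tor (N m : ℕ) [NeZero N] : Type :=
  Pic0.torsion QBar (modularFunctionFieldBar N) m

/-- The torsion as a vector space. -/
@[reducible] def torModule (N m : ℕ) [NeZero N] : Module (ZMod m) (Tor N m) :=
  AddCommGroup.zmodModule fun x => Subtype.ext (by
    rw [AddSubgroup.coe_nsmul, ← natCast_zsmul]
    exact Pic0.mem_torsion.mp x.2)

attribute [local instance] torModule

/-- Galois on the torsion. -/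
def torRep (N m : ℕ) [NeZero N] : GQ →* Module.End (ZMod m) (Tor N m) where
  toFun g := AddMonoidHom.toZModLinearMap m
    { toFun := fun x => ⟨g • (x : JZero N),
        SemilinearAut.smul_mem_torsion (arithmeticGalois (modularFunctionFieldFull N) g) x.2⟩
      map_zero' := Subtype.ext (smul_zero g)
      map_add' := fun x y => Subtype.ext (smul_add g (x : JZero N) (y : JZero N)) }
  map_one' := LinearMap.ext fun x => Subtype.ext (one_smul GQ (x : JZero N))
  map_mul' g h := LinearMap.ext fun x => Subtype.ext (mul_smul g h (x : JZero N))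

open WeierstrassCurve WeierstrassCurve.Affine WeierstrassCurve.Affine.Point

/-- The primes at which the classes are eigen. -/
def ClassPrime (P : FreyPackage) (M : ℕ) (l : ℕ) : Prop :=
  P.freyCurveInt.IsGoodPrimeFor l ∧ ¬ l ∣ P.p * M

open Fermat.Agent.EC.Rep in
/-- Either an eigen class fixed by inertia at `p`, or one moved by the wild generator and by a
fixed class only. -/
theorem exists_classes (P : FreyPackage) [Fact P.p.Prime] {M : ℕ} [NeZero M]
    (hmod : P.ModularRepOfLevel (P.p * M))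
    (hES : GaloisReps.CongruenceProperty (P.p * M) P.p)
    (hirr : GaloisRepIsIrreducible (K := AlgebraicClosure ℚ) ℚ P.freyCurve P.p)
    (hpabc : (P.p : ℤ) ∣ P.a * P.b * P.c)
    {A : ValuationSubring QBar} (hA : A.LiesOverPrime P.p) :
    (∃ y : JZero (P.p * M), y ≠ 0 ∧ (P.p : ℤ) • y = 0 ∧
      IsEigen (P.p * M) (ClassPrime P M) P.freyCurveInt.apOfModel y ∧
      ∀ τ ∈ A.inertiaSubgroupIn ℚ, τ • y = y) ∨
    ∃ (W : Wild A P.p) (x : JZero (P.p * M)), (P.p : ℤ) • x = 0 ∧
      IsEigen (P.p * M) (ClassPrime P M) P.freyCurveInt.apOfModel x ∧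
      (∀ τ ∈ W.C.H, τ • x = x) ∧ W.σ • x ≠ x ∧
      ∀ τ ∈ W.C₁.H, τ • (W.σ • x - x) = W.σ • x - x := by
  classical
  set p := P.p with hpdef
  set N := p * M with hN
  have hp : p.Prime := P.pp
  have hp5 := P.hp5
  have hp2 : p ≠ 2 := by omega
  set E := P.freyCurveInt with hE
  have hΔ0 : E.Δ ≠ 0 := EC.Reduction.Frey.Δ_ne_zero P
  have hirr' := hirr
  rw [EC.Reduction.Frey.freyCurve_eq_map] at hirr'
  -- the residual representation in coordinates
  set ρ := residualRep E p hΔ0
  let b := Module.finBasisOfFinrankEq (ZMod p) ρ.V ρ.finrank_eq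
  let r : GQ →* Matrix (Fin 2) (Fin 2) (ZMod p) :=
    (LinearMap.toMatrixAlgEquiv b : _ →* _).comp ρ.ρ
  have hspan : Submodule.span (ZMod p) (Set.range r) = ⊤ :=
    Deform.span_matrix_eq_top ρ (isAbsolutelyIrreducible_residualRep hΔ0 hp2 hirr') b
  have htr : ∀ g, (r g).trace = LinearMap.trace (ZMod p) ρ.V (ρ.ρ g) := fun g =>
    (LinearMap.trace_eq_matrix_trace _ b _).symm
  have hdet : ∀ g, (r g).det = LinearMap.det (ρ.ρ g) := fun g => LinearMap.det_toMatrix b _
  have hdetχ : ∀ g, (r g).det = (cyclotomicHom p g : ZMod p) := fun g => by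
    rw [hdet, det_residualRep hΔ0 (card_rootsOfUnity_qbar p), cyclotomicHom_apply]
  have hfrob : ∀ l : ℕ, l.Prime → E.IsGoodPrimeFor l → l ≠ p → ∀ (B : ValuationSubring QBar),
      B.LiesOverPrime l → ∀ s : GQ, B.IsFrobeniusAt s l →
        (r s).trace = (E.apOfModel l : ZMod p) ∧ (r s).det = (l : ZMod p) := by
    intro l hl hgood hne B hB s hs
    have h := charpoly_residualRep_frobenius hΔ0 hl hgood hne hB hs
    rw [EC.FrobTrace.charpoly_of_finrank_eq_two ρ.finrank_eq] at h
    have h0 := congrArg (fun q => Polynomial.coeff q 0) h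
    have h1 := congrArg (fun q => Polynomial.coeff q 1) h
    simp [Polynomial.coeff_natCast_ite] at h0 h1
    exact ⟨(htr s).trans h1, (hdet s).trans h0⟩
  -- the torsion as a Galois module
  let T := Tor N p
  have : Finite T := Finite.of_injective _ (((JacTorsion.torsionEquiv N p).trans
    (AddEquiv.ofBijective ((GaloisReps.coord N (ZMod p)).comp
      (Gamma0.ellParHoms (Gamma0 N) (ZMod p)).subtype) (GaloisReps.coord_bijective (ZMod p)))).injective)
  let ψ : GQ →* Module.End (ZMod p) T := torRep N p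
  have hψ : ∀ g x, ((ψ g x : T) : JZero N) = g • (x : JZero N) := fun _ _ => rfl
  have hscal : ∀ (c : ℤ) (x : T), (((c : ZMod p) • x : T) : JZero N) = c • (x : JZero N) :=
    fun c x => by rw [Int.cast_smul_eq_zsmul, AddSubgroup.coe_zsmul]
  -- the congruent form
  obtain ⟨f, Wm, 𝔪, hf, hWm, h𝔪, hp𝔪, hcong⟩ := hmod
  have hell : P.freyCurve.IsElliptic := Mazur.Small.frey_isElliptic P
  have hWm0 : Wm.Δ ≠ 0 := by
    obtain ⟨C, hC⟩ := hWm
    have hV : (Wm.map (Int.castRingHom ℚ)).IsElliptic := hC ▸ inferInstance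
    intro h0
    exact hV.isUnit.ne_zero (by rw [WeierstrassCurve.map_Δ, h0, _root_.map_zero])
  set G' : ℕ → Prop := fun l => ClassPrime P M l ∧ Wm.IsGoodPrimeFor l
  have hlp : ∀ {l : ℕ}, ClassPrime P M l → l ≠ p := fun {l} h e => h.2 (e ▸ dvd_mul_right p M)
  obtain ⟨y₀, hy₀, hy₀p, hy₀G⟩ := Mazur.exists_eigen_torsion (N := N) (p := p) G'
    (fun l => E.apOfModel l) hf h𝔪 hp𝔪 fun l hl hGl => by
      obtain ⟨c, hc, hc'⟩ := hcong l hl hGl.2 hGl.1.2 (hlp hGl.1)
      refine ⟨c, hc, ?_⟩
      have e := (ZMod.intCast_eq_intCast_iff_dvd_sub _ _ p).mp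
        (Assembly.apOfModel_cast_eq (p := p) (E := P.freyCurve)
          ⟨1, by rw [one_smul, EC.Reduction.Frey.freyCurve_eq_map]⟩ hWm hl hGl.1.1 hGl.2
          (hlp hGl.1))
      obtain ⟨k, hk⟩ := e
      have h2 : c - ((E.apOfModel l : ℤ) : integralClosure ℤ ℂ) =
          (c - ((Wm.apOfModel l : ℤ) : integralClosure ℤ ℂ)) +
            (p : integralClosure ℤ ℂ) * (k : integralClosure ℤ ℂ) := by
        rw [show (p : integralClosure ℤ ℂ) * k = (((p : ℤ) * k : ℤ) : integralClosure ℤ ℂ) by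
          push_cast; rfl, ← hk]
        push_cast
        ring
      rw [h2]
      exact add_mem hc' (𝔪.mul_mem_right _ hp𝔪)
  let V₁ : Submodule (ZMod p) T :=
    { carrier := {x | IsEigen N G' (fun l => E.apOfModel l) (x : JZero N)}
      add_mem' := fun {x y} hx hy l hl hG => by
        rw [AddSubgroup.coe_add, map_add, hx l hl hG, hy l hl hG, zsmul_add]
      zero_mem' := fun l hl hG => by rw [AddSubgroup.coe_zero, _root_.map_zero, zsmul_zero]
      smul_mem' := fun c x hx l hl hG => by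
        obtain ⟨c, rfl⟩ := ZMod.intCast_surjective c
        rw [hscal, map_zsmul, hx l hl hG, smul_comm] }
  have h₁ : Mazur.IsStableUnder ψ V₁ := fun g x hx l hl hG => by
    rw [hψ, ← GaloisReps.galois_heckeOperatorBar N ⟨l, hl⟩ g (x : JZero N), hx l hl hG]
    exact (map_zsmul (DistribSMul.toAddMonoidHom (JZero N) g) _ _)
  have h₁0 : V₁ ≠ ⊥ := (Submodule.ne_bot_iff _).mpr
    ⟨⟨y₀, Pic0.mem_torsion.mpr (by rw [natCast_zsmul]; exact hy₀p)⟩, hy₀G, fun h => hy₀ (congrArg Subtype.val h)⟩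
  have hES' : ∀ (l : ℕ) (hl : l.Prime), ¬ l ∣ N → ∀ (B : ValuationSubring QBar),
      B.LiesOverPrime l → ∀ s : GQ, B.IsFrobeniusAt s l → ∀ x : T,
        s • s • (x : JZero N) - heckeOperatorBar N ⟨l, hl⟩ (s • (x : JZero N)) +
          l • (x : JZero N) = 0 := fun l hl hlN B hB s hs x => by
    refine (hES l hl ?_ B hB 1 ⟨x, by rw [GaloisReps.JTors, pow_one]; exact x.2⟩).2 s hs
    intro h
    rcases hl.dvd_mul.mp h with h | h
    · exact hlN h
    · exact hlN (h.trans (dvd_mul_right p M))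
  have hquad : ∀ g, ∀ v ∈ V₁, ψ g (ψ g v) - (r g).trace • ψ g v + (r g).det • v = 0 := by
    intro g v hv
    obtain ⟨L₀, hL₀, hρ⟩ := ρ.factorsThroughFiniteLevel
    choose L hLfin hL using fun x : T => GaloisReps.exists_fixing_torsion N x
    have : ∀ x, FiniteDimensional ℚ (L x) := hLfin
    obtain ⟨l, hl, hlS, B, hB, s, hs, he⟩ := Arith.Chebotarev.exists_frobenius_eq
      (ψ.prod ρ.ρ) (L₀ ⊔ ⨆ x, L x) (fun τ hτ => Prod.ext
        (LinearMap.ext fun x => Subtype.ext (hL x τ fun z hz =>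
          hτ z ((le_sup_right : _ ≤ L₀ ⊔ ⨆ x, L x) (le_iSup L x hz))))
        (hρ τ fun z hz => hτ z ((le_sup_left : L₀ ≤ L₀ ⊔ ⨆ x, L x) hz))) g
      (N.primeFactors ∪ E.Δ.natAbs.primeFactors ∪ Wm.Δ.natAbs.primeFactors)
    simp only [Finset.mem_union, not_or] at hlS
    have hgoodE : E.IsGoodPrimeFor l := fun h => hlS.1.2 (Nat.mem_primeFactors.mpr
      ⟨hl, Int.natCast_dvd.mp h, Int.natAbs_ne_zero.mpr hΔ0⟩)
    have hlN : ¬ l ∣ N := fun h => hlS.1.1 (Nat.mem_primeFactors.mpr ⟨hl, h, NeZero.ne N⟩)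
    have hgoodW : Wm.IsGoodPrimeFor l := fun h => hlS.2 (Nat.mem_primeFactors.mpr
      ⟨hl, Int.natCast_dvd.mp h, Int.natAbs_ne_zero.mpr hWm0⟩)
    have hG : G' l := ⟨⟨hgoodE, hlN⟩, hgoodW⟩
    have he1 : ψ s = ψ g := congrArg Prod.fst he
    have hre : r s = r g := congrArg (fun q => LinearMap.toMatrixAlgEquiv b q) (congrArg Prod.snd he)
    rw [← he1, ← hre]
    obtain ⟨h1, h2⟩ := hfrob l hl hgoodE (hlp hG.1) B hB s hs
    rw [h1, h2]
    refine Subtype.ext ?_
    have h3 := hES' l hl hlN B hB s hs v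
    rw [show s • (v : JZero N) = ψ s v from rfl, h₁ s v hv l hl hG] at h3
    rw [AddSubgroup.coe_add, AddSubgroup.coe_sub, hscal, ← Int.cast_natCast (R := ZMod p), hscal,
      natCast_zsmul]
    exact h3
  -- the congruences at all primes of `ClassPrime`
  have hall : ∀ v ∈ V₁, IsEigen N (ClassPrime P M) E.apOfModel (v : JZero N) := by
    intro v hv l hl hG
    obtain ⟨B, hB⟩ := Arith.exists_liesOverPrime hl
    obtain ⟨s, hs⟩ := Arith.exists_isFrobeniusAt hB hl
    obtain ⟨h1, h2⟩ := hfrob l hl hG.1 (hlp hG) B hB s hs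
    set v' := ψ s⁻¹ v
    have hv' : v' ∈ V₁ := h₁ _ v hv
    have e : ψ s v' = v := by
      rw [← Module.End.mul_apply, ← map_mul, mul_inv_cancel, map_one]
      rfl
    have h4 := congrArg Subtype.val (hquad s v' hv')
    rw [h1, h2, AddSubgroup.coe_add, AddSubgroup.coe_sub, hscal,
      ← Int.cast_natCast (R := ZMod p), hscal, natCast_zsmul, AddSubgroup.coe_zero] at h4
    have h3 := hES' l hl hG.2 B hB s hs v'
    rw [show s • (v' : JZero N) = ψ s v' from rfl] at h3
    rw [hψ s (ψ s v')] at h4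
    rw [e] at h3 h4
    have h5 := h4.trans h3.symm
    simpa using h5.symm
  obtain ⟨U, hUV, hU0, hU, hUtriv, hUscal⟩ :=
    Mazur.exists_submodule_kernel ψ r hspan V₁ h₁ h₁0 hquad
  have hEig : ∀ x ∈ U, (P.p : ℤ) • (x : JZero N) = 0 ∧
      IsEigen N (ClassPrime P M) E.apOfModel (x : JZero N) := fun x hx =>
    ⟨Pic0.mem_torsion.mp x.2, hall x (hUV hx)⟩
  -- the trivially acting part of inertia
  have hwild : ∀ h ∈ wildKer A E p, ∀ v ∈ U, ψ h v = v := fun h hh => hUtriv h (by
    have : ρ.ρ h = 1 := LinearMap.ext fun x => Subtype.ext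
      ((mem_wildKer.mp hh).2 x.1 ((Submodule.mem_torsionBy_iff _ _).mp x.2))
    show LinearMap.toMatrixAlgEquiv b (ρ.ρ h) = 1
    rw [this, map_one])
  obtain ⟨-, htrace⟩ := exists_frame hA hp2 hΔ0 (EC.Reduction.Frey.dvd_Δ P hp hp2 hpabc)
    (EC.Reduction.Frey.not_dvd_c₄ P hp hpabc)
  rcases frey_wildKer_eq_tameKer_or_exists_wild P hA hpabc with htame |
      ⟨W, hC, hC₁, ⟨x₀, hx₀, hmove⟩, hgen⟩
  · left
    obtain ⟨τ₀, hτ₀, hprim, -, hgen⟩ := exists_tame_generator (p := p) hA
    set χ : ZMod p := (cyclotomicHom p τ₀ : ZMod p)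
    have hχ : χ ≠ 1 := fun h => by
      have := hprim 1 (by rw [pow_one]; exact h)
      have := Nat.le_of_dvd one_pos this
      omega
    have ht : (r τ₀).trace = χ + 1 := (htr τ₀).trans (htrace τ₀ hτ₀)
    have hns : ∀ c : ZMod p, r τ₀ ≠ c • 1 := by
      intro c hc
      have hd := hdetχ τ₀
      rw [hc, Matrix.trace_smul, Matrix.trace_one, Fintype.card_fin, smul_eq_mul] at ht
      rw [hc, Matrix.det_smul, Matrix.det_one, Fintype.card_fin, mul_one] at hd
      push_cast at ht
      refine hχ (sub_eq_zero.mp (pow_eq_zero_iff two_ne_zero |>.mp (?_ : (χ - 1) ^ 2 = 0)))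
      linear_combination (-(χ + 1) - c * 2) * ht + 4 * hd
    obtain ⟨v, hv, hne⟩ := hUscal τ₀ hns χ
    set y := ψ τ₀ v - χ • v with hy
    have hyU : y ∈ U := sub_mem (hU τ₀ v hv) (U.smul_mem χ hv)
    have hfix : ψ τ₀ y = y := by
      have hq := hquad τ₀ v (hUV hv)
      rw [ht, hdetχ] at hq
      rw [hy, map_sub, map_smul, ← sub_eq_zero]
      linear_combination (norm := module) hq
    refine ⟨(y : JZero N), fun h => hne (sub_eq_zero.mp (Subtype.ext h : y = 0)),
      (hEig y hyU).1, (hEig y hyU).2, fun τ hτ => ?_⟩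
    obtain ⟨i, hi⟩ := hgen τ hτ
    rw [← htame] at hi
    have hpow : ∀ i : ℕ, ψ (τ₀ ^ i) y = y := fun i => by
      induction i with
      | zero => rw [pow_zero, map_one]; rfl
      | succ i ih => rw [pow_succ, map_mul, Module.End.mul_apply, hfix, ih]
    have h' : ψ τ y = y := by
      rw [← mul_inv_cancel_left (τ₀ ^ i) τ, map_mul, Module.End.mul_apply, hwild _ hi y hyU, hpow]
    exact congrArg Subtype.val h'
  · right
    have hσI := W.σ_mem_inertia
    have hσt : W.σ ∈ tameKer A p := hC₁ ▸ W.σ_mem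
    have hχσ : (cyclotomicHom p W.σ : ZMod p) = 1 := by
      rw [(mem_tameKer.mp hσt).2, Units.val_one]
    have ht : (r W.σ).trace = 2 := by
      rw [htr, htrace W.σ hσI, hχσ]; norm_num
    have hd : (r W.σ).det = 1 := (hdetχ _).trans hχσ
    have hns : ∀ c : ZMod p, r W.σ ≠ c • 1 := by
      intro c hc
      have hc1 : c = 1 := by
        rw [hc, Matrix.trace_smul, Matrix.trace_one, Fintype.card_fin, smul_eq_mul] at ht
        push_cast at ht
        have := mul_right_cancel₀ (two_ne_zero_zmod hp2) (ht.trans (one_mul (2 : ZMod p)).symm)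
        exact this
      refine hmove ?_
      have h1 : ρ.ρ W.σ = 1 := (LinearMap.toMatrixAlgEquiv b).injective
        (by rw [map_one]; exact hc.trans (by rw [hc1, one_smul]))
      exact congrArg Subtype.val
        (LinearMap.congr_fun h1 ⟨x₀, (Submodule.mem_torsionBy_iff _ _).mpr hx₀⟩)
    obtain ⟨x, hx, hne⟩ := hUscal W.σ hns 1
    rw [one_smul] at hne
    refine ⟨W, (x : JZero N), (hEig x hx).1, (hEig x hx).2,
      fun τ hτ => congrArg Subtype.val (hwild τ (hC ▸ hτ) x hx),
      fun h => hne (Subtype.ext h), fun τ hτ => ?_⟩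
    set y := ψ W.σ x - x with hy
    have hyU : y ∈ U := sub_mem (hU _ x hx) hx
    have hfix : ψ W.σ y = y := by
      have hq := hquad W.σ x (hUV hx)
      rw [ht, hd, one_smul] at hq
      rw [hy, map_sub, ← sub_eq_zero]
      linear_combination (norm := module) hq
    obtain ⟨i, hi⟩ := hgen τ (hC₁ ▸ hτ)
    have hpow : ∀ i : ℕ, ψ (W.σ ^ i) y = y := fun i => by
      induction i with
      | zero => rw [pow_zero, map_one]; rfl
      | succ i ih => rw [pow_succ, map_mul, Module.End.mul_apply, hfix, ih]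
    have h' : ψ τ y = y := by
      rw [← mul_inv_cancel_left (W.σ ^ i) τ, map_mul, Module.End.mul_apply, hwild _ hi y hyU, hpow]
    exact congrArg Subtype.val h'

end Fermat.Agent.RT.LowerP

end
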