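import Fermat.Agent.RT.MazurP.Level
import Fermat.Agent.RT.MazurP.Eigen
import Fermat.Agent.RT.MazurP.HeckeSeries

/-!
# Level lowering at `p`: the notions shared by the steps

The class of a Kummer function, functions with trivial pair of reductions, levels without
elliptic points, and the conclusion at level `M`.
-/

set_option autoImplicit false
set_option synthInstance.maxHeartbeats 400000

noncomputable section

open CongruenceSubgroup

namespace Fermat.Agent.RT.LowerP

open ModularCurve AlgebraicCurve
open Fermat.Agent.Semistable Fermat.Agent.Arith Fermat.Agent.RT.MazurP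

/-- The curve of level `M` has no elliptic points. -/
def NoEll (M : ℕ) : Prop := nuTwo M = 0 ∧ nuThree M = 0

variable {A : ValuationSubring QBar} {p M : ℕ} [Fact p.Prime] [NeZero M]
variable {hpM : ¬ p ∣ M} {C : CoefField A p}

/-- The class of the divisor of which the divisor of `K.f` is the `p`-fold. -/
def cls (K : Kum hpM C) : JZero (p * M) :=
  (JacTorsion.toTorsion (K := QBar) (F := FB (p * M)) (m := p)
    (Additive.ofMul ⟨Units.mk0 K.f K.f_ne, K.dvd⟩) : JZero (p * M))

/-- Both normalised reductions are one and both orders vanish. -/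
structure IsTriv (K : Kum hpM C) : Prop where
  fb : ∀ s, K.fb s = 1
  v : ∀ s, K.v s = 0

/-- All orders of both reductions are divisible by `p`. -/
def OrdDvd (K : Kum hpM C) : Prop :=
  ∀ (s : Fin 2) (P : Place (Res A) (KM A M)), (p : ℤ) ∣ P.ord (K.fb s)

/-- Some normalised eigenform of weight two and level `M` is congruent to `a` at the primes
in `G`, modulo a maximal ideal over `p`. -/
def CongAt (M : ℕ) (p : ℕ) (G : ℕ → Prop) (a : ℕ → ℤ) : Prop :=
  ∃ (g : CuspForm (Gamma0 M) 2) (_ : g.IsNormalizedEigenform)
    (𝔪 : Ideal (integralClosure ℤ ℂ)), 𝔪.IsMaximal ∧ ((p : ℕ) : integralClosure ℤ ℂ) ∈ 𝔪 ∧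
    ∀ l, l.Prime → G l → ∃ c : integralClosure ℤ ℂ,
      (c : ℂ) = ModularFormClass.qCoeff g l ∧ c - (a l : integralClosure ℤ ℂ) ∈ 𝔪

end Fermat.Agent.RT.LowerP

end
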