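import Fermat.Agent.RT.LowerP.Defs
import Fermat.Agent.RT.MazurP.Regular
import Fermat.Agent.RedTorsion.JLine
import Fermat.Agent.OrdinaryAtP.Flat.KMRoot

/-!
# The step through differential forms

When all orders of both reductions are divisible by `p`, their logarithmic derivatives are
regular differentials with the given Hecke eigenvalues, so either give a congruent eigenform of
level `M` or vanish.
-/

set_option autoImplicit false
set_option synthInstance.maxHeartbeats 400000
set_option maxHeartbeats 1000000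
set_option linter.unusedSectionVars false

noncomputable section

open scoped IntermediateField

namespace Fermat.Agent.RT.LowerP

open ModularCurve AlgebraicCurve
open Fermat.Agent.Semistable Fermat.Agent.Arith Fermat.Agent.RT.MazurP

variable {A : ValuationSubring QBar} {p M : ℕ} [Fact p.Prime] [NeZero M] [CharP (Res A) p]
  [FF.IsFunctionField (Res A) (KM A M)] {hpM : ¬ p ∣ M} {C : CoefField A p}

theorem natCast_series_eq_zero : ((p : ℕ) : LaurentSeries (Res A)) = 0 := by
  rw [← map_natCast (algebraMap (Res A) (LaurentSeries (Res A))), CharP.cast_eq_zero, map_zero]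

/-- An eigen class with all orders of both reductions divisible by `p` gives a congruent eigenform
of level `M` unless both logarithmic derivatives vanish. -/
theorem congAt_or_dlog_eq_zero (hA : A.LiesOverPrime p) (hM : (M : Res A) ≠ 0) (hp5 : 5 ≤ p)
    (K : Kum hpM C) (G : ℕ → Prop) (hG : ∀ l, l.Prime → G l → ¬ l ∣ p * M) (a : ℕ → ℤ)
    (hx : IsEigen (p * M) G a (cls K)) (hord : OrdDvd K) :
    CongAt M p G a ∨ ∀ s, dlog ((K.fb s : KM A M) : LaurentSeries (Res A)) = 0 := by
  have hp : p.Prime := Fact.out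
  have := residueField_isAlgClosed A
  have : FiniteDimensional (Res A)⟮jK A M⟯ (KM A M) :=
    RedTorsion.finiteDimensional_jF (N := M) rfl hM
  have : Algebra.IsSeparable (Res A)⟮jK A M⟯ (KM A M) :=
    RedTorsion.isSeparable_jF (N := M) rfl hM
  obtain ⟨hreg, hg⟩ := regForms_eq_redLattice (A := A) (M := M) p hA hp5 hM
  refine (em _).elim Or.inr fun hne => Or.inl ?_
  push Not at hne
  obtain ⟨s, hs⟩ := hne
  set z : LaurentSeries (Res A) := (K.fb s : LaurentSeries (Res A)) with hz
  have hz0 : z ≠ 0 := fun h0 => K.fb_ne s (Subtype.ext h0)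
  have hmem : dlog z ∈ redLattice A M := by
    rw [← hreg]
    refine ⟨dd (K := Res A) (jK A M) (K.fb s) / K.fb s,
      dlog_mem_regular p hA hM hg hp5 (K.fb_ne s) (hord s), ?_⟩
    rw [mulTheta_apply, dlog, hz, coe_dd_mul_theta, IntermediateField.coe_div, div_mul_eq_mul_div]
  refine exists_eigenform_of_redLattice p hmem hs G
    (fun l hl hGl h => hG l hl hGl (dvd_mul_of_dvd_right h p)) a ?_
  intro l hl hGl n
  have : NeZero l := ⟨hl.ne_zero⟩
  have hlN := hG l hl hGl
  have hlp : ¬ p ∣ l := fun h => hlN (dvd_mul_of_dvd_left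
    (by rw [(Nat.prime_dvd_prime_iff_eq hp hl).mp h]) M)
  have hlA : (l : Res A) ≠ 0 := by rwa [Ne, CharP.cast_eq_zero_iff (Res A) p]
  obtain ⟨h, hh, e⟩ := exists_heckeNorm_eq (N := p * M) (m := p) l hl
    ⟨Units.mk0 K.f K.f_ne, K.dvd⟩ (a l) (hx l hl hGl)
  simp only [Units.val_mk0] at e
  have hfz : IsRed A (iota2 M p hpM s K.f) z := by
    obtain ⟨hm, em⟩ := K.spec s
    exact ⟨hz0, _, zpow_ne_zero _ C.π_ne_zero, hm, em⟩
  obtain ⟨X, hX, himg⟩ := exists_isRed_heckeImage (l := l) hA hp hlp
    (iota2_fracS (A := A) M p hpM s (heckeNorm (p * M) l K.f))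
    (fun ζ hζ => qExpand_iota2_heckeNorm p M l hpM hl hlN s hζ K.f) hfz
  obtain ⟨w, hw⟩ := IsRed.exists_of_ne_zero (A := A) hA hp
    (iota2_fracS (A := A) M p hpM s h) ((_root_.map_ne_zero _).mpr hh)
  have hprod : IsRed A (iota2 M p hpM s (heckeNorm (p * M) l K.f)) (z ^ (a l) * w ^ p) := by
    rw [e, map_mul, map_pow, map_zpow₀]
    exact (hfz.zpow (a l)).mul (hw.pow p)
  obtain ⟨u, hu, eu⟩ := hX.unique hprod
  have hd : dlog X = ((a l : ℤ) : LaurentSeries (Res A)) * dlog z := by
    have h1 := congrArg dlog eu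
    rw [dlog_mul (zpow_ne_zero _ hz0) (pow_ne_zero _ hw.1), dlog_zpow hz0, dlog_pow,
      natCast_series_eq_zero, zero_mul, add_zero,
      dlog_mul ((_root_.map_ne_zero _).mpr hu) hX.1, MazurP.algebraMap_eq_C, dlog_C, zero_add] at h1
    exact h1.symm
  have : NeZero (l : Res A) := ⟨hlA⟩
  obtain ⟨η₀, hη₀⟩ := HasEnoughRootsOfUnity.exists_primitiveRoot (Res A) l
  have hη : IsPrimitiveRoot (hη₀.isUnit hl.ne_zero).unit l :=
    IsPrimitiveRoot.coe_units_iff.mp (by simpa using hη₀)
  have hc := himg.coeff_dlog hlA hη hz0 n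
  rw [hd, ← map_intCast (HahnSeries.C : Res A →+* LaurentSeries (Res A)), coeff_C_mul] at hc
  exact hc.symm

/-- A function with vanishing logarithmic derivative is a `p`-th power. -/
theorem exists_eq_pow_of_dlog_eq_zero (hM : (M : Res A) ≠ 0) {z : KM A M} (hz : z ≠ 0)
    (h : dlog (z : LaurentSeries (Res A)) = 0) : ∃ w : KM A M, z = w ^ p := by
  have hp : p.Prime := Fact.out
  have := residueField_isAlgClosed A
  have hθ : theta (Res A) (z : LaurentSeries (Res A)) = 0 :=
    (div_eq_zero_iff.mp h).resolve_right fun h0 => hz (Subtype.ext h0)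
  set x : LaurentSeries (Res A) := (z : LaurentSeries (Res A)) with hx
  let φ := frobeniusEquiv (Res A) p
  have hsupp : ∀ k : ℤ, ¬ (p : ℤ) ∣ k → x.coeff k = 0 := fun k hk =>
    coeff_eq_zero_of_theta_eq_zero hθ fun h0 => hk ((CharP.intCast_eq_zero_iff (Res A) p k).mp h0)
  let w : LaurentSeries (Res A) := HahnSeries.ofSuppBddBelow
    (fun k => φ.symm (x.coeff ((p : ℤ) * k))) ⟨min x.order 0, fun k hk => by
      have hne : x.coeff ((p : ℤ) * k) ≠ 0 := fun h0 => hk (by show φ.symm _ = 0; rw [h0, map_zero])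
      have h1 := HahnSeries.order_le_of_coeff_ne_zero hne
      have := hp.two_le
      rcases le_or_gt 0 k with hk0 | hk0
      · exact le_trans (min_le_right _ _) hk0
      · refine le_trans (min_le_left _ _) (h1.trans ?_)
        nlinarith⟩
  have hw : w ^ p = x := by
    rw [pow_char_eq_qExpand p w]
    ext k
    by_cases hk : (p : ℤ) ∣ k
    · obtain ⟨k, rfl⟩ := hk
      rw [qExpand_coeff_mul, coeffMap_coeff]
      exact φ.apply_symm_apply _
    · rw [qExpand_coeff_of_not_dvd p _ hk, hsupp k hk]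
  exact ⟨⟨w, OrdinaryAtP.mem_KM_of_pow_mem (q := p) hM (by rw [hw]; exact z.2)⟩,
    Subtype.ext (by rw [SubmonoidClass.coe_pow, hw])⟩

end Fermat.Agent.RT.LowerP

end
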