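import Fermat.Agent.RT.LowerP.Defs
import Fermat.Agent.RT.MazurP.Lift

/-!
# Classes with reductions in the `p`-th powers have data with trivial reductions

If both reductions of a Kummer function are `p`-th powers and the difference of the orders is
divisible by `p`, multiplying by a `p`-th power and a constant makes both reductions one and both
orders zero, without changing the class.
-/

set_option autoImplicit false
set_option synthInstance.maxHeartbeats 400000
set_option maxHeartbeats 1000000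
set_option linter.unusedSectionVars false

noncomputable section

namespace Fermat.Agent.RT.LowerP

open ModularCurve AlgebraicCurve
open Fermat.Agent.Semistable Fermat.Agent.Arith Fermat.Agent.RT.Mazur Fermat.Agent.RT.MazurP

variable {A : ValuationSubring QBar} {p M : ℕ} [Fact p.Prime] [NeZero M]
variable {hpM : ¬ p ∣ M} {C : CoefField A p}

/-- Changing by a constant and a `p`-th power does not change the class. -/
theorem cls_eq_of_mul_pow (K K' : Kum hpM C) {c : QBar} (hc : c ≠ 0) {φ : FB (p * M)}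
    (hφ : φ ≠ 0) (h : K'.f = algebraMap QBar (FB (p * M)) c * K.f * φ ^ p) :
    cls K' = cls K := by
  have hp : p.Prime := Fact.out
  set F : JacTorsion.divGrp QBar (FB (p * M)) p := ⟨Units.mk0 K.f K.f_ne, K.dvd⟩
  set F' : JacTorsion.divGrp QBar (FB (p * M)) p := ⟨Units.mk0 K'.f K'.f_ne, K'.dvd⟩
  obtain ⟨d, hd⟩ := IsAlgClosed.exists_pow_nat_eq c hp.pos
  have hd0 : d ≠ 0 := fun h0 => hc (by rw [← hd, h0, zero_pow hp.ne_zero])
  have h0 : JacTorsion.toTorsion (Additive.ofMul (F' * F⁻¹)) = 0 := by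
    refine (JacTorsion.toTorsion_eq_zero_iff _).mpr ⟨Units.mk0 (algebraMap QBar (FB (p * M)) d * φ)
      (mul_ne_zero ((_root_.map_ne_zero _).mpr hd0) hφ), Units.ext ?_⟩
    show (algebraMap QBar (FB (p * M)) d * φ) ^ p = K'.f * K.f⁻¹
    rw [h, mul_pow, ← map_pow, hd, mul_right_comm _ K.f, mul_inv_cancel_right₀ K.f_ne]
  rw [ofMul_mul, ofMul_inv, map_add, map_neg, add_neg_eq_zero] at h0
  exact congrArg Subtype.val h0

variable [CharP (Res A) p] [FF.IsFunctionField (Res A) (KM A M)]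

theorem exists_triv (hA : A.LiesOverPrime p) (hM : (M : Res A) ≠ 0) (V : VUnit A hpM)
    (hV : V.Simple) (K : Kum hpM C) (hδ : (p : ℤ) ∣ K.δ)
    (hpow : ∀ s, ∃ w : KM A M, K.fb s = w ^ p) :
    ∃ K' : Kum hpM C, IsTriv K' ∧ cls K' = cls K := by
  have hp : p.Prime := Fact.out
  obtain ⟨d, hd⟩ := hδ
  choose w hw using hpow
  have hw0 : ∀ s, w s ≠ 0 := fun s h0 => K.fb_ne s (by rw [hw, h0, zero_pow hp.ne_zero])
  obtain ⟨φ, hφ, hφfix, hφr⟩ := exists_fixed_pair (C := C) hA hM V hV (fun s => (w s)⁻¹)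
    (fun s => inv_ne_zero (hw0 s)) (-d)
  set c : QBar := C.π ^ (-K.v 0)
  have hc : c ≠ 0 := zpow_ne_zero _ C.π_ne_zero
  set f : FB (p * M) := algebraMap QBar (FB (p * M)) c * K.f * φ ^ p with hf
  have hv : ∀ s, -K.v 0 = -K.v s + (p : ℤ) * -(![0, -d] s) := by
    intro s
    fin_cases s
    · simp
    · simp only [Fin.mk_one, Matrix.cons_val_one, Matrix.cons_val_fin_one]
      rw [Kum.δ] at hd
      linarith
  have e : ∀ s, iota2 M p hpM s f =
      algebraMap QBar LSer (C.π ^ (-K.v s)) * iota2 M p hpM s K.f *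
        (algebraMap QBar LSer (C.π ^ (-(![0, -d] s))) * iota2 M p hpM s φ) ^ p := by
    intro s
    rw [hf, map_mul, map_mul, map_pow, AlgHom.commutes, mul_pow,
      show c = C.π ^ (-K.v s) * (C.π ^ (-(![0, -d] s))) ^ p by
        rw [← zpow_natCast (C.π ^ _) p, ← zpow_mul, ← zpow_add₀ C.π_ne_zero,
          mul_comm _ (p : ℤ), ← hv s], map_mul, map_pow]
    ring
  have hred : ∀ s, ∃ h : iota2 M p hpM s f ∈ locS A, redL A ⟨_, h⟩ = 1 := by
    intro s
    obtain ⟨hl, hr⟩ := K.spec s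
    obtain ⟨hl', hr'⟩ := hφr s
    refine ⟨by rw [e]; exact mul_mem hl (pow_mem hl' p), ?_⟩
    rw [redL_congr _ (mul_mem hl (pow_mem hl' p)) (e s), redL_mul' hl (pow_mem hl' p),
      redL_pow' hl', hr, hr', hw]
    rw [← SubmonoidClass.coe_pow, ← MulMemClass.coe_mul, inv_pow,
      mul_inv_cancel₀ (pow_ne_zero _ (hw0 s))]
    rfl
  refine ⟨{
    f := f
    f_ne := mul_ne_zero (mul_ne_zero ((_root_.map_ne_zero _).mpr hc) K.f_ne) (pow_ne_zero _ hφ)
    dvd := fun v => ?_
    fix := fun τ hτ => ?_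
    v := 0
    fb := 1
    fb_ne := fun _ => one_ne_zero
    spec := fun s => ?_ }, ⟨fun _ => rfl, fun _ => rfl⟩,
    cls_eq_of_mul_pow K _ hc hφ rfl⟩
  · rw [hf, v.ord_mul (mul_ne_zero ((_root_.map_ne_zero _).mpr hc) K.f_ne) (pow_ne_zero _ hφ),
      v.ord_mul ((_root_.map_ne_zero _).mpr hc) K.f_ne, FF.ord_algebraMap, FF.ord_pow v, zero_add]
    exact dvd_add (K.dvd v) (dvd_mul_right _ _)
  · rw [hf, map_mul, map_mul, map_pow, arithmeticRingAut_algebraMap, K.fix τ hτ, hφfix τ hτ,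
      map_zpow₀ τ, C.π_fixed τ hτ]
  · obtain ⟨hl, hr⟩ := hred s
    have e' : algebraMap QBar LSer (C.π ^ (-(0 : Fin 2 → ℤ) s)) * iota2 M p hpM s f =
        iota2 M p hpM s f := by
      rw [Pi.zero_apply, neg_zero, zpow_zero, map_one, one_mul]
    exact ⟨by rw [e']; exact hl, (redL_congr _ hl e').trans hr⟩

end Fermat.Agent.RT.LowerP

end
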