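import Fermat.Agent.RT.LowerP.Steps
import Fermat.Agent.RT.LowerP.Dlog
import Fermat.Agent.RT.LowerP.Triv
import Fermat.Agent.Semistable.ToricTorsion

/-!
# Level lowering at `p` for the Frey curve
-/

set_option autoImplicit false
set_option synthInstance.maxHeartbeats 400000

noncomputable section

namespace Fermat.Agent.RT.LowerP

/-- Milestone statement 44. -/
theorem lowerAtP : RT.Frey.LowerAtPInput := by
  refine lowerAtP_of_form (GaloisReps.exists_model_local
    (fun N _ q hq hqN hq2 => Semistable.torsionUnipotentAt N hq hqN hq2)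
    (fun N p _ _ q hq hqp _ hq2 => Semistable.toricSquareAt N p _ hq hqp hq2)) ?_
  intro A p M _ _ _ _ hA hM hp5 hpM V hV G a hG C K hx hord hd
  rcases congAt_or_dlog_eq_zero hA hM hp5 K G hG a hx hord with h | h
  · exact Or.inl h
  · exact Or.inr (exists_triv hA hM V hV K hd fun s =>
      exists_eq_pow_of_dlog_eq_zero hM (K.fb_ne s) (h s))

end Fermat.Agent.RT.LowerP

end
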