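import Fermat.Agent.RT.LowerP.Witness

/-!
# Bounding the exponent of the gap by `p`-th powers

If `f` has divisor `p D` and reductions one, the exponent `k` of a relation `jⁿ x - z = π ^ k t`
with gap outside `gapSp` is at most `e / (p - 1)`; below it `t ^ p` lies in the gap.
-/

set_option autoImplicit false
set_option synthInstance.maxHeartbeats 400000
set_option maxHeartbeats 1000000
set_option linter.unusedSectionVars false

noncomputable section

namespace Fermat.Agent.RT.LowerP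

open ModularCurve AlgebraicCurve
open Fermat.Agent.Semistable Fermat.Agent.Arith Fermat.Agent.RT.MazurP
open Fermat.Agent.RT.Mazur (mulPair jPow jPow_add jPow_mul jPow_ne_zero jPow_mem_Pk cancel_jPow
  mul_mem_Pk mul_pi_smul pi_smul_mul pi_smul_pow)

/-- The first terms of the `p`-th power of a sum. -/
theorem exists_add_pow_prime {R : Type*} [CommRing R] {p : ℕ} (hp : p.Prime) (z u : R) :
    ∃ r, (z + u) ^ p = z ^ p + u ^ p + (p : R) * (u * z ^ (p - 1)) + (p : R) * (u ^ 2 * r) := by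
  classical
  obtain ⟨q, rfl⟩ : ∃ q, p = q + 2 := ⟨p - 2, by have := hp.two_le; omega⟩
  have hdiv : ∀ i ∈ Finset.range q, ∃ c : ℕ, (q + 2).choose (i + 2) = (q + 2) * c := fun i hi =>
    hp.dvd_choose_self (by omega) (by have := Finset.mem_range.mp hi; omega)
  choose! c hc using hdiv
  refine ⟨∑ i ∈ Finset.range q, u ^ i * z ^ (q - i) * (c i : R), ?_⟩
  rw [add_comm z u, add_pow, Finset.sum_range_succ, Finset.sum_range_succ', Finset.sum_range_succ',
    Finset.mul_sum, Finset.mul_sum]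
  have e : ∀ i ∈ Finset.range q,
      u ^ (i + 1 + 1) * z ^ (q + 2 - (i + 1 + 1)) * (((q + 2).choose (i + 1 + 1) : ℕ) : R) =
        ((q + 2 : ℕ) : R) * (u ^ 2 * (u ^ i * z ^ (q - i) * (c i : R))) := fun i hi => by
    rw [hc i hi, show q + 2 - (i + 1 + 1) = q - i by omega]
    push_cast
    ring
  rw [Finset.sum_congr rfl e]
  simp only [Nat.choose_self, Nat.choose_zero_right, Nat.choose_one_right, tsub_self, zero_add,
    tsub_zero, pow_zero, pow_one, one_mul, mul_one, Nat.cast_one,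
    show q + 2 - 1 = q + 1 from rfl]
  ring

variable {A : ValuationSubring QBar} {p M : ℕ} [hpf : Fact p.Prime] [CharP (Res A) p] [NeZero M]
  [FF.IsFunctionField (Res A) (KM A M)]
variable {h : Setup A M p} {C : CoefField A p} {D : Divisor QBar (FB (p * M))} {n : ℕ}

/-- `p` is a unit times `π ^ e`. -/
theorem exists_natCast_p_eq (h : Setup A M p) (C : CoefField A p) :
    ∃ ε : A, IsLocalRing.residue A ε ≠ 0 ∧ cst h ε ∈ fixLoc C h ∧
      (p : loc2 A (iota2 M p h.hqM)) = piF C h ^ C.e * cst h ε := by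
  have hπe : C.π ^ C.e ≠ 0 := pow_ne_zero _ C.π_ne_zero
  have hv : A.valuation ((p : QBar) / C.π ^ C.e) = 1 := by
    rw [map_div₀, C.val_p, map_pow, div_self (pow_ne_zero _ ((Valuation.ne_zero_iff _).mpr
      C.π_ne_zero))]
  refine ⟨⟨_, (A.valuation_le_one_iff _).mp hv.le⟩, (residue_unit_ne_zero hv).2,
    cst_mem_fixLoc fun τ hτ => ?_, Subtype.ext ?_⟩
  · show τ ((p : QBar) / C.π ^ C.e) = _
    rw [map_div₀, map_pow, map_natCast, C.π_fixed τ hτ]
  · push_cast
    show ((p : ℕ) : FB (p * M)) = algebraMap QBar _ C.π ^ C.e * algebraMap QBar _ ((p : QBar) / C.π ^ C.e)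
    rw [← map_pow, ← map_mul, mul_div_cancel₀ _ hπe, map_natCast]

/-- The bound and the two relations coming from `p`-th powers. -/
theorem Wit.frob (w : Wit h C D n) (hn : Big h n) (f : loc2 A (iota2 M p h.hqM))
    (hford : ∀ v, v.ord (f : FB (p * M)) = (p : ℤ) * D v)
    (hfred : red2 A (iota2 M p h.hqM) f = 1) :
    w.k * (p - 1) ≤ C.e ∧
    (w.k * (p - 1) < C.e → red2 A (iota2 M p h.hqM) w.t ^ p ∈ gapSp h (n * p)) ∧
    (w.k * (p - 1) = C.e → ∃ c : Res A, c ≠ 0 ∧ red2 A (iota2 M p h.hqM) w.t ^ p +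
      c • (jPow A p (n * (p - 1)) * red2 A (iota2 M p h.hqM) w.t) ∈ gapSp h (n * p)) := by
  have hp : p.Prime := hpf.out
  obtain ⟨q, hq⟩ : ∃ q, p = q + 1 := ⟨p - 1, by have := hp.one_lt; omega⟩
  have hpq : p - 1 = q := by omega
  obtain ⟨ε, hε, -, hpε⟩ := exists_natCast_p_eq h C
  obtain ⟨r, hr⟩ := exists_add_pow_prime hp w.z (piF C h ^ w.k * w.t)
  rw [show w.z + piF C h ^ w.k * w.t = jTop M h ^ n * w.x by rw [← w.rel]; ring] at hr
  set π := piF C h with hπ
  set G := ((jTop M h ^ n * w.x) ^ p - w.z ^ p) * f with hG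
  have hGW : (G : FB (p * M)) ∈
      (HN M p (n * p)).map (LinearMap.mulLeft QBar ((jTop M h : FB (p * M)) ^ (n * p))) ⊔
        HN M p (n * p) := by
    have e : (G : FB (p * M)) = (jTop M h : FB (p * M)) ^ (n * p) *
        ((w.x : FB (p * M)) ^ p * (f : FB (p * M))) + -((w.z : FB (p * M)) ^ p * (f : FB (p * M))) := by
      rw [hG, pow_mul]
      push_cast
      ring
    rw [e]
    refine Submodule.add_mem_sup ⟨_, ?_, rfl⟩ (neg_mem ?_) <;> rw [mul_comm n p]
    · exact pow_mul_mem_HN w.x_mem hford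
    · exact pow_mul_mem_HN w.z_mem hford
  have key : ∀ (i : ℕ) (y : loc2 A (iota2 M p h.hqM)), G = π ^ i * y →
      red2 A (iota2 M p h.hqM) y ∈ gapSp h (n * p) := fun i y e =>
    hn.red _ (Nat.le_mul_of_pos_right n hp.pos) y (mem_of_piF_mul (C := C) (j := i) (e ▸ hGW))
  set S := cst h ε * (w.t * w.z ^ (p - 1)) with hS
  set R := cst h ε * (w.t ^ 2 * r) with hR
  have hexp : G = (π ^ (w.k * p) * w.t ^ p + π ^ (C.e + w.k) * S +
      π ^ (C.e + w.k + w.k) * R) * f := by
    rw [hG, hr, hpε, hS, hR]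
    ring
  have hSred : red2 A (iota2 M p h.hqM) S = IsLocalRing.residue A ε •
      (jPow A p (n * (p - 1)) * red2 A (iota2 M p h.hqM) w.t) := by
    rw [hS, red2_cst_mul, map_mul, map_pow, w.z_red, ← jPow_mul, mul_comm]
  obtain ⟨k', hk'⟩ : ∃ k', w.k = k' + 1 := ⟨w.k - 1, by have := w.k_pos; omega⟩
  have hkq : w.k * p = w.k * (p - 1) + w.k := by
    rw [hpq, show w.k * p = w.k * (q + 1) from congrArg _ hq]; ring
  refine ⟨?_, ?_, ?_⟩
  · by_contra hlt
    obtain ⟨d, hd⟩ : ∃ d, w.k * (p - 1) = C.e + (d + 1) :=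
      ⟨w.k * (p - 1) - C.e - 1, by omega⟩
    have h1 := key (C.e + w.k) ((S + π * (π ^ d * w.t ^ p + π ^ k' * R)) * f) (by
      rw [hexp, hkq, hd, hk']; ring)
    rw [map_mul, hfred, mul_one, map_add, red2_piF_mul, add_zero, hSred] at h1
    have h2 := Submodule.smul_mem (gapSp h (n * p)) (IsLocalRing.residue A ε)⁻¹ h1
    rw [smul_smul, inv_mul_cancel₀ hε, one_smul] at h2
    refine w.t_not (hn.cancel (n * (p - 1)) _ w.t_mem ?_)
    rwa [show n * (p - 1) + n = n * p by rw [hpq, show n * p = n * (q + 1) from congrArg _ hq]; ring]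
  · intro hlt
    obtain ⟨d, hd⟩ : ∃ d, C.e = w.k * (p - 1) + (d + 1) :=
      ⟨C.e - w.k * (p - 1) - 1, by omega⟩
    have h1 := key (w.k * p) ((w.t ^ p + π * (π ^ d * S + π ^ (d + w.k) * R)) * f) (by
      rw [hexp, hkq, hd]; ring)
    rwa [map_mul, hfred, mul_one, map_add, red2_piF_mul, add_zero, map_pow] at h1
  · intro heq
    have h1 := key (w.k * p) ((w.t ^ p + S + π * (π ^ k' * R)) * f) (by
      rw [hexp, hkq, ← heq, hk']; ring)
    rw [map_mul, hfred, mul_one, map_add, red2_piF_mul, add_zero, map_add, map_pow, hSred] at h1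
    exact ⟨_, hε, h1⟩

end Fermat.Agent.RT.LowerP

end
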