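import Fermat.Agent.RT.LowerP.Defs
import Fermat.Agent.RT.MazurP.Res

/-!
# The Hecke norm of the Kummer function of an eigen class

The norm of `K.f` is `κ * K.f ^ a * h ^ p` with `κ` and `h` fixed by the coefficient group; taking
orders along the two components gives `p ∣ δ` away from the Eisenstein eigenvalue, and for tame
coefficient fields all orders of the reductions are then divisible by `p`.
-/

set_option autoImplicit false
set_option synthInstance.maxHeartbeats 400000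
set_option maxHeartbeats 1000000
set_option linter.unusedSectionVars false

noncomputable section

namespace Fermat.Agent.RT.LowerP

open ModularCurve AlgebraicCurve
open Fermat.Agent.Semistable Fermat.Agent.Arith Fermat.Agent.RT.Mazur Fermat.Agent.RT.MazurP

variable {A : ValuationSubring QBar} {p M : ℕ} [Fact p.Prime] [NeZero M]
variable {hpM : ¬ p ∣ M} {C : CoefField A p}

/-- The order of a power with an integral exponent. -/
theorem gord_zpow (hA : A.LiesOverPrime p) {x : LSer} (hx : x ∈ fracS A) (hx0 : x ≠ 0)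
    (hfx : C.Fix x) (n : ℤ) : C.gord (x ^ n) = n * C.gord x := by
  have hp : p.Prime := Fact.out
  rcases Int.eq_nat_or_neg n with ⟨m, rfl | rfl⟩
  · rw [zpow_natCast, CoefField.gord_pow hA hp hx hx0 hfx]
  · rw [zpow_neg, zpow_natCast,
      CoefField.gord_inv hA hp (pow_mem hx m) (pow_ne_zero m hx0) (hfx.pow m),
      CoefField.gord_pow hA hp hx hx0 hfx, neg_mul]

theorem gord_iota2_eq (K : Kum hpM C) (s : Fin 2) : C.gord (iota2 M p hpM s K.f) = K.v s := by
  obtain ⟨h, e⟩ := K.spec s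
  exact CoefField.gord_eq ⟨h, by rw [e]; exact fun h0 => K.fb_ne s (Subtype.ext h0)⟩

theorem iota_fix_of_galF {x : FB (p * M)} (hx : ∀ τ ∈ C.H, galF (p * M) τ x = x) (s : Fin 2) :
    C.Fix (iota2 M p hpM s x) := fun τ hτ => by rw [← iota2_galF, hx τ hτ]

theorem leadingCoeff_const_mul (c : QBar) (y : LSer) :
    (algebraMap QBar LSer c * y).leadingCoeff = c * y.leadingCoeff := by
  rw [HahnSeries.leadingCoeff_mul, algebraMap_laurentSeries_eq_single,
    HahnSeries.leadingCoeff_of_single]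

/-- A fixed function of the form `κ * h ^ p`, with `h` of leading coefficient one, has `κ` and
`h` fixed. -/
theorem fix_of_pow_mul {κ : QBar} {h : FB (p * M)} (hκ : κ ≠ 0) (hh : h ≠ 0)
    (hlead : (h : LSer).leadingCoeff = 1) {τ : GQ}
    (hfix : galF (p * M) τ (algebraMap QBar (FB (p * M)) κ * h ^ p) =
      algebraMap QBar (FB (p * M)) κ * h ^ p) :
    τ κ = κ ∧ galF (p * M) τ h = h := by
  have hp : p.Prime := Fact.out
  set g := galF (p * M) τ h with hg
  have hg0 : g ≠ 0 := (map_ne_zero _).mpr hh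
  have hgl : (g : LSer).leadingCoeff = 1 := by
    rw [show (g : LSer) = coeffMap (τ : QBar →+* QBar) (h : LSer) from coe_arithmeticRingAut τ h,
      JacTorsion.coeffMap_leadingCoeff, hlead, map_one]
  rw [map_mul, map_pow, arithmeticRingAut_algebraMap] at hfix
  have hpowl : ∀ y : LSer, y.leadingCoeff = 1 → ∀ n : ℕ, (y ^ n).leadingCoeff = 1 := by
    intro y hy n
    induction n with
    | zero => rw [pow_zero, HahnSeries.leadingCoeff_one]
    | succ n ih => rw [pow_succ, HahnSeries.leadingCoeff_mul, ih, hy, one_mul]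
  have hl := congrArg (fun y : FB (p * M) => (y : LSer).leadingCoeff) hfix
  simp only [MulMemClass.coe_mul, SubmonoidClass.coe_pow] at hl
  rw [show ((algebraMap QBar (FB (p * M)) (τ κ) : FB (p * M)) : LSer) = algebraMap QBar LSer (τ κ)
      from rfl, show ((algebraMap QBar (FB (p * M)) κ : FB (p * M)) : LSer) =
      algebraMap QBar LSer κ from rfl, leadingCoeff_const_mul, leadingCoeff_const_mul,
    hpowl _ hgl, hpowl _ hlead, mul_one, mul_one] at hl
  refine ⟨hl, ?_⟩
  rw [hl] at hfix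
  have hpow : g ^ p = h ^ p := mul_left_cancel₀ ((map_ne_zero _).mpr hκ) hfix
  obtain ⟨c, hc⟩ : ∃ c : QBar, g / h = algebraMap QBar (FB (p * M)) c := by
    refine FF.eq_algebraMap_of_ord_nonneg fun v => ?_
    have h1 := congrArg v.ord hpow
    rw [FF.ord_pow v, FF.ord_pow v] at h1
    rw [JacTorsion.ord_div v hg0 hh,
      mul_left_cancel₀ (Nat.cast_ne_zero.mpr hp.ne_zero) h1, sub_self]
  have e : g = algebraMap QBar (FB (p * M)) c * h := by rw [← hc, div_mul_cancel₀ _ hh]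
  have h3 := congrArg (fun y : FB (p * M) => (y : LSer).leadingCoeff) e
  simp only [MulMemClass.coe_mul] at h3
  rw [show ((algebraMap QBar (FB (p * M)) c : FB (p * M)) : LSer) = algebraMap QBar LSer c
    from rfl, leadingCoeff_const_mul, hgl, hlead, mul_one] at h3
  rw [e, ← h3, map_one, one_mul]

variable [CharP (Res A) p] [FF.IsFunctionField (Res A) (KM A M)]

/-- The Hecke norm of the Kummer function of an eigen class, with fixed correction factors. -/
theorem exists_hecke (hA : A.LiesOverPrime p) (K : Kum hpM C) (l : ℕ) [NeZero l] (hl : l.Prime)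
    (hlN : ¬ l ∣ p * M) (a : ℤ)
    (hx : heckeOperatorBar (p * M) ⟨l, hl⟩ (cls K) = a • cls K) :
    ∃ (κ : QBar) (h : FB (p * M)), κ ≠ 0 ∧ h ≠ 0 ∧ (∀ τ ∈ C.H, τ κ = κ) ∧
      (∀ τ ∈ C.H, galF (p * M) τ h = h) ∧
      heckeNorm (p * M) l K.f = algebraMap QBar (FB (p * M)) κ * K.f ^ a * h ^ p ∧
      (∀ s, C.gord (algebraMap QBar LSer κ) + p * C.gord (iota2 M p hpM s h) =
        ((l : ℤ) + 1 - a) * K.v s) ∧
      ((l : ℤ) + 1 - a) * K.δ =
        p * (C.gord (iota2 M p hpM 1 h) - C.gord (iota2 M p hpM 0 h)) := by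
  have hp : p.Prime := Fact.out
  obtain ⟨h₀, hh₀, e₀⟩ := exists_heckeNorm_eq (N := p * M) (m := p) l hl
    ⟨Units.mk0 K.f K.f_ne, K.dvd⟩ a hx
  simp only [Units.val_mk0] at e₀
  set c := (h₀ : LSer).leadingCoeff with hc
  have hc0 : c ≠ 0 := HahnSeries.leadingCoeff_ne_zero.mpr fun h => hh₀ (Subtype.ext h)
  set h : FB (p * M) := algebraMap QBar (FB (p * M)) c⁻¹ * h₀ with hh
  have hh0 : h ≠ 0 := mul_ne_zero ((map_ne_zero _).mpr (inv_ne_zero hc0)) hh₀
  have hlead : (h : LSer).leadingCoeff = 1 := by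
    show (algebraMap QBar LSer c⁻¹ * (h₀ : LSer)).leadingCoeff = 1
    rw [leadingCoeff_const_mul, ← hc, inv_mul_cancel₀ hc0]
  set κ := c ^ p with hκ
  have hκ0 : κ ≠ 0 := pow_ne_zero _ hc0
  have e : heckeNorm (p * M) l K.f = algebraMap QBar (FB (p * M)) κ * K.f ^ a * h ^ p := by
    rw [e₀, hh, hκ, map_pow, mul_pow, map_inv₀, inv_pow]
    field_simp [(map_ne_zero (algebraMap QBar (FB (p * M)))).mpr hc0]
  have hfix : ∀ τ ∈ C.H, τ κ = κ ∧ galF (p * M) τ h = h := by
    intro τ hτ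
    refine fix_of_pow_mul hκ0 hh0 hlead ?_
    have hN := congrArg (galF (p * M) τ) e
    rw [← heckeNorm_galF hl hlN, K.fix τ hτ, e, map_mul, map_mul, map_zpow₀, K.fix τ hτ] at hN
    refine mul_right_cancel₀ (zpow_ne_zero a K.f_ne) ?_
    rw [map_mul]
    linear_combination -hN
  have hκfix : C.Fix (algebraMap QBar LSer κ) :=
    CoefField.fix_algebraMap fun τ hτ => (hfix τ hτ).1
  have key : ∀ s, C.gord (algebraMap QBar LSer κ) + p * C.gord (iota2 M p hpM s h) =
      ((l : ℤ) + 1 - a) * K.v s := by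
    intro s
    have hf0 : iota2 M p hpM s K.f ≠ 0 := (map_ne_zero _).mpr K.f_ne
    have hhs : iota2 M p hpM s h ≠ 0 := (map_ne_zero _).mpr hh0
    have hfh := iota_fix_of_galF (hpM := hpM) (fun τ hτ => (hfix τ hτ).2) s
    have hff := K.iota_fix s
    have hff' : iota2 M p hpM s K.f ∈ fracS A := iota2_fracS M p hpM s _
    have hhf' : iota2 M p hpM s h ∈ fracS A := iota2_fracS M p hpM s _
    have h1 := gord_heckeImage hA hp C hff' hf0 hff (iota2_fracS M p hpM s _)
      (fun ζ hζ => qExpand_iota2_heckeNorm p M l hpM hl hlN s hζ K.f)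
    rw [e, map_mul, map_mul, AlgHom.commutes, map_pow (iota2 M p hpM s) h p, map_zpow₀,
      CoefField.gord_mul hA hp (mul_mem (algebraMap_mem_fracS _) (zpow_mem hff' a))
        (pow_mem hhf' p) (mul_ne_zero ((map_ne_zero _).mpr hκ0) (zpow_ne_zero _ hf0))
        (pow_ne_zero _ hhs) (hκfix.mul (hff.zpow a)) (hfh.pow p),
      CoefField.gord_mul hA hp (algebraMap_mem_fracS _) (zpow_mem hff' a)
        ((map_ne_zero _).mpr hκ0) (zpow_ne_zero _ hf0) hκfix (hff.zpow a),
      gord_zpow hA hff' hf0 hff, CoefField.gord_pow hA hp hhf' hhs hfh, gord_iota2_eq] at h1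
    linarith
  refine ⟨κ, h, hκ0, hh0, fun τ hτ => (hfix τ hτ).1, fun τ hτ => (hfix τ hτ).2, e, key, ?_⟩
  rw [Kum.δ]
  linarith [key 0, key 1]

/-- When both reductions of `K.f` are one, the correction factor may be taken congruent to one on
both sides. -/
theorem exists_hecke_triv (hA : A.LiesOverPrime p) (K : Kum hpM C)
    (hK : IsTriv K) (l : ℕ) [NeZero l] (hl : l.Prime) (hlN : ¬ l ∣ p * M) (a : ℤ)
    (hx : heckeOperatorBar (p * M) ⟨l, hl⟩ (cls K) = a • cls K) :
    ∃ (κ : QBar) (h : FB (p * M)), κ ≠ 0 ∧ h ≠ 0 ∧ (∀ τ ∈ C.H, τ κ = κ) ∧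
      (∀ τ ∈ C.H, galF (p * M) τ h = h) ∧
      heckeNorm (p * M) l K.f = algebraMap QBar (FB (p * M)) κ * K.f ^ a * h ^ p ∧
      C.gord (algebraMap QBar LSer κ) = 0 ∧
      (∀ s, C.gord (iota2 M p hpM s h) = 0) ∧
      ∀ s, ∃ hs : iota2 M p hpM s h ∈ locS A, redL A ⟨_, hs⟩ = 1 := by
  have hp : p.Prime := Fact.out
  have hlp : ¬ p ∣ l := fun h => hlN (dvd_mul_of_dvd_left
    (by rw [(Nat.prime_dvd_prime_iff_eq hp hl).mp h]) M)
  obtain ⟨κ, h, hκ0, hh0, hκf, hhf, e, key, -⟩ := exists_hecke hA K l hl hlN a hx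
  simp only [hK.v, mul_zero] at key
  set g := C.gord (iota2 M p hpM 0 h) with hg
  have hgs : ∀ s, C.gord (iota2 M p hpM s h) = g := fun s => by
    have := (key s).trans (key 0).symm
    exact mul_left_cancel₀ (Nat.cast_ne_zero.mpr hp.ne_zero) (add_left_cancel this)
  -- scale the orders away
  set κ' := κ * C.π ^ ((p : ℤ) * g) with hκ'
  set h' : FB (p * M) := algebraMap QBar (FB (p * M)) (C.π ^ (-g)) * h with hh'
  have hκ'0 : κ' ≠ 0 := mul_ne_zero hκ0 (zpow_ne_zero _ C.π_ne_zero)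
  have hκ'f : ∀ τ ∈ C.H, τ κ' = κ' := fun τ hτ => by
    rw [hκ', map_mul, map_zpow₀, C.π_fixed τ hτ, hκf τ hτ]
  have hκ'g : C.gord (algebraMap QBar LSer κ') = 0 := by
    rw [hκ', map_mul, CoefField.gord_mul hA hp (algebraMap_mem_fracS _) (algebraMap_mem_fracS _)
      ((map_ne_zero _).mpr hκ0) ((map_ne_zero _).mpr (zpow_ne_zero _ C.π_ne_zero))
      (CoefField.fix_algebraMap hκf) (CoefField.fix_π_zpow _), CoefField.gord_π_zpow]
    exact key 0
  have hu := CoefField.gord_spec hA hp (algebraMap_mem_fracS κ') ((map_ne_zero _).mpr hκ'0)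
    (CoefField.fix_algebraMap (C := C) hκ'f)
  rw [hκ'g, neg_zero, zpow_zero, map_one, one_mul] at hu
  obtain ⟨hum, hune⟩ := hu
  have hκ'A : κ' ∈ A := by
    by_contra hcon
    have hinv := (A.mem_or_inv_mem κ').resolve_left hcon
    obtain ⟨hi, ei⟩ := redL_const_mul hinv hum
    have e1 : algebraMap QBar LSer κ'⁻¹ * algebraMap QBar LSer κ' = 1 := by
      rw [← map_mul, inv_mul_cancel₀ hκ'0, map_one]
    rw [redL_congr hi (one_mem _) e1, show (⟨1, one_mem _⟩ : locS A) = 1 from rfl, map_one] at ei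
    have hn : κ'⁻¹ ∈ A.nonunits := by
      by_contra hn
      have hv := valuation_eq_one hinv hn
      rw [map_inv₀, inv_eq_one] at hv
      exact hcon ((A.valuation_le_one_iff _).mp hv.le)
    rw [(residue_eq_zero_iff hinv).mpr hn, map_zero, zero_mul] at ei
    exact one_ne_zero ei
  set u := IsLocalRing.residue A ⟨κ', hκ'A⟩ with hu'
  have e'' : heckeNorm (p * M) l K.f =
      algebraMap QBar (FB (p * M)) κ' * K.f ^ a * h' ^ p := by
    have hπ : algebraMap QBar (FB (p * M)) C.π ≠ 0 := (map_ne_zero _).mpr C.π_ne_zero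
    rw [e, hh', hκ', map_mul, mul_pow, map_zpow₀, map_zpow₀,
      ← zpow_natCast (algebraMap QBar (FB (p * M)) C.π ^ (-g)) p, ← zpow_mul,
      show -g * ((p : ℕ) : ℤ) = -((p : ℤ) * g) by ring, zpow_neg]
    field_simp [zpow_ne_zero ((p : ℤ) * g) hπ]
  have hspec : ∀ s, ∃ hs : iota2 M p hpM s h' ∈ locS A,
      algebraMap (Res A) (LaurentSeries (Res A)) u * redL A ⟨_, hs⟩ ^ p = 1 := by
    intro s
    have hhs : iota2 M p hpM s h ≠ 0 := (map_ne_zero _).mpr hh0
    have hsp := CoefField.gord_spec hA hp (iota2_fracS M p hpM s h) hhs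
      (iota_fix_of_galF hhf s)
    rw [hgs s] at hsp
    obtain ⟨hs, hsne⟩ := hsp
    have es : iota2 M p hpM s h' = algebraMap QBar LSer (C.π ^ (-g)) * iota2 M p hpM s h := by
      rw [hh', map_mul, AlgHom.commutes]
    refine ⟨es ▸ hs, ?_⟩
    obtain ⟨hfs, efs⟩ := K.spec s
    rw [hK.fb s] at efs
    have ef : algebraMap QBar LSer (C.π ^ (-K.v s)) * iota2 M p hpM s K.f =
        iota2 M p hpM s K.f := by rw [hK.v s, neg_zero, zpow_zero, map_one, one_mul]
    have hfm : iota2 M p hpM s K.f ∈ locS A := ef ▸ hfs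
    have hfr : redL A ⟨_, hfm⟩ = 1 := by
      rw [redL_congr hfm hfs ef.symm, efs]; rfl
    -- the norm has reduction one
    obtain ⟨ζ, hζ⟩ := exists_primitive (N := p * M) hl hlN
    obtain ⟨hm, em⟩ := heckeProd_mem_locS (A := A) hζ.pow_eq_one hfm
    obtain ⟨hY, eY⟩ := locS_of_qExpand hA hp (l := l)
      (iota2_fracS (A := A) M p hpM s (heckeNorm (p * M) l K.f))
      (by rw [qExpand_iota2_heckeNorm p M l hpM hl hlN s hζ]; exact hm)
    have hY1 : redL A ⟨_, hY⟩ = 1 := by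
      refine qExpand_injective l ?_
      rw [eY, redL_congr _ hm (qExpand_iota2_heckeNorm p M l hpM hl hlN s hζ K.f), em, hfr,
        map_one, map_one]
    -- the same norm through the factorisation
    have hfa : IsGUnit A (iota2 M p hpM s K.f) := ⟨hfm, by rw [hfr]; exact one_ne_zero⟩
    obtain ⟨hfz, efz⟩ : ∃ hz : iota2 M p hpM s K.f ^ a ∈ locS A, redL A ⟨_, hz⟩ = 1 := by
      obtain ⟨hi, ei⟩ := inv_mem_locS hfm (by rw [hfr]; exact one_ne_zero)
      have hpw : ∀ (x : LSer) (hx : x ∈ locS A), redL A ⟨x, hx⟩ = 1 → ∀ n : ℕ,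
          ∃ hz : x ^ n ∈ locS A, redL A ⟨_, hz⟩ = 1 := fun x hx hx1 n => ⟨pow_mem hx n, by
        rw [show (⟨x ^ n, pow_mem hx n⟩ : locS A) = ⟨x, hx⟩ ^ n from rfl, map_pow, hx1, one_pow]⟩
      rcases Int.eq_nat_or_neg a with ⟨n, rfl | rfl⟩
      · rw [zpow_natCast]; exact hpw _ hfm hfr n
      · rw [zpow_neg, zpow_natCast, ← inv_pow]
        exact hpw _ hi (by rw [ei, hfr, inv_one]) n
    have e' : iota2 M p hpM s (heckeNorm (p * M) l K.f) =
        algebraMap QBar LSer κ' * iota2 M p hpM s K.f ^ a * iota2 M p hpM s h' ^ p := by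
      rw [e'', map_mul, map_mul, AlgHom.commutes, map_pow, map_zpow₀]
    rw [redL_congr hY (mul_mem (mul_mem hum hfz) (pow_mem (es ▸ hs) p)) e',
      show (⟨_, mul_mem (mul_mem hum hfz) (pow_mem (es ▸ hs : iota2 M p hpM s h' ∈ locS A) p)⟩ :
        locS A) = ⟨_, hum⟩ * ⟨_, hfz⟩ * ⟨_, (es ▸ hs : iota2 M p hpM s h' ∈ locS A)⟩ ^ p from rfl,
      map_mul, map_mul, map_pow, efz, mul_one, redL_algebraMap hκ'A] at hY1
    exact hY1
  have := residueField_isAlgClosed A
  obtain ⟨w, hw⟩ := IsAlgClosed.exists_pow_nat_eq u⁻¹ hp.pos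
  have hu0 : u ≠ 0 := fun h0 => by
    obtain ⟨_, hs⟩ := hspec 0
    rw [h0, map_zero, zero_mul] at hs
    exact zero_ne_one hs
  have : CharP (LaurentSeries (Res A)) p :=
    charP_of_injective_algebraMap (algebraMap (Res A) _).injective p
  have hred : ∀ s, ∃ hs : iota2 M p hpM s h' ∈ locS A,
      redL A ⟨_, hs⟩ = algebraMap (Res A) _ w := by
    intro s
    obtain ⟨hs, es⟩ := hspec s
    refine ⟨hs, frobenius_inj (LaurentSeries (Res A)) p ?_⟩
    rw [frobenius_def, frobenius_def, ← map_pow (algebraMap (Res A) (LaurentSeries (Res A))) w p, hw]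
    refine mul_left_cancel₀ ((map_ne_zero (algebraMap (Res A) _)).mpr hu0) ?_
    rw [es, ← map_mul, mul_inv_cancel₀ hu0, map_one]
  have hw0 : w ≠ 0 := fun h0 => by
    rw [h0, zero_pow hp.ne_zero] at hw; exact inv_ne_zero hu0 hw.symm
  obtain ⟨b, hb, hbfix, hbres⟩ := exists_inertiaFixed_lift hA hp w⁻¹
  have hb0 : b ≠ 0 := by
    rintro rfl
    exact inv_ne_zero hw0 (by rw [← hbres]; exact map_zero (IsLocalRing.residue A))
  refine ⟨κ' * b⁻¹ ^ p, algebraMap QBar (FB (p * M)) b * h',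
    mul_ne_zero hκ'0 (pow_ne_zero _ (inv_ne_zero hb0)),
    mul_ne_zero ((map_ne_zero _).mpr hb0) (mul_ne_zero
      ((map_ne_zero _).mpr (zpow_ne_zero _ C.π_ne_zero)) hh0),
    fun τ hτ => by rw [map_mul, map_pow, map_inv₀, hκ'f τ hτ, hbfix τ (C.le_inertia hτ)],
    fun τ hτ => ?_, ?_, ?_, ?_, ?_⟩
  · rw [map_mul, map_mul, arithmeticRingAut_algebraMap, arithmeticRingAut_algebraMap,
      hbfix τ (C.le_inertia hτ), map_zpow₀, C.π_fixed τ hτ, hhf τ hτ]
  · have hb' : algebraMap QBar (FB (p * M)) b ≠ 0 := (map_ne_zero _).mpr hb0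
    rw [e'', map_mul (algebraMap QBar (FB (p * M))) κ', map_pow (algebraMap QBar (FB (p * M))),
      map_inv₀, mul_pow (algebraMap QBar (FB (p * M)) b) h' p, inv_pow]
    generalize h' ^ p = H
    field_simp [pow_ne_zero p hb']
  · have hbu : IsGUnit A (algebraMap QBar LSer b) := ⟨algebraMap_mem_locS hb, by
      rw [redL_algebraMap hb, hbres]
      exact (map_ne_zero _).mpr (inv_ne_zero hw0)⟩
    have hbf : C.Fix (algebraMap QBar LSer b) :=
      CoefField.fix_algebraMap fun τ hτ => hbfix τ (C.le_inertia hτ)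
    rw [map_mul, map_pow, map_inv₀, CoefField.gord_mul hA hp (algebraMap_mem_fracS _)
      (pow_mem (inv_mem (algebraMap_mem_fracS _)) p) ((map_ne_zero _).mpr hκ'0)
      (pow_ne_zero _ (inv_ne_zero ((map_ne_zero _).mpr hb0)))
      (CoefField.fix_algebraMap hκ'f) (hbf.inv.pow p), hκ'g, zero_add,
      CoefField.gord_pow hA hp (inv_mem (algebraMap_mem_fracS _))
        (inv_ne_zero ((map_ne_zero _).mpr hb0)) hbf.inv, CoefField.gord_of_isGUnit hbu.inv,
      mul_zero]
  all_goals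
    intro s
    obtain ⟨hs, es⟩ := hred s
    obtain ⟨hm, em⟩ := redL_const_mul hb hs
    rw [hbres, es, ← map_mul, inv_mul_cancel₀ hw0, map_one] at em
    have eh : iota2 M p hpM s (algebraMap QBar (FB (p * M)) b * h') =
        algebraMap QBar LSer b * iota2 M p hpM s h' := by rw [map_mul, AlgHom.commutes]
  · refine CoefField.gord_of_isGUnit ?_
    rw [eh]
    exact ⟨hm, by rw [em]; exact one_ne_zero⟩
  · exact ⟨eh ▸ hm, (redL_congr _ hm eh).trans em⟩

/-- Away from the Eisenstein eigenvalue `p` divides the difference of the orders. -/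
theorem dvd_delta (hA : A.LiesOverPrime p) (K : Kum hpM C) (l : ℕ) [NeZero l] (hl : l.Prime)
    (hlN : ¬ l ∣ p * M) (a : ℤ) (hx : heckeOperatorBar (p * M) ⟨l, hl⟩ (cls K) = a • cls K)
    (hne : ((((l : ℤ) + 1 - a : ℤ)) : Res A) ≠ 0) : (p : ℤ) ∣ K.δ := by
  obtain ⟨_, _, -, -, -, -, -, -, hδ⟩ := exists_hecke hA K l hl hlN a hx
  have h := Dvd.intro _ hδ.symm
  exact ((Nat.prime_iff_prime_int.mp Fact.out).dvd_mul.mp h).resolve_left fun h' =>
    hne ((CharP.intCast_eq_zero_iff (Res A) p _).mpr h')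

/-- With tame coefficients and `p ∣ δ`, all orders of both reductions are divisible by `p`. -/
theorem ordDvd_tame (hA : A.LiesOverPrime p) (hM : (M : Res A) ≠ 0) (V : VUnit A hpM)
    (hV : V.Simple) (K : Kum hpM C) (hδ : (p : ℤ) ∣ K.δ) (he : ¬ p ∣ C.e) : OrdDvd K := by
  obtain ⟨hoff, hnode, -⟩ := K.res V hA hM hV
  have hpe : ¬ (p : ℤ) ∣ (C.e : ℤ) := fun h => he (Int.natCast_dvd_natCast.mp h)
  have hp := Nat.prime_iff_prime_int.mp (Fact.out : p.Prime)
  intro s P
  have hst : (p : ℤ) ∣ K.s₀ P ∧ (p : ℤ) ∣ K.t₀ P := by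
    rcases hV.val P with h | h
    · exact hoff P h
    · obtain ⟨h1, h2⟩ := hnode P h
      exact ⟨(hp.dvd_mul.mp ((dvd_sub_right hδ).mp h1)).resolve_left hpe,
        (hp.dvd_mul.mp ((dvd_add_right hδ).mp h2)).resolve_left hpe⟩
  fin_cases s
  · exact hst.1
  · exact hst.2

end Fermat.Agent.RT.LowerP

end
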