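import Fermat.Agent.RT.LowerP.KumTriv

/-!
# No trivial pair of reductions for a class moved by the wild generator

A nontrivial class with trivial pair of reductions has `k (p - 1) ≤ e`.  If the wild generator
moves it by a nontrivial fixed class of the same kind, the relation of the product and the relation
of the conjugate differ at first order, which is impossible.
-/

set_option autoImplicit false
set_option synthInstance.maxHeartbeats 400000
set_option maxHeartbeats 2000000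
set_option linter.unusedSectionVars false

noncomputable section

namespace Fermat.Agent.RT.LowerP

open ModularCurve AlgebraicCurve
open Fermat.Agent.Semistable Fermat.Agent.Arith Fermat.Agent.RT.MazurP
open Fermat.Agent.RT.Mazur (mulPair jPow jPow_add jPow_mul jPow_ne_zero mul_pi_smul pi_smul_mul
  pi_smul_pow)

variable {A : ValuationSubring QBar} {p M : ℕ} [hpf : Fact p.Prime] [CharP (Res A) p] [NeZero M]
  [FF.IsFunctionField (Res A) (KM A M)]
variable {h : Setup A M p}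

/-- Below `e = p - 1` only the trivial class has a trivial pair of reductions. -/
theorem false_of_isTriv_small (hs : SmulOne h) (V : VUnit A h.hqM) (hV : V.Simple)
    {C : CoefField A p} (K : Kum h.hqM C) (hK : IsTriv K) (hne : cls K ≠ 0) (he : C.e < p - 1) :
    False := by
  obtain ⟨n₁, h₁⟩ := exists_big hs
  obtain ⟨n₂, h₂⟩ := exists_wit_of_isTriv hs V hV K hK hne
  obtain ⟨w⟩ := h₂ (n₁ + n₂) (by omega)
  obtain ⟨f, hf, hfr⟩ := exists_loc2_of_isTriv (h := h) hK
  have hb := (w.frob (h₁ _ (by omega)) f (fun v => by rw [hf, ← K.D_mul]) hfr).1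
  have := Nat.le_mul_of_pos_left (p - 1) w.k_pos
  omega

/-- There is a meeting point. -/
theorem exists_node (V : VUnit A h.hqM) (hV : V.Simple) :
    ∃ P : Place (Res A) (KM A M), V.oW P = 12 := by
  by_contra hall
  push Not at hall
  have h0 : V.oD = 0 := Finsupp.ext fun P => by
    show V.oW P = 0
    exact (hV.val P).resolve_right (hall P)
  have h1 := degree_oD h.hM V
  rw [h0, map_zero] at h1
  have hψ : (0 : ℤ) < dedekindPsi M := by exact_mod_cast dedekindPsi_pos M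
  have hp : (2 : ℤ) ≤ p := by exact_mod_cast hpf.out.two_le
  nlinarith

/-- The two constants agree for a class with trivial pair. -/
theorem exists_red_eq (V : VUnit A h.hqM) (hV : V.Simple) {W : Wild A p} {K : Kum h.hqM W.C}
    (hK : IsTriv K) (R : SigmaRel W K) :
    ∃ r : Res A, ∀ s, redL A ⟨_, R.y_mem s⟩ = algebraMap (Res A) _ r := by
  obtain ⟨r, hr⟩ := R.exists_red_const V h.hA h.hM hV
  obtain ⟨P, hP⟩ := exists_node (h := h) V hV
  obtain ⟨d, hd, h1, -⟩ := R.node_eq V h.hA h.hM hV hr hP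
  have hδ : K.δ = 0 := by rw [Kum.δ, hK.v, hK.v, sub_self]
  rw [hδ, eq_comm, mul_eq_zero] at hd
  have hd0 : d = 0 := hd.resolve_left (Int.natCast_ne_zero.mpr hpf.out.ne_zero)
  have hs0 : K.s₀ P = 0 := by rw [Kum.s₀, hK.fb]; exact P.ord_one
  rw [hd0, hs0, add_zero, Int.cast_zero, zero_mul, eq_comm, sub_eq_zero] at h1
  exact ⟨r 0, fun s => by
    rw [hr s]
    fin_cases s
    · rfl
    · exact congrArg _ h1⟩

/-- The twisting factor is `1 + π ρ` modulo `π ^ 2`. -/
theorem exists_q_eq (V : VUnit A h.hqM) (hV : V.Simple) {W : Wild A p} {K : Kum h.hqM W.C}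
    (hK : IsTriv K) (R : SigmaRel W K) :
    ∃ q B Q : loc2 A (iota2 M p h.hqM), (q : FB (p * M)) = R.q ∧ q ∈ fixLoc W.C h ∧
      B ∈ fixLoc W.C h ∧ Q ∈ fixLoc W.C h ∧ red2 A (iota2 M p h.hqM) B = 1 ∧
      (∀ {m : ℕ} {D : Divisor QBar (FB (p * M))} {x : loc2 A (iota2 M p h.hqM)},
        (x : FB (p * M)) ∈ HD M p D m →
          ((B * x : loc2 A (iota2 M p h.hqM)) : FB (p * M)) ∈ HD M p D m) ∧
      q = B + piF W.C h ^ 2 * Q := by
  obtain ⟨r, hr⟩ := exists_red_eq (h := h) V hV hK R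
  set π := piF W.C h with hπ
  have hπl : ∀ _ : Fin 2, algebraMap QBar LSer W.C.π ∈ locS A := fun _ =>
    algebraMap_mem_locS (mem_of_mem_nonunits W.C.π_nonunit)
  have hqmem : R.q ∈ loc2 A (iota2 M p h.hqM) := (mem_loc2 _).mpr fun s => by
    rw [R.q_eq]; exact add_mem (one_mem _) (mul_mem (hπl s) (R.y_mem s))
  set q : loc2 A (iota2 M p h.hqM) := ⟨R.q, hqmem⟩ with hq
  have hqf : q ∈ fixLoc W.C h := R.q_fix
  obtain ⟨Y, hYf, hY⟩ := exists_eq_piF_mul (sub_mem hqf (one_mem _)) (by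
    funext s
    rw [red2_apply]
    have e : iota2 M p h.hqM s ((q - 1 : loc2 A (iota2 M p h.hqM)) : FB (p * M)) =
        algebraMap QBar LSer W.C.π * R.y s := by
      push_cast
      rw [map_sub, map_one, hq, R.q_eq, add_sub_cancel_left]
    rw [redL_congr _ (mul_mem (hπl s) (R.y_mem s)) e, redL_mul' (hπl s) (R.y_mem s),
      redL_algebraMap (mem_of_mem_nonunits W.C.π_nonunit), (residue_eq_zero_iff _).mpr W.C.π_nonunit,
      map_zero, zero_mul]
    rfl)
  have hYred : red2 A (iota2 M p h.hqM) Y = r • 1 := by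
    funext s
    rw [red2_apply, Mazur.pi_smul_apply', Pi.one_apply, mul_one, ← hr s]
    refine redL_congr _ _ ?_
    have e := congrArg (fun y : loc2 A (iota2 M p h.hqM) => iota2 M p h.hqM s (y : FB (p * M))) hY
    simp only [hπ, piF, cst, hq, AddSubgroupClass.coe_sub, OneMemClass.coe_one, Subring.coe_mul,
      map_sub, map_one, map_mul, AlgHom.commutes, R.q_eq, add_sub_cancel_left] at e
    exact (mul_left_cancel₀ ((_root_.map_ne_zero _).mpr W.C.π_ne_zero) e).symm
  obtain ⟨c, hc, hcr⟩ := exists_cst_lift W.C h r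
  obtain ⟨Q, hQf, hQ⟩ := exists_eq_piF_mul (sub_mem hYf hc) (by
    rw [map_sub, hYred, ← mul_one (cst h c), red2_cst_mul, map_one, hcr, sub_self])
  refine ⟨q, 1 + π * cst h c, Q, rfl, hqf, add_mem (one_mem _) (mul_mem piF_mem_fixLoc hc), hQf,
    by rw [map_add, map_one, red2_piF_mul, add_zero], fun {m D x} hx => ?_,
    by linear_combination hY + π * hQ⟩
  rw [add_mul, one_mul, mul_assoc, Subring.coe_add]
  exact add_mem hx (cst_mul_mem_HD (cst_mul_mem_HD hx))

/-- **The wild generator cannot move a class with trivial pair by a nontrivial one.** -/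
theorem false_of_isTriv_wild (hs : SmulOne h) (V : VUnit A h.hqM) (hV : V.Simple)
    {W : Wild A p} (K : Kum h.hqM W.C) (hK : IsTriv K) (R : SigmaRel W K)
    (K₀ : Kum h.hqM W.C₁) (hf₀ : R.f₀ = K₀.f) (hK₀ : IsTriv K₀)
    (hne : cls K ≠ 0) (hne₀ : cls K₀ ≠ 0) : False := by
  have hp : p.Prime := hpf.out
  have hp2 := hp.two_le
  set K' := R.twist with hK'
  have hK't : IsTriv K' := ⟨hK.fb, hK.v⟩
  have hD' : K'.D = K.D + K₀.D := Finsupp.ext fun v => by
    have e := K'.D_mul v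
    rw [show v.ord K'.f = v.ord (K.f * R.f₀) from rfl, hf₀, v.ord_mul K.f_ne K₀.f_ne, ← K.D_mul,
      ← K₀.D_mul, ← mul_add] at e
    rw [Finsupp.add_apply]
    exact mul_left_cancel₀ (Int.natCast_ne_zero.mpr hp.ne_zero) e
  obtain ⟨N₁, h₁⟩ := exists_big hs
  obtain ⟨N₂, h₂⟩ := exists_LD_eq (h := h) V hV K' hK't
  obtain ⟨N₃, h₃⟩ := exists_wit_of_isTriv hs V hV K hK hne
  obtain ⟨N₄, h₄⟩ := exists_wit_of_isTriv hs V hV K₀ hK₀ hne₀
  set n := N₁ + N₂ + N₃ + N₄ + 1 with hn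
  obtain ⟨w⟩ := h₃ n (by omega)
  obtain ⟨w₀⟩ := h₄ n (by omega)
  have hbig := h₁ n (by omega)
  obtain ⟨f, hf, hfr⟩ := exists_loc2_of_isTriv (h := h) hK
  obtain ⟨f₀, hf₀', hfr₀⟩ := exists_loc2_of_isTriv (h := h) hK₀
  obtain ⟨hk₀, -, hfrob₀⟩ := w₀.frob hbig f₀ (fun v => by rw [hf₀', ← K₀.D_mul]) hfr₀
  obtain ⟨-, hfrob, -⟩ := w.frob hbig f (fun v => by rw [hf, ← K.D_mul]) hfr
  have hk1 : w₀.k = 1 := by
    have h1 := w₀.k_pos
    rw [W.e₁_eq] at hk₀
    have := Nat.le_of_mul_le_mul_right (hk₀.trans (Nat.le_of_eq (one_mul (p - 1)).symm)) (by omega)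
    omega
  -- the two uniformisers
  set π := piF W.C h with hπ
  obtain ⟨e₁, hω⟩ : ∃ ω : A, IsLocalRing.residue A ω ≠ 0 ∧
      piF W.C₁ h = π ^ p * cst h ω ∧ cst h ω ∈ fixLoc W.C h := by
    have hπp : W.C.π ^ p ≠ 0 := pow_ne_zero _ W.C.π_ne_zero
    have hv : A.valuation (W.C₁.π / W.C.π ^ p) = 1 := by
      rw [map_div₀, map_pow, W.valuation_π₁ hp, div_self (pow_ne_zero _
        ((Valuation.ne_zero_iff _).mpr W.C.π_ne_zero))]
    refine ⟨⟨_, (A.valuation_le_one_iff _).mp hv.le⟩, (residue_unit_ne_zero hv).2, Subtype.ext ?_,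
      cst_mem_fixLoc fun τ hτ => ?_⟩
    · show algebraMap QBar (FB (p * M)) W.C₁.π =
        algebraMap QBar _ W.C.π ^ p * algebraMap QBar _ (W.C₁.π / W.C.π ^ p)
      rw [← map_pow, ← map_mul, mul_div_cancel₀ _ hπp]
    · show τ (W.C₁.π / W.C.π ^ p) = _
      rw [map_div₀, map_pow, W.C.π_fixed τ hτ, W.C₁.π_fixed τ (W.le hτ)]
  obtain ⟨hω0, hπ₁, hωf⟩ := hω
  have hle : ∀ {y : loc2 A (iota2 M p h.hqM)}, y ∈ fixLoc W.C₁ h → y ∈ fixLoc W.C h :=
    fun hy τ hτ => hy τ (W.le hτ)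
  obtain ⟨X, hXf, hX⟩ := exists_eq_piF_mul (sub_mem w₀.x_fix (one_mem _))
    (by rw [map_sub, w₀.x_red, map_one, sub_self])
  obtain ⟨Z, hZf, hZ⟩ := exists_eq_piF_mul (sub_mem w₀.z_fix (pow_mem jTop_mem_fixLoc n))
    (by rw [map_sub, w₀.z_red, red2_jTop_pow, sub_self])
  obtain ⟨p', hp'⟩ : ∃ p', p = p' + 2 := ⟨p - 2, by omega⟩
  have hπp : π ^ p = π ^ 2 * π ^ p' := by rw [← pow_add, add_comm, ← hp']
  set X' := π ^ p' * cst h e₁ * X with hX'
  set Z' := π ^ p' * cst h e₁ * Z with hZ'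
  have hx₀ : w₀.x = 1 + π ^ 2 * X' := by
    rw [hπ₁, hπp] at hX; rw [hX']; linear_combination hX
  have hz₀ : w₀.z = jTop M h ^ n + π ^ 2 * Z' := by
    rw [hπ₁, hπp] at hZ; rw [hZ']; linear_combination hZ
  have hrel₀ : jTop M h ^ n * w₀.x - w₀.z = π ^ p * cst h e₁ * w₀.t := by
    rw [w₀.rel, hk1, pow_one, hπ₁]
  have hπf : π ∈ fixLoc W.C h := piF_mem_fixLoc
  -- the twisting factor and the generator
  obtain ⟨q, B, Q, hqR, hqf, hBf, hQf, hBred, hBV, hqeq⟩ := exists_q_eq (h := h) V hV hK R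
  set σ := sigL h W.σ_mem_inertia with hσ
  set J := jTop M h ^ n with hJ
  have hJf : J ∈ fixLoc W.C h := pow_mem jTop_mem_fixLoc n
  have hσJ : σ J = J := Subtype.ext (by
    rw [hσ, coe_sigL, hJ, SubmonoidClass.coe_pow, map_pow, coe_jTop, galF_upF, galF_jM])
  obtain ⟨Sx, hSxf, hSx⟩ := exists_sigL_eq W w.x_fix
  obtain ⟨Sz, hSzf, hSz⟩ := exists_sigL_eq W w.z_fix
  obtain ⟨St, hStf, hSt⟩ := exists_sigL_eq W w.t_fix
  obtain ⟨ωk, hωk⟩ := exists_sigL_piF_pow (h := h) W w.k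
  rw [← hσ, ← hπ] at hSx hSz hSt hωk
  have hσrel : J * σ w.x - σ w.z = π ^ w.k *
      (1 + (w.k : loc2 A (iota2 M p h.hqM)) * cst h W.u * π + cst h ωk * π ^ 2) *
        (w.t + π ^ 2 * St) := by
    have e := congrArg σ w.rel
    rw [map_sub, map_mul, map_mul, hσJ, hωk, hSt] at e
    exact e
  have hcoeJ : ((J : loc2 A (iota2 M p h.hqM)) : FB (p * M)) = (jTop M h : FB (p * M)) ^ n :=
    SubmonoidClass.coe_pow _ _
  have hqσ : ∀ {m : ℕ} {y : loc2 A (iota2 M p h.hqM)}, (y : FB (p * M)) ∈ HD M p K.D m →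
      ((q * σ y : loc2 A (iota2 M p h.hqM)) : FB (p * M)) ∈ HD M p K'.D m := by
    intro m y hy
    rw [← V_eq_HD (h := h)] at hy ⊢
    rw [Kum.mem_V] at hy ⊢
    show ((q * σ y : loc2 A (iota2 M p h.hqM)) : FB (p * M)) ^ p * (K.f * R.f₀) ∈ _
    have h1 : galF (p * M) W.σ ((y : FB (p * M)) ^ p * K.f) ∈ HN M p (p * m) :=
      galF_mem_poles (p * M) (by rw [galF_upF, galF_jM]) hy
    rw [map_mul, map_pow, R.rel] at h1
    have h3 := Submodule.smul_mem (HN M p (p * m)) R.κ⁻¹ h1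
    rw [Algebra.smul_def, map_inv₀] at h3
    convert h3 using 1
    rw [Subring.coe_mul, coe_sigL, hqR]
    field_simp [(_root_.map_ne_zero (algebraMap QBar (FB (p * M)))).mpr R.κ_ne]
    ring
  have hJmul : ∀ {D : Divisor QBar (FB (p * M))} {y : loc2 A (iota2 M p h.hqM)},
      (y : FB (p * M)) ∈ HD M p D n →
      ((J * y : loc2 A (iota2 M p h.hqM)) : FB (p * M)) ∈ HD M p D (n + n) := fun {D y} hy => by
    have := mul_mem_HD (D := 0) (x := (jTop M h : FB (p * M)) ^ n)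
      (by rw [HD_zero]; exact jTop_pow_mem n) hy
    rw [zero_add] at this
    rw [Subring.coe_mul, hcoeJ]
    exact this
  -- the witness of the conjugate
  have hJ2 : jTop M h ^ (n + n) = J * J := by rw [hJ, pow_add]
  have hqr : red2 A (iota2 M p h.hqM) q = 1 := by
    rw [hqeq, map_add, hBred, pow_two, mul_assoc, red2_piF_mul, add_zero]
  have hσred : ∀ {y S : loc2 A (iota2 M p h.hqM)}, σ y = y + π ^ 2 * S →
      red2 A (iota2 M p h.hqM) (σ y) = red2 A (iota2 M p h.hqM) y := fun {y S} e => by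
    rw [e, map_add, pow_two, mul_assoc, red2_piF_mul, add_zero]
  have hJred : red2 A (iota2 M p h.hqM) J = jPow A p n := red2_jTop_pow n
  have hjt : jPow A p n * red2 A (iota2 M p h.hqM) w.t ∈
      Bn A M p h.hqM ((n + n) + (n + n)) :=
    Bn_mono (h := h) (by omega) (h.mul_mem_Bn (jPow_mem_Bn (h := h) n) w.t_mem)
  have hcancel : ∀ {c : Res A} {s : Fin 2 → LaurentSeries (Res A)},
      s ∈ Bn A M p h.hqM (n + n) → c ≠ 0 → c • (jPow A p n * s) ∈ gapSp h (n + n) →
        s ∈ gapSp h n := fun {c s} hs' hc hm => by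
    refine hbig.cancel n s hs' ?_
    have := Submodule.smul_mem (gapSp h (n + n)) c⁻¹ hm
    rwa [smul_smul, inv_mul_cancel₀ hc, one_smul] at this
  set T := J * q * (1 + (w.k : loc2 A (iota2 M p h.hqM)) * cst h W.u * π + cst h ωk * π ^ 2) *
      (w.t + π ^ 2 * St) with hT
  have hTred : red2 A (iota2 M p h.hqM) T = jPow A p n * red2 A (iota2 M p h.hqM) w.t := by
    rw [hT, show J * q * (1 + (w.k : loc2 A (iota2 M p h.hqM)) * cst h W.u * π +
        cst h ωk * π ^ 2) * (w.t + π ^ 2 * St) = J * q * w.t + π * (J * q *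
          (((w.k : loc2 A (iota2 M p h.hqM)) * cst h W.u + cst h ωk * π) * (w.t + π ^ 2 * St) +
            π * St)) by ring, map_add, red2_piF_mul, add_zero, map_mul, map_mul, hJred, hqr,
      mul_one]
  let w' : Wit h W.C K'.D (n + n) :=
    { x := q * σ w.x
      z := J * (q * σ w.z)
      t := T
      k := w.k
      k_pos := w.k_pos
      x_mem := HD_mono K'.D (Nat.le_add_right n n) (hqσ w.x_mem)
      z_mem := hJmul (hqσ w.z_mem)
      x_fix := mul_mem hqf (sigL_mem_fixLoc W w.x_fix)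
      z_fix := mul_mem hJf (mul_mem hqf (sigL_mem_fixLoc W w.z_fix))
      t_fix := by
        have h1 : (1 + (w.k : loc2 A (iota2 M p h.hqM)) * cst h W.u * π + cst h ωk * π ^ 2) *
            (w.t + π ^ 2 * St) * (J * q) = T := by rw [hT]; ring
        refine fun τ hτ => galF_eq_self ?_
        have h2 : J * (q * σ w.x) * J - J * (q * σ w.z) = π ^ w.k * T := by
          rw [hT]; linear_combination (J * q) * hσrel
        have hπk : ((π ^ w.k : loc2 A (iota2 M p h.hqM)) : FB (p * M)) ≠ 0 := fun e =>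
          pow_ne_zero w.k piF_ne_zero (Subtype.ext e : π ^ w.k = 0)
        have h3 := (sub_mem (mul_mem (mul_mem hJf (mul_mem hqf (sigL_mem_fixLoc W w.x_fix))) hJf)
          (mul_mem hJf (mul_mem hqf (sigL_mem_fixLoc W w.z_fix))) : _ ∈ fixLoc W.C h) τ hτ
        rw [← hσ, h2, Subring.coe_mul, map_mul, pow_mem hπf w.k τ hτ] at h3
        have h4 := mul_left_cancel₀ hπk h3
        rw [← coe_arithmeticRingAut]
        exact congrArg Subtype.val h4
      x_red := by rw [map_mul, hqr, hσred hSx, w.x_red, one_mul]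
      z_red := by
        rw [map_mul, map_mul, hqr, hσred hSz, hJred, w.z_red, one_mul]
        exact (jPow_add n n).symm
      rel := by rw [hJ2, hT]; linear_combination (J * q) * hσrel
      t_mem := by rw [hTred]; exact hjt
      t_not := by
        rw [hTred]
        exact fun hm => w.t_not (hbig.cancel n _ w.t_mem hm) }
  have hcomp := w'.compare (h₁ (n + n) (by omega)) (h₂ (n + n) (by omega))
  -- the difference of the two relations
  set a := Q * σ w.x + B * Sx - B * w.x * X' with ha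
  set b := J * (Q * σ w.z) + J * (B * Sz) - B * w.z * Z' with hb
  have hxA : q * σ w.x - B * (w.x * w₀.x) = π ^ 2 * a := by
    rw [ha, hqeq, hx₀]; linear_combination B * hSx
  have hzA : J * (q * σ w.z) - B * (w.z * w₀.z) = π ^ 2 * b := by
    rw [hb, hqeq, hz₀]; linear_combination J * B * hSz
  have hX'f : X' ∈ fixLoc W.C h := mul_mem (mul_mem (pow_mem hπf _) hωf) (hle hXf)
  have hZ'f : Z' ∈ fixLoc W.C h := mul_mem (mul_mem (pow_mem hπf _) hωf) (hle hZf)
  have haf : a ∈ fixLoc W.C h := sub_mem (add_mem (mul_mem hQf (sigL_mem_fixLoc W w.x_fix))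
    (mul_mem hBf hSxf)) (mul_mem (mul_mem hBf w.x_fix) hX'f)
  have hbf : b ∈ fixLoc W.C h := sub_mem (add_mem
    (mul_mem hJf (mul_mem hQf (sigL_mem_fixLoc W w.z_fix))) (mul_mem hJf (mul_mem hBf hSzf)))
    (mul_mem (mul_mem hBf w.z_fix) hZ'f)
  have hprod : ∀ {y y₀ : loc2 A (iota2 M p h.hqM)}, (y : FB (p * M)) ∈ HD M p K.D n →
      (y₀ : FB (p * M)) ∈ HD M p K₀.D n →
      ((B * (y * y₀) : loc2 A (iota2 M p h.hqM)) : FB (p * M)) ∈ HD M p K'.D (n + n) :=
    fun hy hy₀ => hBV (by rw [hD', Subring.coe_mul]; exact mul_mem_HD hy hy₀)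
  have haV : (a : FB (p * M)) ∈ HD M p K'.D (n + n) := mem_of_piF_mul (C := W.C) (j := 2) (by
    rw [← hπ, ← hxA, AddSubgroupClass.coe_sub]
    exact sub_mem w'.x_mem (hprod w.x_mem w₀.x_mem))
  have hbV : (b : FB (p * M)) ∈ HD M p K'.D (n + n) := mem_of_piF_mul (C := W.C) (j := 2) (by
    rw [← hπ, ← hzA, AddSubgroupClass.coe_sub]
    exact sub_mem w'.z_mem (hprod w.z_mem w₀.z_mem))
  -- its expansion
  set rest := J * (Q * ((1 + (w.k : loc2 A (iota2 M p h.hqM)) * cst h W.u * π +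
      cst h ωk * π ^ 2) * (w.t + π ^ 2 * St)) + B * cst h ωk * w.t +
      B * (1 + (w.k : loc2 A (iota2 M p h.hqM)) * cst h W.u * π + cst h ωk * π ^ 2) * St) -
      B * Z' * w.t with hrest
  have hmain : π ^ 2 * (J * J * a - b) =
      π ^ (w.k + 1) * (J * B * ((w.k : loc2 A (iota2 M p h.hqM)) * cst h W.u * w.t) + π * rest) -
        π ^ p * (B * J * cst h e₁ * w.x * w₀.t) := by
    rw [hrest]
    calc π ^ 2 * (J * J * a - b) = J * J * (π ^ 2 * a) - π ^ 2 * b := by ring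
      _ = J * q * (J * σ w.x - σ w.z) -
            B * (J * w.x * (J * w₀.x - w₀.z) + w₀.z * (J * w.x - w.z)) := by
          rw [← hxA, ← hzA]; ring
      _ = _ := by rw [hσrel, hrel₀, w.rel, ← hπ, hz₀, hqeq]; ring
  have hcxr : red2 A (iota2 M p h.hqM) (B * J * cst h e₁ * w.x * w₀.t) =
      IsLocalRing.residue A e₁ • (jPow A p n * red2 A (iota2 M p h.hqM) w₀.t) := by
    rw [show B * J * cst h e₁ * w.x * w₀.t = cst h e₁ * (B * J * w.x * w₀.t) by ring,
      red2_cst_mul, map_mul, map_mul, map_mul, hBred, hJred, w.x_red, one_mul, mul_one]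
  have hkur : red2 A (iota2 M p h.hqM)
      (J * B * ((w.k : loc2 A (iota2 M p h.hqM)) * cst h W.u * w.t)) =
      ((w.k : Res A) * IsLocalRing.residue A W.u) •
        (jPow A p n * red2 A (iota2 M p h.hqM) w.t) := by
    rw [show J * B * ((w.k : loc2 A (iota2 M p h.hqM)) * cst h W.u * w.t) =
        (w.k : loc2 A (iota2 M p h.hqM)) * (cst h W.u * (J * B * w.t)) by ring, map_mul,
      map_natCast, red2_cst_mul, map_mul, map_mul, hBred, hJred, mul_one, ← nsmul_eq_mul,
      ← Nat.cast_smul_eq_nsmul (Res A), smul_smul]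
  have hπ0 : π ≠ 0 := piF_ne_zero
  have hget : ∀ (j : ℕ) (E : loc2 A (iota2 M p h.hqM)), j < w.k →
      π ^ 2 * (J * J * a - b) = π ^ (j + 2) * E →
        red2 A (iota2 M p h.hqM) E ∈ gapSp h (n + n) := fun j E hj e =>
    hcomp j hj a b E haf hbf haV hbV (by
      rw [hJ2]
      exact mul_left_cancel₀ (pow_ne_zero 2 hπ0) (e.trans (by rw [pow_add]; ring)))
  rcases le_or_gt p w.k with hkp | hkp
  · obtain ⟨d, hd⟩ : ∃ d, w.k = p + d := ⟨w.k - p, by omega⟩
    have h5 := hget p' (π * (π ^ d *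
      (J * B * ((w.k : loc2 A (iota2 M p h.hqM)) * cst h W.u * w.t) + π * rest)) -
      B * J * cst h e₁ * w.x * w₀.t) (by omega) (by
      rw [hmain, ← hp', show w.k + 1 = p + (d + 1) by omega]; ring)
    rw [map_sub, red2_piF_mul, zero_sub, hcxr, ← neg_smul] at h5
    exact w₀.t_not (hcancel w₀.t_mem (neg_ne_zero.mpr hω0) h5)
  obtain ⟨k', hk'⟩ : ∃ k', w.k = k' + 1 := ⟨w.k - 1, by have := w.k_pos; omega⟩
  have hku : (w.k : Res A) * IsLocalRing.residue A W.u ≠ 0 := mul_ne_zero (fun h0 => by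
    have := Nat.le_of_dvd w.k_pos ((CharP.cast_eq_zero_iff (Res A) p w.k).mp h0)
    omega) W.u_ne
  rcases lt_or_ge (w.k + 1) p with hk1p | hk1p
  · obtain ⟨d, hd⟩ : ∃ d, p = w.k + 2 + d := ⟨p - (w.k + 2), by omega⟩
    have hb5 : π ^ p = π ^ (w.k + 1) * (π * π ^ d) := by
      rw [← pow_succ', ← pow_add]; exact congrArg _ (hd.trans (by omega))
    have h5 := hget k' (J * B * ((w.k : loc2 A (iota2 M p h.hqM)) * cst h W.u * w.t) +
      π * (rest - π ^ d * (B * J * cst h e₁ * w.x * w₀.t))) (by omega) (by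
      rw [hmain, hb5, show k' + 2 = w.k + 1 by omega]; ring)
    rw [map_add, red2_piF_mul, add_zero, hkur] at h5
    exact w.t_not (hcancel w.t_mem hku h5)
  have hkeq : w.k + 1 = p := by omega
  have h5 := hget k' (J * B * ((w.k : loc2 A (iota2 M p h.hqM)) * cst h W.u * w.t) +
    π * rest - B * J * cst h e₁ * w.x * w₀.t) (by omega) (by
    rw [hmain, show π ^ p = π ^ (w.k + 1) from congrArg _ hkeq.symm,
      show k' + 2 = w.k + 1 by omega]; ring)
  rw [map_sub, map_add, red2_piF_mul, add_zero, hkur, hcxr] at h5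
  set α := (w.k : Res A) * IsLocalRing.residue A W.u
  set ω := IsLocalRing.residue A e₁
  set t := red2 A (iota2 M p h.hqM) w.t
  set t₀ := red2 A (iota2 M p h.hqM) w₀.t
  set c := ω⁻¹ * α with hc
  have hs' : t₀ - c • t ∈ gapSp h n := by
    refine hcancel (sub_mem w₀.t_mem (Submodule.smul_mem _ _ w.t_mem)) (neg_ne_zero.mpr hω0) ?_
    rw [mul_sub, mul_pi_smul, smul_sub, smul_smul, hc, neg_mul, mul_inv_cancel_left₀ hω0,
      neg_smul, neg_smul, sub_neg_eq_add, neg_add_eq_sub]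
    exact h5
  have hlt : w.k * (p - 1) < W.C.e := by
    rw [W.e_eq]
    exact Nat.mul_lt_mul_of_pos_right (by omega) (by omega)
  obtain ⟨c₀, hc₀, h6⟩ := hfrob₀ (by rw [hk1, one_mul, W.e₁_eq])
  have h7 : t₀ ^ p ∈ gapSp h (n * p) := by
    have e : t₀ ^ p = (t₀ - c • t) ^ p + c ^ p • t ^ p := by
      rw [← pi_smul_pow]
      funext i
      have := charP_laurent A p
      rw [Pi.add_apply, Pi.pow_apply, Pi.pow_apply, Pi.pow_apply, ← add_pow_char, Pi.sub_apply,
        sub_add_cancel]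
    rw [e]
    exact add_mem (pow_mem_gapSp hs') (Submodule.smul_mem _ _ (hfrob hlt))
  have h8 : jPow A p (n * (p - 1)) * t₀ ∈ gapSp h (n * p) := by
    have := Submodule.smul_mem (gapSp h (n * p)) c₀⁻¹ (sub_mem h6 h7)
    rwa [add_sub_cancel_left, smul_smul, inv_mul_cancel₀ hc₀, one_smul] at this
  refine w₀.t_not (hbig.cancel (n * (p - 1)) _ w₀.t_mem ?_)
  rwa [show n * (p - 1) + n = n * p by
    rw [← Nat.mul_succ, Nat.succ_eq_add_one, Nat.sub_add_cancel hp.one_le]]

end Fermat.Agent.RT.LowerP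

end
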