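import Fermat.Agent.RT.LowerP.Frob

/-!
# The spaces of a class with trivial pair of reductions, and the wild generator on integral functions

A class with trivial pair of reductions has the reduced spaces of the trivial class.  The wild
generator is the identity modulo `π ^ 2` on fixed integral functions.
-/

set_option autoImplicit false
set_option synthInstance.maxHeartbeats 400000
set_option maxHeartbeats 1000000
set_option linter.unusedSectionVars false

noncomputable section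

namespace Fermat.Agent.RT.LowerP

open ModularCurve AlgebraicCurve
open Fermat.Agent.Semistable Fermat.Agent.Arith Fermat.Agent.RT.MazurP
open Fermat.Agent.RT.Mazur (exists_principal_of_section)

variable {A : ValuationSubring QBar} {p M : ℕ} [hpf : Fact p.Prime] [CharP (Res A) p] [NeZero M]
  [FF.IsFunctionField (Res A) (KM A M)]
variable {h : Setup A M p} {C : CoefField A p}

theorem V_eq_HD (K : Kum h.hqM C) (n : ℕ) : K.V n = HD M p K.D n := by
  ext φ
  rw [K.mem_V, mem_HD]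
  constructor
  · intro hφ v
    rcases eq_or_ne φ 0 with h0 | h0
    · rw [h0]; exact zero_mem _
    refine FF.mem_ordGe_of_le v ?_
    have h1 := FF.le_ord_of_mem_ordGe v (mul_ne_zero (pow_ne_zero p h0) K.f_ne)
      (RedTorsion.mem_polesSpace.mp hφ v)
    rw [v.ord_mul (pow_ne_zero p h0) K.f_ne, FF.ord_pow, ← K.D_mul, Nat.cast_mul] at h1
    have hp0 : (0 : ℤ) < p := by exact_mod_cast hpf.out.pos
    have h2 : (p : ℤ) * (-((n : ℤ) * FF.poles QBar (upF M p (jM M)) v)) ≤
        (p : ℤ) * (v.ord φ + K.D v) := by linarith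
    have h3 := le_of_mul_le_mul_left h2 hp0
    linarith
  · intro hφ
    exact pow_mul_mem_HN ((mem_HD M p).mpr hφ) fun v => (K.D_mul v).symm

/-- The function of a trivial pair is integral, with reductions one. -/
theorem exists_loc2_of_isTriv {K : Kum h.hqM C} (hK : IsTriv K) :
    ∃ f : loc2 A (iota2 M p h.hqM), (f : FB (p * M)) = K.f ∧
      red2 A (iota2 M p h.hqM) f = 1 := by
  have e : ∀ s, algebraMap QBar LSer (C.π ^ (-K.v s)) * iota2 M p h.hqM s K.f =
      iota2 M p h.hqM s K.f := fun s => by rw [hK.v, neg_zero, zpow_zero, map_one, one_mul]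
  refine ⟨⟨K.f, (mem_loc2 _).mpr fun s => ?_⟩, rfl, funext fun s => ?_⟩
  · obtain ⟨hm, -⟩ := K.spec s
    rwa [e] at hm
  · obtain ⟨hm, hr⟩ := K.spec s
    rw [red2_apply]
    refine (redL_congr _ hm (e s).symm).trans ?_
    rw [hr, hK.fb]
    rfl

/-- The spaces of a trivial pair reduce onto those of the trivial class. -/
theorem exists_LD_eq (V : VUnit A h.hqM) (hV : V.Simple) (K : Kum h.hqM C) (hK : IsTriv K) :
    ∃ n₀, ∀ n, n₀ ≤ n → LD A h.hqM K.D n = Bn A M p h.hqM n := by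
  obtain ⟨m₀, hm₀⟩ := K.exists_Im_congr V h.hA h.hM hV (Kum.one C h.hqM)
    (funext fun s => hK.fb s) (by
      show K.δ = (Kum.one C h.hqM).v 1 - (Kum.one C h.hqM).v 0
      rw [Kum.δ, hK.v, hK.v]; rfl) (k := 0) (by rw [Kum.δ, hK.v, hK.v]; simp)
  refine ⟨m₀, fun n hn => ?_⟩
  have hone : (Kum.one C h.hqM).V n = HN M p n := by
    rw [V_eq_HD (h := h), show (Kum.one C h.hqM).D = 0 from Finsupp.ext fun v => ?_, HD_zero]
    have h1 := (Kum.one C h.hqM).D_mul v
    rw [show v.ord (Kum.one C h.hqM).f = 0 from v.ord_one] at h1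
    exact (mul_eq_zero.mp h1).resolve_left (Int.natCast_ne_zero.mpr hpf.out.ne_zero)
  have htw : tw h.hqM C.π (0 : ℤ) = embLin (iota2 M p h.hqM) :=
    LinearMap.ext fun x => funext fun s => tw_zero C h.hqM x s
  have e := hm₀ n hn
  rw [Kum.Im, Kum.Im, V_eq_HD (h := h), hone, htw] at e
  exact e

/-- A nontrivial class has no nonzero section. -/
theorem eq_zero_of_mem (K : Kum h.hqM C) (hne : cls K ≠ 0) :
    ∀ y ∈ riemannRochSpace K.D, y = (0 : FB (p * M)) := by
  intro y hy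
  by_contra hy0
  refine hne ((QuotientAddGroup.eq_zero_iff _).mpr ?_)
  rw [AddSubgroup.mem_addSubgroupOf]
  exact ⟨y⁻¹, inv_ne_zero hy0, fun v => (exists_principal_of_section K.degree_D hy hy0 v).symm⟩

/-- Everything needed for a witness, eventually. -/
theorem exists_wit_of_isTriv (hs : SmulOne h) (V : VUnit A h.hqM) (hV : V.Simple)
    (K : Kum h.hqM C) (hK : IsTriv K) (hne : cls K ≠ 0) :
    ∃ n₀, ∀ n, n₀ ≤ n → Nonempty (Wit h C K.D n) := by
  obtain ⟨n₁, h₁⟩ := exists_big hs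
  obtain ⟨n₂, h₂⟩ := exists_LD_eq (h := h) V hV K hK
  obtain ⟨n₃, h₃⟩ := exists_finrank_HD (M := M) (q := p)
  refine ⟨n₁ + n₂ + n₃, fun n hn => exists_wit (h₁ n (by omega)) (h₂ n (by omega))
    (h₂ (n + n) (by omega)) (h₃ _ K.degree_D n (by omega)) (fun τ hτ y hy => ?_)
    (eq_zero_of_mem (h := h) K hne)⟩
  rw [← V_eq_HD (h := h)] at hy ⊢
  exact K.galF_mem_V hτ hy

/-! ### The wild generator -/

variable (h) in
/-- An inertia element on integral functions. -/
def sigL {σ : GQ} (hσ : σ ∈ A.inertiaSubgroupIn ℚ) :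
    loc2 A (iota2 M p h.hqM) →+* loc2 A (iota2 M p h.hqM) :=
  ((galF (p * M) σ : FB (p * M) ≃+* FB (p * M)).toRingHom.comp
    (loc2 A (iota2 M p h.hqM)).subtype).codRestrict _ fun x =>
      ((resLift_of_inertia hσ).galF_mem_loc2 M p h.hqM x).1

theorem coe_sigL {σ : GQ} (hσ : σ ∈ A.inertiaSubgroupIn ℚ) (x : loc2 A (iota2 M p h.hqM)) :
    (sigL h hσ x : FB (p * M)) = galF (p * M) σ (x : FB (p * M)) := rfl

theorem sigL_mem_fixLoc (W : Wild A p) {x : loc2 A (iota2 M p h.hqM)} (hx : x ∈ fixLoc W.C h) :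
    sigL h W.σ_mem_inertia x ∈ fixLoc W.C h := fun τ hτ => galF_eq_self (by
  rw [coe_sigL]
  have e : ((galF (p * M) W.σ (x : FB (p * M)) : FB (p * M)) : LSer) =
      coeffMap (W.σ : QBar →+* QBar) ((x : FB (p * M)) : LSer) := coe_arithmeticRingAut _ _
  have e' : coeffMap ((W.σ⁻¹ * τ * W.σ : GQ) : QBar →+* QBar) ((x : FB (p * M)) : LSer) =
      ((x : FB (p * M)) : LSer) :=
    (coe_arithmeticRingAut _ _).symm.trans (congrArg Subtype.val (hx _ (W.normal τ hτ)))
  rw [e]
  refine HahnSeries.ext ?_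
  funext i
  have e'' := congrArg (fun s : LSer => W.σ (s.coeff i)) e'
  simp only [Fermat.Agent.RT.Mazur.coeff_coeffMap] at e'' ⊢
  refine Eq.trans ?_ e''
  show τ (W.σ _) = W.σ ((W.σ⁻¹ * τ * W.σ) _)
  rw [AlgEquiv.mul_apply, AlgEquiv.mul_apply, ← AlgEquiv.mul_apply W.σ W.σ⁻¹, mul_inv_cancel,
    AlgEquiv.one_apply])

/-- The generator is the identity modulo `π ^ 2`. -/
theorem exists_sigL_eq (W : Wild A p) {x : loc2 A (iota2 M p h.hqM)} (hx : x ∈ fixLoc W.C h) :
    ∃ y ∈ fixLoc W.C h, sigL h W.σ_mem_inertia x = x + piF W.C h ^ 2 * y := by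
  set π2 : QBar := W.C.π ^ 2
  have hπ2 : π2 ≠ 0 := pow_ne_zero _ W.C.π_ne_zero
  set d := sigL h W.σ_mem_inertia x - x
  set y : FB (p * M) := π2⁻¹ • (d : FB (p * M)) with hy
  have hmem : y ∈ loc2 A (iota2 M p h.hqM) := (mem_loc2 _).mpr fun s => by
    obtain ⟨z, hz, ez⟩ := W.exists_σ_locS h.hA hpf.out ((mem_loc2 _).mp x.2 s)
      (fun τ hτ => by rw [← iota2_galF, hx τ hτ])
    rw [hy, Algebra.smul_def, map_mul, AlgHom.commutes, AddSubgroupClass.coe_sub, map_sub,
      coe_sigL, iota2_galF, ez, add_sub_cancel_left, ← mul_assoc, ← map_mul,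
      inv_mul_cancel₀ hπ2, map_one, one_mul]
    exact hz
  refine ⟨⟨y, hmem⟩, smul_fix (sub_mem (sigL_mem_fixLoc W hx) hx) (fun τ hτ => ?_),
    Subtype.ext ?_⟩
  · rw [map_inv₀, map_pow, W.C.π_fixed τ hτ]
  · show _ = (((x + piF W.C h ^ 2 * ⟨y, hmem⟩) : loc2 A (iota2 M p h.hqM)) : FB (p * M))
    rw [Subring.coe_add, coe_piF_pow_mul]
    show _ = (x : FB (p * M)) + π2 • (π2⁻¹ • (d : FB (p * M)))
    rw [smul_smul, mul_inv_cancel₀ hπ2, one_smul, AddSubgroupClass.coe_sub, add_sub_cancel]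

/-- The generator on powers of the uniformiser. -/
theorem exists_sigL_piF_pow (W : Wild A p) (k : ℕ) : ∃ w : A,
    sigL h W.σ_mem_inertia (piF W.C h ^ k) = piF W.C h ^ k *
      (1 + (k : loc2 A (iota2 M p h.hqM)) * cst h W.u * piF W.C h + cst h w * piF W.C h ^ 2) := by
  obtain ⟨w, hw, e⟩ := W.exists_σ_π_pow k
  refine ⟨⟨w, hw⟩, Subtype.ext (Subtype.ext ?_)⟩
  rw [coe_sigL]
  refine (coe_arithmeticRingAut _ _).trans ?_
  simp only [piF, cst]
  push_cast
  show coeffMap (W.σ : QBar →+* QBar) (algebraMap QBar LSer W.C.π ^ k) =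
    algebraMap QBar LSer W.C.π ^ k * (1 + (k : LSer) * algebraMap QBar LSer (W.u : QBar) *
      algebraMap QBar LSer W.C.π + algebraMap QBar LSer w * algebraMap QBar LSer W.C.π ^ 2)
  rw [← map_pow, coeffMap_algebraMap]
  show algebraMap QBar LSer (W.σ (W.C.π ^ k)) = _
  rw [e]
  simp only [map_mul, map_add, map_one, map_natCast, map_pow]

end Fermat.Agent.RT.LowerP

end
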