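import Fermat.Agent.RT.LowerP.Defs
import Fermat.Agent.RT.Mazur.Injective
import Fermat.Agent.RT.MazurP.Node

/-!
# The lattices of `L(n ∞)` at level `p M` and their gap

`gapSp n` is `jⁿ Bn + Bn`.  Cancellation of powers of `j`, compatibility with `p`-th powers, and
division of fixed integral functions by the uniformiser.
-/

set_option autoImplicit false
set_option synthInstance.maxHeartbeats 400000
set_option linter.unusedSectionVars false

noncomputable section

namespace Fermat.Agent.RT.LowerP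

open ModularCurve AlgebraicCurve
open Fermat.Agent.Semistable Fermat.Agent.Arith Fermat.Agent.RT.MazurP
open Fermat.Agent.RT.Mazur (mulPair jPow jPow_add jPow_mul jPow_ne_zero jPow_mem_Pk cancel_jPow
  mul_mem_Pk mul_pi_smul pi_smul_mul pi_smul_pow finrank_sup_lt)

variable {A : ValuationSubring QBar} {p M : ℕ} [hpf : Fact p.Prime] [CharP (Res A) p] [NeZero M]
  [FF.IsFunctionField (Res A) (KM A M)] {hpM : ¬ p ∣ M}

/-- Reductions of constant shape are diagonal. -/
def SmulOne (h : Setup A M p) : Prop :=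
  ∃ n₀ : ℕ, ∀ n, n₀ ≤ n → ∀ r ∈ Bn A M p h.hqM n, r ∈ Pk A M p 0 → ∃ β : Res A, r = β • 1

/-- `jⁿ Bn + Bn`. -/
def gapSp (h : Setup A M p) (n : ℕ) : Submodule (Res A) (Fin 2 → LaurentSeries (Res A)) :=
  (Bn A M p h.hqM n).map (mulPair (jPow A p n)) ⊔ Bn A M p h.hqM n

variable {h : Setup A M p}

theorem mem_gapSp {n : ℕ} {s : Fin 2 → LaurentSeries (Res A)} :
    s ∈ gapSp h n ↔
      ∃ r ∈ Bn A M p h.hqM n, ∃ r' ∈ Bn A M p h.hqM n, jPow A p n * r + r' = s := by
  rw [gapSp, Submodule.mem_sup]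
  constructor
  · rintro ⟨_, ⟨r, hr, rfl⟩, r', hr', rfl⟩
    exact ⟨r, hr, r', hr', rfl⟩
  · rintro ⟨r, hr, r', hr', rfl⟩
    exact ⟨_, ⟨r, hr, rfl⟩, r', hr', rfl⟩

variable (M) in
/-- The `j`-function of level `M` at level `p M`. -/
def jTop (h : Setup A M p) : loc2 A (iota2 M p h.hqM) := upParam M h.hqM ⟨jM M, jM_mem M⟩

theorem coe_jTop : (jTop M h : FB (p * M)) = upF M p (jM M) := rfl

theorem red2_jTop_pow (k : ℕ) :
    red2 A (iota2 M p h.hqM) (jTop M h ^ k) = jPow A p k := by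
  have e : red2 A (iota2 M p h.hqM) (jTop M h) =
      ![jqModC (Res A), qExpand (Res A) p (jqModC (Res A))] :=
    (red2_upF M p h.hqM ⟨jM M, jM_mem M⟩).trans (by rw [red1_jM])
  rw [map_pow, e]
  funext s
  fin_cases s <;> simp [jPow]

theorem jTop_pow_mem (k : ℕ) : ((jTop M h : FB (p * M)) ^ k) ∈ HN M p k := by
  induction k with
  | zero => rw [pow_zero]; exact one_mem_polesSpace _ _
  | succ k ih =>
    rw [pow_succ]
    refine mul_mem_polesSpace ih ?_
    rw [RedTorsion.mem_polesSpace]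
    intro v
    refine FF.mem_ordGe_of_le v ?_
    rw [coe_jTop, FF.poles_apply, Nat.cast_one, one_mul]
    omega

theorem jPow_mem_Bn (k : ℕ) : jPow A p k ∈ Bn A M p h.hqM k :=
  mem_redSub.mpr ⟨jTop M h ^ k, by rw [SubmonoidClass.coe_pow]; exact jTop_pow_mem k,
    red2_jTop_pow k⟩

theorem Bn_mono {a b : ℕ} (hab : a ≤ b) : Bn A M p h.hqM a ≤ Bn A M p h.hqM b := by
  intro r hr
  obtain ⟨x, hx, rfl⟩ := mem_redSub.mp hr
  exact mem_redSub.mpr ⟨x, RedTorsion.polesSpace_mono hab hx, rfl⟩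

theorem pow_mem_Bn {n : ℕ} {r : Fin 2 → LaurentSeries (Res A)} (hr : r ∈ Bn A M p h.hqM n) :
    ∀ i : ℕ, r ^ i ∈ Bn A M p h.hqM (n * i) := by
  intro i
  induction i with
  | zero => rw [pow_zero, mul_zero]; exact h.one_mem_Bn 0
  | succ i ih => rw [pow_succ, Nat.mul_succ]; exact h.mul_mem_Bn ih hr

theorem jPow_mul_mem_gapSp {n : ℕ} {s : Fin 2 → LaurentSeries (Res A)} (hs : s ∈ gapSp h n) :
    jPow A p n * s ∈ gapSp h (n + n) := by
  obtain ⟨r, hr, r', hr', rfl⟩ := mem_gapSp.mp hs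
  exact mem_gapSp.mpr ⟨r, Bn_mono (h := h) (Nat.le_add_left n n) hr, jPow A p n * r',
    h.mul_mem_Bn (jPow_mem_Bn (h := h) n) hr', by rw [jPow_add]; ring⟩

theorem pow_mem_gapSp {n : ℕ} {s : Fin 2 → LaurentSeries (Res A)} (hs : s ∈ gapSp h n) :
    s ^ p ∈ gapSp h (n * p) := by
  obtain ⟨r, hr, r', hr', rfl⟩ := mem_gapSp.mp hs
  refine mem_gapSp.mpr ⟨r ^ p, pow_mem_Bn (h := h) hr p, r' ^ p, pow_mem_Bn (h := h) hr' p, funext fun i => ?_⟩
  have := charP_laurent A p
  simp only [Pi.add_apply, Pi.mul_apply, Pi.pow_apply, add_pow_char, mul_pow, jPow_mul]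

/-- A power of `j` times an element of `Bn (2 n)` is in the gap only when the element is. -/
theorem exists_cancel (h : Setup A M p) :
    ∃ n₀ : ℕ, ∀ n, n₀ ≤ n → ∀ (a : ℕ) (s : Fin 2 → LaurentSeries (Res A)),
      s ∈ Bn A M p h.hqM (n + n) → jPow A p a * s ∈ gapSp h (a + n) → s ∈ gapSp h n := by
  obtain ⟨n₀, hn₀⟩ := h.exists_descend
  refine ⟨n₀, fun n hn a s hs has => ?_⟩
  obtain ⟨r, hr, r', hr', e⟩ := mem_gapSp.mp has
  have hPk : ∀ {m : ℕ} {x : Fin 2 → LaurentSeries (Res A)}, x ∈ Bn A M p h.hqM m →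
      x ∈ Pk A M p m := fun hx => Bn_le_Pk M p h.hqM h.hA h.hM _ hx
  have hrP : r ∈ Pk A M p n := by
    refine cancel_jPow (k := a + n) (b := a + (n + n)) (hPk hr) ?_ (by omega)
    rw [eq_sub_of_add_eq e]
    exact sub_mem (mul_mem_Pk (jPow_mem_Pk _) (hPk hs)) (Pk_mono A M p (by omega) (hPk hr'))
  have hrB : r ∈ Bn A M p h.hqM n := hn₀ n hn (a + n) (by omega) r hr hrP
  set ρ := s - jPow A p n * r with hρ
  have hρB : ρ ∈ Bn A M p h.hqM (n + n) := sub_mem hs (h.mul_mem_Bn (jPow_mem_Bn (h := h) n) hrB)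
  have hρr : jPow A p a * ρ = r' := by
    rw [hρ, mul_sub, ← mul_assoc, ← jPow_add, ← e, add_sub_cancel_left]
  have hρn : ρ ∈ Bn A M p h.hqM n := hn₀ n hn (n + n) (by omega) ρ hρB
    (cancel_jPow (k := a) (b := a + n) (hPk hρB) (hρr ▸ hPk hr') (by omega))
  exact mem_gapSp.mpr ⟨r, hrB, ρ, hρn, by rw [hρ, add_sub_cancel]⟩

/-- The gap is smaller than twice the space. -/
theorem finrank_gapSp_lt (n : ℕ) :
    Module.finrank (Res A) (gapSp h n) + 1 ≤
      2 * Module.finrank (Res A) (Bn A M p h.hqM n) := by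
  have := (finrank_Bn M p h.hqM h.hA n).1
  have hinj : Function.Injective (mulPair (jPow A p n) : _ →ₗ[Res A] _) := fun x y e =>
    funext fun s => mul_left_cancel₀ (jPow_ne_zero n s) (congrFun e s)
  have h1 := finrank_sup_lt ((Bn A M p h.hqM n).map (mulPair (jPow A p n))) (Bn A M p h.hqM n)
    (z := jPow A p n) (fun h0 => jPow_ne_zero n 0 (congrFun h0 0))
    ⟨1, h.one_mem_Bn n, mul_one _⟩ (jPow_mem_Bn (h := h) n)
  rw [← (Submodule.equivMapOfInjective _ hinj _).finrank_eq] at h1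
  unfold gapSp
  omega

theorem finiteDimensional_gapSp (n : ℕ) : FiniteDimensional (Res A) (gapSp h n) := by
  have := (finrank_Bn M p h.hqM h.hA n).1
  unfold gapSp
  infer_instance

/-- The reductions of `j^P L(P ∞) + L(P ∞)` are exactly the gap. -/
theorem exists_red_mem_gapSp (hs : SmulOne h) : ∃ n₀ : ℕ, ∀ P, n₀ ≤ P →
    ∀ y : loc2 A (iota2 M p h.hqM),
      (y : FB (p * M)) ∈ (HN M p P).map (LinearMap.mulLeft QBar ((jTop M h : FB (p * M)) ^ P)) ⊔
        HN M p P → red2 A (iota2 M p h.hqM) y ∈ gapSp h P := by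
  obtain ⟨n₀, hn₀⟩ := hs
  refine ⟨n₀, fun P hP y hy => ?_⟩
  have hJ0 : (jTop M h : FB (p * M)) ^ P ≠ 0 := fun h0 => by
    have e := red2_jTop_pow (h := h) P
    rw [show jTop M h ^ P = 0 from Subtype.ext (by rw [SubmonoidClass.coe_pow, h0]; rfl),
      map_zero] at e
    exact jPow_ne_zero P 0 (congrFun e.symm 0)
  set μ := LinearMap.mulLeft QBar ((jTop M h : FB (p * M)) ^ P)
  have := (finrank_Bn M p h.hqM h.hA P).1
  have := finiteDimensional_gapSp (h := h) P
  obtain ⟨hfin, hdim⟩ := finrank_redSub p h.hA _ (iota2_fracS M p h.hqM)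
    ((HN M p P).map μ ⊔ HN M p P)
  have heq : gapSp h P = redSub A (iota2 M p h.hqM) ((HN M p P).map μ ⊔ HN M p P) := by
    refine Submodule.eq_of_le_of_finrank_le ?_ ?_
    · intro x hx
      obtain ⟨r, hr, r', hr', rfl⟩ := mem_gapSp.mp hx
      obtain ⟨e, he, rfl⟩ := mem_redSub.mp hr
      obtain ⟨e', he', rfl⟩ := mem_redSub.mp hr'
      refine mem_redSub.mpr ⟨jTop M h ^ P * e + e', ?_, by rw [map_add, map_mul, red2_jTop_pow]⟩
      push_cast
      exact Submodule.add_mem_sup ⟨_, he, rfl⟩ he'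
    · have hμinj : Function.Injective μ := mul_right_injective₀ hJ0
      have hinj : Function.Injective (mulPair (jPow A p P) : _ →ₗ[Res A] _) := fun x y e =>
        funext fun s => mul_left_cancel₀ (jPow_ne_zero P s) (congrFun e s)
      have h1 := finrank_sup_lt ((HN M p P).map μ) (HN M p P) (z := (jTop M h : FB (p * M)) ^ P)
        hJ0 ⟨1, one_mem_polesSpace _ _, mul_one ((jTop M h : FB (p * M)) ^ P)⟩ (jTop_pow_mem P)
      rw [← (Submodule.equivMapOfInjective μ hμinj _).finrank_eq] at h1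
      have h2 := Submodule.finrank_sup_add_finrank_inf_eq
        ((Bn A M p h.hqM P).map (mulPair (jPow A p P))) (Bn A M p h.hqM P)
      rw [← (Submodule.equivMapOfInjective _ hinj _).finrank_eq,
        (finrank_Bn M p h.hqM h.hA P).2] at h2
      have h3 : Module.finrank (Res A) ((Bn A M p h.hqM P).map (mulPair (jPow A p P)) ⊓
          Bn A M p h.hqM P : Submodule (Res A) _) ≤ 1 := by
        refine (Submodule.finrank_mono (t := Submodule.span (Res A) {jPow A p P}) ?_).trans ?_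
        · rintro _ ⟨⟨r, hr, rfl⟩, hr'⟩
          obtain ⟨b, rfl⟩ := hn₀ P hP r hr (cancel_jPow
            (Bn_le_Pk M p h.hqM h.hA h.hM P hr) (Bn_le_Pk M p h.hqM h.hA h.hM P hr') (by omega))
          exact Submodule.mem_span_singleton.mpr ⟨b, by
            show b • jPow A p P = jPow A p P * (b • 1)
            rw [mul_pi_smul, mul_one]⟩
        · exact le_of_eq (finrank_span_singleton fun h0 => jPow_ne_zero P 0 (congrFun h0 0))
      rw [hdim]
      unfold gapSp
      omega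
  rw [heq]
  exact mem_redSub.mpr ⟨y, hy, rfl⟩

/-! ### Fixed integral functions -/

variable (C : CoefField A p)

/-- Integral functions fixed by the group of the coefficient field. -/
def fixLoc (h : Setup A M p) : Subring (loc2 A (iota2 M p h.hqM)) where
  carrier := {x | ∀ τ ∈ C.H, galF (p * M) τ (x : FB (p * M)) = x}
  mul_mem' hx hy τ hτ := by rw [Subring.coe_mul, map_mul, hx τ hτ, hy τ hτ]
  one_mem' τ _ := map_one _
  add_mem' hx hy τ hτ := by rw [Subring.coe_add, map_add, hx τ hτ, hy τ hτ]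
  zero_mem' τ _ := map_zero _
  neg_mem' hx τ hτ := by rw [NegMemClass.coe_neg, map_neg, hx τ hτ]

theorem mem_fixLoc {x : loc2 A (iota2 M p h.hqM)} :
    x ∈ fixLoc C h ↔ ∀ τ ∈ C.H, galF (p * M) τ (x : FB (p * M)) = x := Iff.rfl

variable {C}

theorem jTop_mem_fixLoc : jTop M h ∈ fixLoc C h := fun τ _ => by
  rw [coe_jTop, galF_upF, galF_jM]

/-- A constant in `A` as an integral function. -/
def cst (h : Setup A M p) (c : A) : loc2 A (iota2 M p h.hqM) :=
  ⟨algebraMap QBar (FB (p * M)) c, algebraMap_mem_loc2 _ c.2⟩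

theorem cst_mem_fixLoc {c : A} (hc : ∀ τ ∈ C.H, τ (c : QBar) = c) : cst h c ∈ fixLoc C h :=
  fun τ hτ => galF_eq_self (by
    show coeffMap (τ : QBar →+* QBar) (algebraMap QBar LSer (c : QBar)) = algebraMap QBar LSer (c : QBar)
    rw [coeffMap_algebraMap]
    exact congrArg _ (hc τ hτ))

theorem red2_cst_mul (c : A) (x : loc2 A (iota2 M p h.hqM)) :
    red2 A (iota2 M p h.hqM) (cst h c * x) =
      IsLocalRing.residue A c • red2 A (iota2 M p h.hqM) x := by
  funext s
  rw [map_mul, Pi.mul_apply, cst, red2_const, Mazur.pi_smul_apply']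

variable (C) in
/-- The uniformiser as an integral function. -/
def piF (h : Setup A M p) : loc2 A (iota2 M p h.hqM) :=
  cst h ⟨C.π, mem_of_mem_nonunits C.π_nonunit⟩

theorem piF_mem_fixLoc : piF C h ∈ fixLoc C h := cst_mem_fixLoc C.π_fixed

theorem red2_piF_mul (x : loc2 A (iota2 M p h.hqM)) :
    red2 A (iota2 M p h.hqM) (piF C h * x) = 0 := by
  rw [piF, red2_cst_mul, (residue_eq_zero_iff _).mpr C.π_nonunit, zero_smul]

theorem piF_ne_zero : piF C h ≠ 0 := fun e =>
  C.π_ne_zero (by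
    have := congrArg Subtype.val e
    exact (_root_.map_eq_zero (algebraMap QBar (FB (p * M)))).mp this)

/-- A fixed integral function with zero reductions is divisible by the uniformiser. -/
theorem exists_eq_piF_mul {x : loc2 A (iota2 M p h.hqM)} (hx : x ∈ fixLoc C h)
    (hred : red2 A (iota2 M p h.hqM) x = 0) : ∃ y ∈ fixLoc C h, x = piF C h * y := by
  set y : FB (p * M) := algebraMap QBar (FB (p * M)) C.π⁻¹ * x with hy
  have hmem : y ∈ loc2 A (iota2 M p h.hqM) := (mem_loc2 _).mpr fun s => by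
    rw [hy, map_mul, AlgHom.commutes]
    refine C.inv_π_mul_mem h.hA ((mem_loc2 _).mp x.2 s) (fun τ hτ => ?_) ?_
    · rw [← iota2_galF, hx τ hτ]
    · rw [← red2_apply, hred]; rfl
  refine ⟨⟨y, hmem⟩, fun τ hτ => galF_eq_self ?_, Subtype.ext ?_⟩
  · show coeffMap (τ : QBar →+* QBar) (algebraMap QBar LSer C.π⁻¹ * ((x : FB (p * M)) : LSer)) =
      algebraMap QBar LSer C.π⁻¹ * ((x : FB (p * M)) : LSer)
    rw [map_mul, coeffMap_algebraMap, ← coe_arithmeticRingAut, map_inv₀]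
    show algebraMap QBar LSer (τ C.π)⁻¹ * ((galF (p * M) τ (x : FB (p * M)) : FB (p * M)) : LSer) = _
    rw [hx τ hτ, C.π_fixed τ hτ]
  · show (x : FB (p * M)) = algebraMap QBar (FB (p * M)) C.π * y
    rw [hy, ← mul_assoc, ← map_mul, mul_inv_cancel₀ C.π_ne_zero, map_one, one_mul]

/-- A lift of a residue, fixed by all of inertia. -/
theorem exists_cst_lift (C : CoefField A p) (h : Setup A M p) (r : Res A) :
    ∃ c : A, cst h c ∈ fixLoc C h ∧ IsLocalRing.residue A c = r := by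
  obtain ⟨a, ha, hfix, hr⟩ := exists_inertiaFixed_lift h.hA hpf.out r
  exact ⟨⟨a, ha⟩, cst_mem_fixLoc fun τ hτ => hfix τ (C.le_inertia hτ), hr⟩

end Fermat.Agent.RT.LowerP

end
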