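import Fermat.Agent.RT.Assembly.Special
import Fermat.Agent.RT.LowerP.Defs

/-!
# Inserting and removing the auxiliary prime
-/

set_option autoImplicit false

noncomputable section

open CongruenceSubgroup ModularFormClass
open Fermat.Agent.NewformLocal (UnipotentAt ToricSquareAt)

namespace Fermat.Agent.RT.LowerP

variable {P : FreyPackage}

/-- An eigenform of level `N` gives one of level `N * r` with the same residual traces. -/
theorem modularRepOfLevel_mul {N r : ℕ} (hN : 0 < N) (hr : r.Prime) (hrN : ¬ r ∣ N)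
    (hmod : P.ModularRepOfLevel N) : P.ModularRepOfLevel (N * r) := by
  have : NeZero N := ⟨hN.ne'⟩
  obtain ⟨f, W, 𝔪, hf, hW, hmax, hp, hcong⟩ := hmod
  obtain ⟨h, hh, hhf⟩ := ConductorLevel.exists_raise_prime hr hrN hf
  refine ⟨h, W, 𝔪, hh, hW, hmax, hp, fun ℓ hℓ hgood hℓN hℓp => ?_⟩
  obtain ⟨a, ha, hm⟩ := hcong ℓ hℓ hgood (fun h => hℓN (dvd_mul_of_dvd_left h r)) hℓp
  exact ⟨a, by rw [ha, hhf ℓ hℓ fun h => hℓN (h ▸ dvd_mul_left ℓ N)], hm⟩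

/-- A congruent eigenform at level `M` makes the representation modular of level `M`. -/
theorem modularRepOfLevel_of_congAt {M : ℕ}
    (h : CongAt M P.p (fun l => P.freyCurveInt.IsGoodPrimeFor l ∧ ¬ l ∣ P.p * M)
      P.freyCurveInt.apOfModel) : P.ModularRepOfLevel M := by
  obtain ⟨g, hg, 𝔪, hmax, hp, hcong⟩ := h
  refine ⟨g, P.freyCurveInt, 𝔪, hg, ⟨1, by rw [one_smul, EC.Reduction.Frey.freyCurve_eq_map]⟩,
    hmax, hp, fun ℓ hℓ hgood hℓM hℓp => hcong ℓ hℓ ⟨hgood, fun h => ?_⟩⟩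
  exact (hℓ.dvd_mul.mp h).elim (fun h => hℓp ((Nat.prime_dvd_prime_iff_eq hℓ P.pp).mp h)) hℓM

/-- A prime `r` with `a_r ^ 2 ≠ (r + 1) ^ 2` modulo `p` leaves the level. -/
theorem exists_level_of_mul [Fact P.p.Prime]
    (hD : ∀ (N p : ℕ) [NeZero N] [Fact p.Prime], ∃ D : GaloisReps.HeckeGaloisModel N p,
      ∀ q : ℕ, q.Prime → q ≠ p → q ∣ N → ¬ q ^ 2 ∣ N → UnipotentAt D q ∧ ToricSquareAt D q)
    {M₀ r : ℕ} (hM₀ : 0 < M₀) (hr : r.Prime) (hrp : r ≠ P.p) (hrM : ¬ r ∣ M₀)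
    (hgood : P.freyCurveInt.IsGoodPrimeFor r)
    (hne : (Assembly.freyAbar P (ZMod P.p) r) ^ 2 ≠ ((r : ZMod P.p) + 1) ^ 2)
    (hmod : P.ModularRepOfLevel (M₀ * r)) :
    ∃ L : ℕ, L ∣ M₀ ∧ P.ModularRepOfLevel L := by
  classical
  have hD' : ∀ (N p : ℕ) [NeZero N] [Fact p.Prime], Nonempty (GaloisReps.HeckeGaloisModel N p) :=
    fun N p _ _ => let ⟨D, _⟩ := hD N p; ⟨D⟩
  have hM : M₀ * r ≠ 0 := mul_ne_zero hM₀.ne' hr.ne_zero
  let S : Finset ℕ :=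
    insert P.p ((M₀ * r).primeFactors ∪ P.freyCurveInt.Δ.natAbs.primeFactors)
  have hS : ∀ ℓ : ℕ, ℓ.Prime →
      (ℓ = P.p ∨ ℓ ∣ M₀ * r ∨ (ℓ : ℤ) ∣ P.freyCurveInt.Δ) → ℓ ∈ S := by
    rintro ℓ hℓ (h | h | h)
    · exact Finset.mem_insert.mpr (Or.inl h)
    · exact Finset.mem_insert_of_mem (Finset.mem_union_left _
        (Nat.mem_primeFactors.mpr ⟨hℓ, h, hM⟩))
    · exact Finset.mem_insert_of_mem (Finset.mem_union_right _ (Nat.mem_primeFactors.mpr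
        ⟨hℓ, Int.natCast_dvd.mp h, Int.natAbs_ne_zero.mpr (EC.Reduction.Frey.Δ_ne_zero P)⟩))
  obtain ⟨L, hL, g, hg, hgc⟩ := Assembly.exists_congruent_newform hM
    (Assembly.isCongruentLevel_of_modularRepOfLevel hD' (k := ZMod P.p) hS hmod)
  refine ⟨L, ?_, Assembly.modularRepOfLevel_of_congruent hD' hgc⟩
  refine (((hr.coprime_iff_not_dvd.mpr fun hrL => ?_).symm).dvd_of_dvd_mul_right hL)
  have : NeZero L := ⟨ne_zero_of_dvd_ne_zero hM hL⟩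
  have hr2 : ¬ r ^ 2 ∣ L := fun h => hrM (by
    have := h.trans hL
    rw [pow_two] at this
    exact (Nat.mul_dvd_mul_iff_right hr.pos).mp this)
  obtain ⟨D, hDq⟩ := hD L P.p
  obtain ⟨hU, hT⟩ := hDq r hr hrp hrL hr2
  obtain ⟨A, hA⟩ := Arith.exists_liesOverPrime hr
  obtain ⟨σ, hσ⟩ := Arith.exists_isFrobeniusAt hA hr
  have h := Assembly.trace_sq_of_special hg hgc hr hrp hrL D hU hT hA hσ
  have hcp := Assembly.charpoly_freyRho_frobenius (k := ZMod P.p) hr hgood hrp hA hσ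
  rw [EC.FrobTrace.charpoly_of_finrank_eq_two (Assembly.freyRho P _).finrank_eq] at hcp
  have ht := congrArg (fun f => Polynomial.coeff f 1) hcp
  simp [Polynomial.coeff_X_pow] at ht
  exact hne (ht ▸ h)

/-- The auxiliary prime is removed from the conclusion at level `M₀ * r`. -/
theorem exists_level_of_congAt [Fact P.p.Prime]
    (hD : ∀ (N p : ℕ) [NeZero N] [Fact p.Prime], ∃ D : GaloisReps.HeckeGaloisModel N p,
      ∀ q : ℕ, q.Prime → q ≠ p → q ∣ N → ¬ q ^ 2 ∣ N → UnipotentAt D q ∧ ToricSquareAt D q)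
    {M₀ r : ℕ} (hM₀ : 0 < M₀) (hr : r.Prime) (hrp : r ≠ P.p) (hrM : ¬ r ∣ M₀)
    (hgood : P.freyCurveInt.IsGoodPrimeFor r)
    (hne : (Assembly.freyAbar P (ZMod P.p) r) ^ 2 ≠ ((r : ZMod P.p) + 1) ^ 2)
    (h : CongAt (M₀ * r) P.p
      (fun l => P.freyCurveInt.IsGoodPrimeFor l ∧ ¬ l ∣ P.p * (M₀ * r))
      P.freyCurveInt.apOfModel) :
    ∃ L : ℕ, L ∣ M₀ ∧ P.ModularRepOfLevel L :=
  exists_level_of_mul hD hM₀ hr hrp hrM hgood hne (modularRepOfLevel_of_congAt h)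

end Fermat.Agent.RT.LowerP

end
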