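import Fermat.Agent.RT.LowerP.Chain
import Fermat.Agent.RT.LowerP.Hecke
import Fermat.Agent.RT.LowerP.AuxPrime
import Fermat.Agent.RT.LowerP.Removal
import Fermat.Agent.RT.MazurP.Units
import Fermat.Agent.RT.MazurP.Forms
import Fermat.Agent.RT.Mazur.Injective
import Fermat.Agent.RT.Frey.Inputs
import Fermat.Agent.Semistable.Torsion

/-!
# Level lowering at `p`: assembly
-/

set_option autoImplicit false
set_option synthInstance.maxHeartbeats 400000
set_option maxHeartbeats 1000000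

noncomputable section

namespace Fermat.Agent.RT.LowerP

open ModularCurve AlgebraicCurve IntermediateField
open Fermat.Agent.Semistable Fermat.Agent.Arith Fermat.Agent.RT.MazurP
open Fermat.Agent.NewformLocal (UnipotentAt ToricSquareAt)

/-- A prime away from the level at which the Frey system is not Eisenstein modulo `p`. -/
theorem exists_nonEis {P : FreyPackage} [Fact P.p.Prime]
    (hirr : WeierstrassCurve.Affine.Point.GaloisRepIsIrreducible (K := QBar) ℚ P.freyCurve P.p)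
    {N : ℕ} [NeZero N] :
    ∃ l : ℕ, l.Prime ∧ (P.freyCurveInt.IsGoodPrimeFor l ∧ ¬ l ∣ N) ∧
      ((((l : ℤ) + 1 - P.freyCurveInt.apOfModel l : ℤ)) : ZMod P.p) ≠ 0 := by
  obtain ⟨l, hl, hlT, -, -, hgood, hne⟩ := exists_aux_prime hirr N.primeFactors
  refine ⟨l, hl, ⟨hgood, fun h => hlT (Nat.mem_primeFactors.mpr ⟨hl, h, NeZero.ne N⟩)⟩,
    fun h0 => hne ?_⟩
  push_cast at h0
  rw [Assembly.freyAbar, sub_eq_zero.mp h0]

theorem congAt_frey (P : FreyPackage) [Fact P.p.Prime] {M : ℕ} [NeZero M] (hpM : ¬ P.p ∣ M)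
    (hE : nuTwo M = 0 ∧ nuThree M = 0)
    (hirr : WeierstrassCurve.Affine.Point.GaloisRepIsIrreducible (K := QBar) ℚ P.freyCurve P.p)
    (hcls : ∀ {A : ValuationSubring QBar}, A.LiesOverPrime P.p →
      (∃ y : JZero (P.p * M), y ≠ 0 ∧ (P.p : ℤ) • y = 0 ∧
        IsEigen (P.p * M) (fun l => P.freyCurveInt.IsGoodPrimeFor l ∧ ¬ l ∣ P.p * M)
          P.freyCurveInt.apOfModel y ∧
        ∀ τ ∈ A.inertiaSubgroupIn ℚ, τ • y = y) ∨
      ∃ (W : Wild A P.p) (x : JZero (P.p * M)), (P.p : ℤ) • x = 0 ∧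
        IsEigen (P.p * M) (fun l => P.freyCurveInt.IsGoodPrimeFor l ∧ ¬ l ∣ P.p * M)
          P.freyCurveInt.apOfModel x ∧
        (∀ τ ∈ W.C.H, τ • x = x) ∧ W.σ • x ≠ x ∧
        ∀ τ ∈ W.C₁.H, τ • (W.σ • x - x) = W.σ • x - x)
    (hst : ∀ {A : ValuationSubring QBar} [CharP (Res A) P.p]
      [FF.IsFunctionField (Res A) (KM A M)] (_ : A.LiesOverPrime P.p) (_ : (M : Res A) ≠ 0)
      (hpM : ¬ P.p ∣ M) (V : VUnit A hpM) (_ : V.Simple)
      (G : ℕ → Prop) (a : ℕ → ℤ) (_ : ∀ l, l.Prime → G l → ¬ l ∣ P.p * M)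
      (l₀ : ℕ) (_ : l₀.Prime) (_ : G l₀) (_ : ((((l₀ : ℤ) + 1 - a l₀ : ℤ)) : Res A) ≠ 0),
      Steps V G a) :
    CongAt M P.p (fun l => P.freyCurveInt.IsGoodPrimeFor l ∧ ¬ l ∣ P.p * M)
      P.freyCurveInt.apOfModel := by
  have hp5 : 5 ≤ P.p := P.hp5
  obtain ⟨A, hA⟩ := Arith.exists_liesOverPrime P.pp
  have : CharP (Res A) P.p := Arith.residueField_charP hA P.pp
  have hM := natCast_level_ne_zero (A := A) hA hpM
  have : FF.IsFunctionField (Res A) (KM A M) := isFunctionField_KM A hM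
  have := residueField_isAlgClosed A
  have : FiniteDimensional (Res A)⟮jK A M⟯ (KM A M) :=
    RedTorsion.finiteDimensional_jF (N := M) rfl hM
  have : Algebra.IsSeparable (Res A)⟮jK A M⟯ (KM A M) :=
    RedTorsion.isSeparable_jF (N := M) rfl hM
  have hg : GoodM A M := (regForms_eq_redLattice (A := A) (M := M) P.p hA hp5 hM).2
  have h : Setup A M P.p := ⟨hA, hpM, hM, hg⟩
  obtain ⟨V⟩ := exists_vUnit hA hM hpM
  have hV := VUnit.simple_of_noEll hA hM hE hg V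
  obtain ⟨l, hl, hG, hne⟩ := exists_nonEis hirr (N := P.p * M)
  refine congAt_of_steps (h := h) (Mazur.exists_smul_one_of_mem_of_noEll h hE) V hV
    (hst hA hM hpM V hV _ _ (fun _ _ hG => hG.2) l hl hG ?_) hp5 (hcls hA)
  rw [Ne, CharP.intCast_eq_zero_iff (Res A) P.p, ← ZMod.intCast_zmod_eq_zero_iff_dvd]
  exact hne

/-- Milestone statement 44 from its inputs. -/
theorem lowerAtP_of
    (hD : ∀ (N p : ℕ) [NeZero N] [Fact p.Prime], ∃ D : GaloisReps.HeckeGaloisModel N p,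
      ∀ q : ℕ, q.Prime → q ≠ p → q ∣ N → ¬ q ^ 2 ∣ N → UnipotentAt D q ∧ ToricSquareAt D q)
    (hcong : ∀ (P : FreyPackage) [Fact P.p.Prime] {M : ℕ} [NeZero M], ¬ P.p ∣ M →
      nuTwo M = 0 ∧ nuThree M = 0 →
      WeierstrassCurve.Affine.Point.GaloisRepIsIrreducible (K := QBar) ℚ P.freyCurve P.p →
      (P.p : ℤ) ∣ P.a * P.b * P.c → P.ModularRepOfLevel (P.p * M) →
      CongAt M P.p (fun l => P.freyCurveInt.IsGoodPrimeFor l ∧ ¬ l ∣ P.p * M)
        P.freyCurveInt.apOfModel) : RT.Frey.LowerAtPInput := by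
  intro P N hcond hpN hirr hmod
  have : Fact P.p.Prime := ⟨P.pp⟩
  obtain ⟨M₀, rfl⟩ := hpN
  have hM₀ : 0 < M₀ := pos_of_mul_pos_right hcond.pos (Nat.zero_le _)
  have hpM₀ : ¬ P.p ∣ M₀ := fun h => hcond.sq_not_dvd P.pp (by
    rw [pow_two]; exact mul_dvd_mul_left P.p h)
  obtain ⟨r, hr, hrN, h12, hrp, hgood, hne⟩ := exists_aux_prime hirr (P.p * M₀).primeFactors
  have hrN' : ¬ r ∣ P.p * M₀ := fun h => hrN (Nat.mem_primeFactors.mpr ⟨hr, h, hcond.pos.ne'⟩)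
  have : NeZero (M₀ * r) := ⟨mul_ne_zero hM₀.ne' hr.ne_zero⟩
  have hpM : ¬ P.p ∣ M₀ * r := fun h => (P.pp.dvd_mul.mp h).elim hpM₀ fun h =>
    hrp ((Nat.prime_dvd_prime_iff_eq P.pp hr).mp h).symm
  have hraise := modularRepOfLevel_mul hcond.pos hr hrN' hmod
  rw [mul_assoc] at hraise
  obtain ⟨L, hL, hLmod⟩ := exists_level_of_congAt hD hM₀ hr hrp
    (fun h => hrN' (dvd_mul_of_dvd_right h P.p)) hgood hne
    (hcong P hpM (nuTwo_nuThree_eq_zero hr h12 (dvd_mul_left r M₀)) hirr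
      (hcond.p_dvd_abc (dvd_mul_right _ _)) hraise)
  exact ⟨L, dvd_mul_of_dvd_right hL P.p, fun h => hpM₀ (h.trans hL), hLmod⟩

end Fermat.Agent.RT.LowerP

end
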