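import Fermat.Agent.RT.LowerP.Hecke
import Fermat.Agent.RT.MazurP.Node

/-!
# The relation under the wild generator and the divisibility of the orders

If the wild generator moves the class of a Kummer function by a class with trivial reductions,
this gives a `SigmaRel`; if moreover both classes are Hecke eigen with a non-Eisenstein
eigenvalue, all orders of both reductions are divisible by `p`.
-/

set_option autoImplicit false
set_option synthInstance.maxHeartbeats 400000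
set_option maxHeartbeats 1000000
set_option linter.unusedSectionVars false

noncomputable section

namespace Fermat.Agent.RT.LowerP

open ModularCurve AlgebraicCurve
open Fermat.Agent.Semistable Fermat.Agent.Arith Fermat.Agent.RT.Mazur Fermat.Agent.RT.MazurP

variable {A : ValuationSubring QBar} {p M : ℕ} [Fact p.Prime] [NeZero M] {hpM : ¬ p ∣ M}

/-! ### Series which are one modulo the uniformiser -/

/-- `x = 1 + π y` with `y` integral of constant reduction `t`. -/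
def Near1 (C : CoefField A p) (x : LSer) (t : Res A) : Prop :=
  ∃ y : LSer, ∃ h : y ∈ locS A, x = 1 + algebraMap QBar LSer C.π * y ∧
    redL A ⟨y, h⟩ = algebraMap (Res A) (LaurentSeries (Res A)) t

namespace Near1

variable {C : CoefField A p} {x x' : LSer} {t t' : Res A}

theorem mk' {y : LSer} (h : y ∈ locS A) (hx : x = 1 + algebraMap QBar LSer C.π * y)
    (hr : redL A ⟨y, h⟩ = algebraMap (Res A) (LaurentSeries (Res A)) t) : Near1 C x t :=
  ⟨y, h, hx, hr⟩

theorem redL_π : redL A ⟨_, algebraMap_mem_locS (mem_of_mem_nonunits C.π_nonunit)⟩ = 0 := by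
  rw [redL_algebraMap (mem_of_mem_nonunits C.π_nonunit),
    (residue_eq_zero_iff _).mpr C.π_nonunit, map_zero]

theorem exists_redL (hx : Near1 C x t) : ∃ h : x ∈ locS A, redL A ⟨x, h⟩ = 1 := by
  obtain ⟨y, h, rfl, -⟩ := hx
  have h1 := algebraMap_mem_locS (A := A) (mem_of_mem_nonunits C.π_nonunit)
  refine ⟨add_mem (one_mem _) (mul_mem h1 h), ?_⟩
  show redL A (1 + ⟨_, h1⟩ * ⟨y, h⟩) = 1
  rw [map_add, map_mul, redL_π, zero_mul, add_zero, map_one]

protected theorem one : Near1 C (1 : LSer) (0 : Res A) :=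
  mk' (zero_mem _) (by rw [mul_zero, add_zero]) ((map_zero (redL A)).trans (map_zero _).symm)

protected theorem mul (hx : Near1 C x t) (hx' : Near1 C x' t') : Near1 C (x * x') (t + t') := by
  obtain ⟨y, h, rfl, hr⟩ := hx
  obtain ⟨y', h', rfl, hr'⟩ := hx'
  have h1 := algebraMap_mem_locS (A := A) (mem_of_mem_nonunits C.π_nonunit)
  refine mk' (add_mem (add_mem h h') (mul_mem h1 (mul_mem h h'))) (by ring) ?_
  show redL A (⟨y, h⟩ + ⟨y', h'⟩ + ⟨_, h1⟩ * (⟨y, h⟩ * ⟨y', h'⟩)) = _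
  rw [map_add, map_add, map_mul (redL A) ⟨_, h1⟩, redL_π, zero_mul, add_zero, hr, hr', map_add]

protected theorem inv (hx : Near1 C x t) : Near1 C x⁻¹ (-t) := by
  obtain ⟨hl, hl1⟩ := hx.exists_redL
  obtain ⟨hi, hi1⟩ := inv_mem_locS hl (by rw [hl1]; exact one_ne_zero)
  have hx0 : x ≠ 0 := IsGUnit.ne_zero ⟨hl, by rw [hl1]; exact one_ne_zero⟩
  obtain ⟨y, h, e, hr⟩ := hx
  refine mk' (neg_mem (mul_mem h hi)) ?_ ?_
  · rw [e] at hx0 ⊢
    field_simp
    ring
  · show redL A (-(⟨y, h⟩ * ⟨x⁻¹, hi⟩)) = _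
    rw [map_neg, map_mul, hi1, hl1, inv_one, mul_one, hr, map_neg]

protected theorem div (hx : Near1 C x t) (hx' : Near1 C x' t') :
    Near1 C (x / x') (t - t') := by
  rw [div_eq_mul_inv, sub_eq_add_neg]
  exact hx.mul hx'.inv

protected theorem pow (hx : Near1 C x t) (n : ℕ) : Near1 C (x ^ n) ((n : Res A) * t) := by
  induction n with
  | zero => rw [pow_zero, Nat.cast_zero, zero_mul]; exact Near1.one
  | succ n ih => rw [pow_succ, Nat.cast_succ, add_mul, one_mul]; exact ih.mul hx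

protected theorem zpow (hx : Near1 C x t) (n : ℤ) : Near1 C (x ^ n) ((n : Res A) * t) := by
  rcases Int.eq_nat_or_neg n with ⟨m, rfl | rfl⟩
  · rw [zpow_natCast, Int.cast_natCast]; exact hx.pow m
  · rw [zpow_neg, zpow_natCast, Int.cast_neg, Int.cast_natCast, neg_mul]; exact (hx.pow m).inv

theorem unique (hx : Near1 C x t) (hx' : Near1 C x t') : t = t' := by
  obtain ⟨y, h, rfl, hr⟩ := hx
  obtain ⟨y', h', e, hr'⟩ := hx'
  have hy := mul_left_cancel₀ ((_root_.map_ne_zero _).mpr C.π_ne_zero) (add_left_cancel e)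
  subst hy
  exact (algebraMap (Res A) (LaurentSeries (Res A))).injective (hr.symm.trans hr')

end Near1

/-! ### The wild generator -/

/-- `σ π / π = 1 + u π` modulo `π ^ 2`, for all powers. -/
theorem near1_σ_π_zpow (W : Wild A p) (n : ℤ) :
    Near1 W.C (algebraMap QBar LSer (W.σ (W.C.π ^ n) / W.C.π ^ n))
      ((n : Res A) * IsLocalRing.residue A W.u) := by
  have h1 : Near1 W.C (algebraMap QBar LSer (W.σ W.C.π / W.C.π))
      (IsLocalRing.residue A W.u) := by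
    obtain ⟨w, hw, e⟩ := W.σ_π
    have hπ : W.C.π ∈ A := mem_of_mem_nonunits W.C.π_nonunit
    have hm : (W.u : QBar) + w * W.C.π ∈ A := add_mem W.u.2 (mul_mem hw hπ)
    refine Near1.mk' (algebraMap_mem_locS hm) ?_ ?_
    · rw [← map_mul, ← map_one (algebraMap QBar LSer), ← map_add, e,
        mul_div_cancel_left₀ _ W.C.π_ne_zero]
      ring_nf
    · rw [redL_algebraMap hm]
      congr 1
      rw [show (⟨_, hm⟩ : A) = W.u + ⟨w, hw⟩ * ⟨_, hπ⟩ from rfl, map_add, map_mul,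
        (residue_eq_zero_iff hπ).mpr W.C.π_nonunit, mul_zero, add_zero]
  have h2 := h1.zpow n
  rwa [← map_zpow₀, div_zpow, ← map_zpow₀ W.σ] at h2

/-- A normalised fixed series is moved by a factor which is one modulo `π ^ 2`. -/
theorem near1_σ_of_isGUnit (hA : A.LiesOverPrime p) (W : Wild A p) {x : LSer}
    (hx : IsGUnit A x) (hfix : W.C.Fix x) :
    Near1 W.C (coeffMap (W.σ : QBar →+* QBar) x / x) 0 := by
  obtain ⟨hl, hne⟩ := hx
  obtain ⟨z, hz, e⟩ := W.exists_σ_locS hA Fact.out hl hfix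
  obtain ⟨hi, -⟩ := inv_mem_locS hl hne
  have h1 := algebraMap_mem_locS (A := A) (mem_of_mem_nonunits W.C.π_nonunit)
  have hx0 : x ≠ 0 := IsGUnit.ne_zero ⟨hl, hne⟩
  refine Near1.mk' (mul_mem h1 (mul_mem hz hi)) ?_ ?_
  · rw [e, map_pow]
    field_simp
  · show redL A (⟨_, h1⟩ * (⟨z, hz⟩ * ⟨x⁻¹, hi⟩)) = _
    rw [map_mul, Near1.redL_π, zero_mul, map_zero]

/-- The generator multiplies a fixed series of order `n` by `1 + n u π` modulo `π ^ 2`. -/
theorem near1_σ_div (hA : A.LiesOverPrime p) (W : Wild A p) {x : LSer} (hx : x ∈ fracS A)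
    (hx0 : x ≠ 0) (hfix : W.C.Fix x) :
    Near1 W.C (coeffMap (W.σ : QBar →+* QBar) x / x)
      ((W.C.gord x : Res A) * IsLocalRing.residue A W.u) := by
  obtain ⟨n, hn⟩ : ∃ n, W.C.gord x = n := ⟨_, rfl⟩
  rw [hn]
  have hπ : algebraMap QBar LSer (W.C.π ^ (-n)) ≠ 0 :=
    (_root_.map_ne_zero _).mpr (zpow_ne_zero _ W.C.π_ne_zero)
  have hx1 := W.C.gord_spec hA Fact.out hx hx0 hfix
  rw [hn] at hx1
  have h := near1_σ_of_isGUnit hA W hx1 ((W.C.fix_π_zpow (-n)).mul hfix)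
  have h2 := h.div (near1_σ_π_zpow W (-n))
  rw [Int.cast_neg, zero_sub, neg_mul, neg_neg] at h2
  convert h2 using 1
  have hσ : algebraMap QBar LSer (W.σ (W.C.π ^ (-n))) ≠ 0 :=
    (_root_.map_ne_zero _).mpr ((_root_.map_ne_zero _).mpr (zpow_ne_zero _ W.C.π_ne_zero))
  rw [map_mul, coeffMap_algebraMap, map_div₀, RingHom.coe_coe]
  field_simp

/-- A series fixed by the tame field with reduction one is one modulo `π ^ 2`. -/
theorem near1_of_tame (hA : A.LiesOverPrime p) (W : Wild A p) {x : LSer} (hfix : W.C₁.Fix x)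
    (hx : ∃ h : x ∈ locS A, redL A ⟨x, h⟩ = 1) : Near1 W.C x 0 := by
  obtain ⟨hl, h1⟩ := hx
  obtain ⟨z, hz, e⟩ := W.exists_eq_π_sq_mul hA (sub_mem hl (one_mem _))
    (hfix.sub (W.C₁.fix_one)) (by
      rw [show (⟨x - 1, sub_mem hl (one_mem _)⟩ : locS A) = ⟨x, hl⟩ - 1 from rfl, map_sub,
        map_one, h1, sub_self])
  have hπ := algebraMap_mem_locS (A := A) (mem_of_mem_nonunits W.C.π_nonunit)
  refine Near1.mk' (mul_mem hπ hz) (by rw [map_pow] at e; linear_combination e) ?_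
  show redL A (⟨_, hπ⟩ * ⟨z, hz⟩) = _
  rw [map_mul, Near1.redL_π, zero_mul, map_zero]

/-- A valuation unit. -/
theorem valuation_eq_one_of_isGUnit {c : QBar} (hc : IsGUnit A (algebraMap QBar LSer c)) :
    A.valuation c = 1 := by
  have h := valuation_eq_of_isGUnit (A := A) (x := (1 : LSer)) (a := c) (b := 1)
    (by rwa [mul_one]) (by rw [map_one, one_mul]; exact isGUnit_one)
  rwa [map_one] at h

/-- A root of a constant is a constant. -/
theorem exists_eq_algebraMap_of_pow {N n : ℕ} [NeZero N] (hn : 0 < n) {x : FB N} {c : QBar}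
    (hc : c ≠ 0) (h : x ^ n = algebraMap QBar (FB N) c) :
    ∃ d : QBar, x = algebraMap QBar (FB N) d := by
  have := NeZero.of_pos hn
  obtain ⟨b, hb⟩ := IsAlgClosed.exists_pow_nat_eq c hn
  have hb0 : algebraMap QBar (FB N) b ≠ 0 := (_root_.map_ne_zero _).mpr fun h0 => hc (by
    rw [← hb, h0, zero_pow hn.ne'])
  obtain ⟨ζ, hζ⟩ := HasEnoughRootsOfUnity.exists_primitiveRoot QBar n
  obtain ⟨i, -, hi⟩ := (hζ.map_of_injective
      (algebraMap QBar (FB N)).injective).eq_pow_of_pow_eq_one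
    (ξ := x / algebraMap QBar (FB N) b)
    (by rw [div_pow, h, ← map_pow, hb, div_self ((_root_.map_ne_zero _).mpr hc)])
  refine ⟨ζ ^ i * b, ?_⟩
  rw [map_mul, map_pow, hi, div_mul_cancel₀ _ hb0]

/-! ### The relation -/

section Galois

variable {N m : ℕ} [NeZero N] [NeZero m]

/-- Galois acts on the classes of Kummer functions through their coefficients. -/
theorem smul_toTorsion (σ : GQ) (f : JacTorsion.divGrp QBar (FB N) m) :
    ∃ f' : JacTorsion.divGrp QBar (FB N) m,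
      ((f' : (FB N)ˣ) : FB N) = galF N σ ((f : (FB N)ˣ) : FB N) ∧
      σ • (JacTorsion.toTorsion (Additive.ofMul f) : JZero N) =
        (JacTorsion.toTorsion (Additive.ofMul f') : JZero N) := by
  set g := arithmeticGalois (modularFunctionFieldFull N) σ with hg
  let u' : (FB N)ˣ := Units.map (galF N σ).toRingHom.toMonoidHom (f : (FB N)ˣ)
  have hord : ∀ P : Place QBar (FB N),
      P.ord (u' : FB N) = (g⁻¹ • P).ord ((f : (FB N)ˣ) : FB N) := by
    intro P
    have h := SemilinearAut.ord_smul g (g⁻¹ • P) ((f : (FB N)ˣ) : FB N)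
    rwa [smul_inv_smul] at h
  refine ⟨⟨u', fun P => by rw [hord]; exact f.2 _⟩, rfl, ?_⟩
  show σ • Pic0.mk ⟨JacTorsion.divQuot f, JacTorsion.divQuot_mem_degZero _⟩ = _
  rw [galois_smul_pic0_def, SemilinearAut.pic0_smul_mk]
  refine congrArg Pic0.mk (Subtype.ext (Finsupp.ext fun P => ?_))
  show (g • JacTorsion.divQuot f) P = JacTorsion.divQuot _ P
  rw [SemilinearAut.divisor_smul_apply]
  simp only [JacTorsion.divQuot, Finsupp.mapRange_apply, FF.div_apply]
  rw [← hord]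
  rfl

end Galois

/-- The image of the function under the generator is the product up to a constant and a `p`-th
power of a function with coefficients in the field and leading coefficient one. -/
theorem exists_rel (W : Wild A p) (K : Kum hpM W.C) (K₀ : Kum hpM W.C₁)
    (hcls : W.σ • cls K = cls K + cls K₀) :
    ∃ (κ : QBar) (g : FB (p * M)), κ ≠ 0 ∧ g ≠ 0 ∧ (∀ τ ∈ W.C.H, τ κ = κ) ∧
      (∀ τ ∈ W.C.H, galF (p * M) τ g = g) ∧
      galF (p * M) W.σ K.f = algebraMap QBar (FB (p * M)) κ * K.f * K₀.f * g ^ p := by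
  have hp : p.Prime := Fact.out
  set F : JacTorsion.divGrp QBar (FB (p * M)) p := ⟨Units.mk0 K.f K.f_ne, K.dvd⟩
  set F₀ : JacTorsion.divGrp QBar (FB (p * M)) p := ⟨Units.mk0 K₀.f K₀.f_ne, K₀.dvd⟩
  obtain ⟨F', hF', hsm⟩ := smul_toTorsion W.σ F
  have h0 : JacTorsion.toTorsion (Additive.ofMul (F' * (F * F₀)⁻¹)) = 0 := by
    rw [ofMul_mul, ofMul_inv, ofMul_mul, map_add, map_neg, map_add, add_neg_eq_zero]
    refine Subtype.ext ?_
    rw [← hsm, AddSubgroup.coe_add]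
    exact hcls
  obtain ⟨gu, hgu⟩ := (JacTorsion.toTorsion_eq_zero_iff _).mp h0
  have hgu' : ((gu : FB (p * M))) ^ p = galF (p * M) W.σ K.f * (K.f * K₀.f)⁻¹ := by
    have := congrArg (fun u : (FB (p * M))ˣ => (u : FB (p * M))) hgu
    simpa [F, F₀, hF', mul_comm K₀.f⁻¹] using this
  set g' : FB (p * M) := (gu : FB (p * M))
  set c := (g' : LSer).leadingCoeff with hc
  have hc0 : c ≠ 0 :=
    HahnSeries.leadingCoeff_ne_zero.mpr fun h => gu.ne_zero (Subtype.ext h)
  have hlead : ∀ (a : QBar) (y : FB (p * M)),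
      ((algebraMap QBar (FB (p * M)) a * y : FB (p * M)) : LSer).leadingCoeff =
        a * (y : LSer).leadingCoeff := fun a y => by
    show ((algebraMap QBar LSer a) * (y : LSer)).leadingCoeff = _
    rw [HahnSeries.leadingCoeff_mul, algebraMap_laurentSeries_eq_single,
      HahnSeries.leadingCoeff_of_single]
  set g := algebraMap QBar (FB (p * M)) c⁻¹ * g' with hg
  have hg0 : g ≠ 0 := mul_ne_zero ((_root_.map_ne_zero _).mpr (inv_ne_zero hc0)) gu.ne_zero
  have hg1 : (g : LSer).leadingCoeff = 1 := by rw [hg, hlead, inv_mul_cancel₀ hc0]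
  have hgp : ∀ n : ℕ, ((g ^ n : FB (p * M)) : LSer).leadingCoeff = 1 := fun n => by
    induction n with
    | zero => rw [pow_zero]; exact HahnSeries.leadingCoeff_one
    | succ n ih =>
      rw [pow_succ]
      show (((g ^ n : FB (p * M)) : LSer) * (g : LSer)).leadingCoeff = 1
      rw [HahnSeries.leadingCoeff_mul, ih, hg1, one_mul]
  have hff : K.f * K₀.f ≠ 0 := mul_ne_zero K.f_ne K₀.f_ne
  have hrel : galF (p * M) W.σ K.f =
      algebraMap QBar (FB (p * M)) (c ^ p) * K.f * K₀.f * g ^ p := by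
    rw [show algebraMap QBar (FB (p * M)) (c ^ p) * K.f * K₀.f * g ^ p =
      (algebraMap QBar (FB (p * M)) c * g) ^ p * (K.f * K₀.f) by rw [map_pow, mul_pow]; ring,
      hg, ← mul_assoc (algebraMap QBar (FB (p * M)) c), ← map_mul,
      mul_inv_cancel₀ hc0, map_one, one_mul, hgu', inv_mul_cancel_right₀ hff]
  have hσfix : ∀ τ ∈ W.C.H,
      galF (p * M) τ (galF (p * M) W.σ K.f) = galF (p * M) W.σ K.f := fun τ hτ => by
    have h := K.fix _ (W.normal τ hτ)
    refine Subtype.ext ?_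
    rw [coe_arithmeticRingAut, coe_arithmeticRingAut, coeffMap_coeffMap]
    conv_rhs => rw [← h, coe_arithmeticRingAut, coeffMap_coeffMap]
    exact coeffMap_congr (RingHom.ext fun a => by simp [AlgEquiv.mul_apply]) _
  have key : ∀ τ ∈ W.C.H, τ (c ^ p) = c ^ p ∧ galF (p * M) τ g = g := by
    intro τ hτ
    have h := hσfix τ hτ
    rw [hrel, map_mul, map_mul, map_mul, map_pow (galF (p * M) τ) g,
      arithmeticRingAut_algebraMap, K.fix τ hτ, K₀.fix τ (W.le hτ)] at h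
    have h' : algebraMap QBar (FB (p * M)) (τ (c ^ p)) * galF (p * M) τ g ^ p =
        algebraMap QBar (FB (p * M)) (c ^ p) * g ^ p :=
      mul_right_cancel₀ hff (by linear_combination h)
    have hlτ : ∀ y : FB (p * M),
        ((galF (p * M) τ y : FB (p * M)) : LSer).leadingCoeff = τ (y : LSer).leadingCoeff :=
      fun y => by
        rw [coe_arithmeticRingAut]
        exact JacTorsion.coeffMap_leadingCoeff (τ : QBar →+* QBar) _
    have hl := congrArg (fun y : FB (p * M) => (y : LSer).leadingCoeff) h'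
    simp only [hlead, hgp] at hl
    rw [← map_pow, hlτ, hgp, map_one, mul_one] at hl
    refine ⟨hl.trans (mul_one _), ?_⟩
    rw [hl.trans (mul_one _)] at h'
    have h2 := mul_left_cancel₀ ((_root_.map_ne_zero _).mpr (pow_ne_zero p hc0)) h'
    obtain ⟨d, hd⟩ := exists_eq_algebraMap_of_pow hp.pos one_ne_zero
      (x := galF (p * M) τ g / g) (by rw [div_pow, h2, div_self (pow_ne_zero _ hg0), map_one])
    have h3 : galF (p * M) τ g = algebraMap QBar (FB (p * M)) d * g := by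
      rw [← hd, div_mul_cancel₀ _ hg0]
    have h4 := congrArg (fun y : FB (p * M) => (y : LSer).leadingCoeff) h3
    simp only [hlead, hlτ, hg1, map_one, mul_one] at h4
    rw [h3, ← h4, map_one, one_mul]
  exact ⟨c ^ p, g, pow_ne_zero _ hc0, hg0, fun τ hτ => (key τ hτ).1, fun τ hτ => (key τ hτ).2,
    hrel⟩

/-- The generator does not change the normalised reductions. -/
theorem exists_redL_σ (hA : A.LiesOverPrime p) (W : Wild A p) (K : Kum hpM W.C) (s : Fin 2) :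
    ∃ h : algebraMap QBar LSer (W.C.π ^ (-K.v s)) * iota2 M p hpM s (galF (p * M) W.σ K.f) ∈
      locS A, redL A ⟨_, h⟩ = (K.fb s : LaurentSeries (Res A)) := by
  obtain ⟨hl, hr⟩ := K.spec s
  have hne : redL A ⟨_, hl⟩ ≠ 0 := by
    rw [hr]; exact fun h => K.fb_ne s (Subtype.ext h)
  set x := algebraMap QBar LSer (W.C.π ^ (-K.v s)) * iota2 M p hpM s K.f with hx
  obtain ⟨hn, hn1⟩ := (near1_σ_of_isGUnit hA W ⟨hl, hne⟩
    ((W.C.fix_π_zpow _).mul (K.iota_fix s))).exists_redL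
  obtain ⟨he, he1⟩ := (near1_σ_π_zpow W (-K.v s)).inv.exists_redL
  have e : algebraMap QBar LSer (W.C.π ^ (-K.v s)) * iota2 M p hpM s (galF (p * M) W.σ K.f) =
      (algebraMap QBar LSer (W.σ (W.C.π ^ (-K.v s)) / W.C.π ^ (-K.v s)))⁻¹ *
        (coeffMap (W.σ : QBar →+* QBar) x / x) * x := by
    have hπ : algebraMap QBar LSer (W.C.π ^ (-K.v s)) ≠ 0 :=
      (_root_.map_ne_zero _).mpr (zpow_ne_zero _ W.C.π_ne_zero)
    have hσ : algebraMap QBar LSer (W.σ (W.C.π ^ (-K.v s))) ≠ 0 :=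
      (_root_.map_ne_zero _).mpr ((_root_.map_ne_zero _).mpr (zpow_ne_zero _ W.C.π_ne_zero))
    rw [mul_assoc, div_mul_cancel₀ _ (IsGUnit.ne_zero ⟨hl, hne⟩), hx, map_mul,
      coeffMap_algebraMap, iota2_galF, map_div₀, RingHom.coe_coe]
    field_simp
  refine ⟨by rw [e]; exact mul_mem (mul_mem he hn) hl, ?_⟩
  rw [redL_congr _ (mul_mem (mul_mem he hn) hl) e, redL_mul' (mul_mem he hn) hl,
    redL_mul' he hn, he1, hn1, one_mul, one_mul, hr]

variable [CharP (Res A) p] [FF.IsFunctionField (Res A) (KM A M)]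

theorem exists_sigmaRel (hA : A.LiesOverPrime p) (W : Wild A p) (K : Kum hpM W.C)
    (K₀ : Kum hpM W.C₁) (h₀ : IsTriv K₀) (hcls : W.σ • cls K = cls K + cls K₀) :
    ∃ R : SigmaRel W K, R.f₀ = K₀.f := by
  have hp : p.Prime := Fact.out
  have := residueField_isAlgClosed A
  have := charP_laurent A p
  obtain ⟨κ₀, g, hκ₀, hg, hκ₀fix, hgfix, hrel⟩ := exists_rel W K K₀ hcls
  have hf₀ : ∀ s, ∃ h : iota2 M p hpM s K₀.f ∈ locS A, redL A ⟨_, h⟩ = 1 := fun s => by
    obtain ⟨h, hr⟩ := K₀.spec s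
    have e : algebraMap QBar LSer (W.C₁.π ^ (-K₀.v s)) * iota2 M p hpM s K₀.f =
        iota2 M p hpM s K₀.f := by
      rw [h₀.v s, neg_zero, zpow_zero, map_one, one_mul]
    refine ⟨e ▸ h, ?_⟩
    rw [redL_congr _ h e.symm, hr, h₀.fb s]
    rfl
  choose hf₀l hf₀r using hf₀
  have hu₀ : ∀ s, IsGUnit A (iota2 M p hpM s K₀.f) := fun s =>
    ⟨hf₀l s, by rw [hf₀r s]; exact one_ne_zero⟩
  have hfb : ∀ s, (K.fb s : LaurentSeries (Res A)) ≠ 0 := fun s h =>
    K.fb_ne s (Subtype.ext h)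
  have hgs : ∀ s, W.C.Fix (iota2 M p hpM s g) := fun s τ hτ => by
    rw [← iota2_galF, hgfix τ hτ]
  have hgs0 : ∀ s, iota2 M p hpM s g ≠ 0 := fun s => (_root_.map_ne_zero _).mpr hg
  -- the orders
  set v : Fin 2 → ℤ := fun s => W.C.gord (iota2 M p hpM s g) with hv
  have hkey : ∀ s, W.C.gord (algebraMap QBar LSer κ₀) + (p : ℤ) * v s = 0 := by
    intro s
    obtain ⟨hσl, hσr⟩ := exists_redL_σ hA W K s
    have e1 : W.C.gord (iota2 M p hpM s (galF (p * M) W.σ K.f)) = K.v s :=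
      CoefField.gord_eq ⟨hσl, by rw [hσr]; exact hfb s⟩
    have e2 : W.C.gord (iota2 M p hpM s K.f) = K.v s := by
      obtain ⟨h, hr⟩ := K.spec s
      exact CoefField.gord_eq ⟨h, by rw [hr]; exact hfb s⟩
    rw [hrel, map_mul, map_mul, map_mul, map_pow, AlgHom.commutes] at e1
    have hκs : algebraMap QBar LSer κ₀ ≠ 0 := (_root_.map_ne_zero _).mpr hκ₀
    have hK : iota2 M p hpM s K.f ≠ 0 := (_root_.map_ne_zero _).mpr K.f_ne
    have hK₀ : iota2 M p hpM s K₀.f ≠ 0 := (_root_.map_ne_zero _).mpr K₀.f_ne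
    have hf1 : W.C.Fix (algebraMap QBar LSer κ₀) := W.C.fix_algebraMap hκ₀fix
    have hf3 : W.C.Fix (iota2 M p hpM s K₀.f) := fun τ hτ => K₀.iota_fix s τ (W.le hτ)
    have m1 : algebraMap QBar LSer κ₀ ∈ fracS A := algebraMap_mem_fracS _
    have m2 := iota2_fracS (A := A) M p hpM s K.f
    have m3 := iota2_fracS (A := A) M p hpM s K₀.f
    have m4 := iota2_fracS (A := A) M p hpM s g
    rw [CoefField.gord_mul hA hp (mul_mem (mul_mem m1 m2) m3) (pow_mem m4 p)
        (mul_ne_zero (mul_ne_zero hκs hK) hK₀) (pow_ne_zero p (hgs0 s))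
        ((hf1.mul (K.iota_fix s)).mul hf3) ((hgs s).pow p),
      CoefField.gord_mul hA hp (mul_mem m1 m2) m3 (mul_ne_zero hκs hK) hK₀
        (hf1.mul (K.iota_fix s)) hf3,
      CoefField.gord_mul hA hp m1 m2 hκs hK hf1 (K.iota_fix s),
      CoefField.gord_of_isGUnit (hu₀ s), CoefField.gord_pow hA hp m4 (hgs0 s) (hgs s), e2] at e1
    simp only [hv]
    linarith
  have hvv : v 1 = v 0 := by
    have hp0 : (p : ℤ) ≠ 0 := Int.natCast_ne_zero.mpr hp.ne_zero
    exact mul_left_cancel₀ hp0 (by linarith [hkey 0, hkey 1])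
  -- the normalised root
  set κ₁ : QBar := κ₀ * (W.C.π ^ v 0) ^ p with hκ₁
  set g₁ : FB (p * M) := algebraMap QBar (FB (p * M)) (W.C.π ^ (-v 0)) * g with hg₁
  have hπv : W.C.π ^ v 0 ≠ 0 := zpow_ne_zero _ W.C.π_ne_zero
  have hrel₁ : galF (p * M) W.σ K.f =
      algebraMap QBar (FB (p * M)) κ₁ * K.f * K₀.f * g₁ ^ p := by
    have e : algebraMap QBar (FB (p * M)) (W.C.π ^ v 0) *
        algebraMap QBar (FB (p * M)) (W.C.π ^ (-v 0)) = 1 := by
      rw [← map_mul, ← zpow_add₀ W.C.π_ne_zero, add_neg_cancel, zpow_zero, map_one]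
    rw [hrel, hκ₁, hg₁, map_mul _ κ₀, map_pow _ (W.C.π ^ v 0)]
    conv_lhs => rw [← mul_one (algebraMap QBar (FB (p * M)) κ₀), ← one_pow p, ← e]
    ring
  have hg₁u : ∀ s, IsGUnit A (iota2 M p hpM s g₁) := by
    intro s
    have h := W.C.gord_spec hA hp (iota2_fracS M p hpM s g) (hgs0 s) (hgs s)
    have hs : v s = v 0 := by fin_cases s <;> simp [hvv]
    rw [show W.C.gord (iota2 M p hpM s g) = v 0 from hs] at h
    rwa [hg₁, map_mul, AlgHom.commutes]
  have hσeq : ∀ s, algebraMap QBar LSer (W.C.π ^ (-K.v s)) *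
      iota2 M p hpM s (galF (p * M) W.σ K.f) = algebraMap QBar LSer κ₁ *
        (algebraMap QBar LSer (W.C.π ^ (-K.v s)) * iota2 M p hpM s K.f *
          iota2 M p hpM s K₀.f * iota2 M p hpM s g₁ ^ p) := by
    intro s
    rw [hrel₁, map_mul, map_mul, map_mul, map_pow, AlgHom.commutes]
    ring
  have hu : ∀ s, IsGUnit A (algebraMap QBar LSer (W.C.π ^ (-K.v s)) * iota2 M p hpM s K.f *
      iota2 M p hpM s K₀.f * iota2 M p hpM s g₁ ^ p) := fun s => by
    obtain ⟨h, hr⟩ := K.spec s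
    exact (IsGUnit.mul ⟨h, by rw [hr]; exact hfb s⟩ (hu₀ s)).mul ((hg₁u s).pow p)
  have hκ₁u : IsGUnit A (algebraMap QBar LSer κ₁) := by
    obtain ⟨hσl, hσr⟩ := exists_redL_σ hA W K 0
    have h1 : IsGUnit A (algebraMap QBar LSer (W.C.π ^ (-K.v 0)) *
      iota2 M p hpM 0 (galF (p * M) W.σ K.f)) := ⟨hσl, by rw [hσr]; exact hfb 0⟩
    have h2 := h1.mul (hu 0).inv
    rwa [hσeq, mul_inv_cancel_right₀ (hu 0).ne_zero] at h2
  have hκ₁A : κ₁ ∈ A :=
    (A.valuation_le_one_iff _).mp (valuation_eq_one_of_isGUnit hκ₁u).le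
  obtain ⟨β, hβ⟩ := IsAlgClosed.exists_pow_nat_eq
    (IsLocalRing.residue A ⟨κ₁, hκ₁A⟩)⁻¹ hp.pos
  have hκres : IsLocalRing.residue A ⟨κ₁, hκ₁A⟩ ≠ 0 := by
    obtain ⟨h, hne⟩ := hκ₁u
    rw [redL_congr h (algebraMap_mem_locS hκ₁A) rfl, redL_algebraMap hκ₁A] at hne
    exact fun h0 => hne (by rw [h0, map_zero])
  have hβ0 : β ≠ 0 := fun h => hκres (by
    rw [h, zero_pow hp.ne_zero] at hβ; exact inv_eq_zero.mp hβ.symm)
  have hg₁r : ∀ s, ∃ h : iota2 M p hpM s g₁ ∈ locS A,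
      redL A ⟨_, h⟩ = algebraMap (Res A) (LaurentSeries (Res A)) β := by
    intro s
    obtain ⟨hl, -⟩ := hg₁u s
    obtain ⟨hσl, hσr⟩ := exists_redL_σ hA W K s
    obtain ⟨hfl, hfr⟩ := K.spec s
    refine ⟨hl, sub_eq_zero.mp (pow_eq_zero_iff hp.ne_zero |>.mp ?_)⟩
    rw [sub_pow_char, ← map_pow (algebraMap (Res A) (LaurentSeries (Res A))), hβ]
    have hk := algebraMap_mem_locS (A := A) hκ₁A
    have hm := mul_mem hk (mul_mem (mul_mem hfl (hf₀l s)) (pow_mem hl p))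
    rw [redL_congr hσl hm (hσeq s), redL_mul' hk (mul_mem (mul_mem hfl (hf₀l s)) (pow_mem hl p)),
      redL_mul' (mul_mem hfl (hf₀l s)) (pow_mem hl p), redL_mul' hfl (hf₀l s), hf₀r, mul_one,
      hfr, redL_algebraMap hκ₁A, redL_pow' hl] at hσr
    rw [sub_eq_zero, map_inv₀]
    refine eq_inv_of_mul_eq_one_left (mul_right_cancel₀ (hfb s) ?_)
    rw [one_mul]
    linear_combination hσr
  obtain ⟨a, ha, hafix, hares⟩ := exists_inertiaFixed_lift hA hp β⁻¹
  have ha0 : a ≠ 0 := fun h => inv_ne_zero hβ0 (by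
    rw [← hares, show (⟨a, ha⟩ : A) = 0 from Subtype.ext h, map_zero])
  set q : FB (p * M) := algebraMap QBar (FB (p * M)) a * g₁ with hq
  have hqfix : ∀ τ ∈ W.C.H, galF (p * M) τ q = q := fun τ hτ => by
    rw [hq, hg₁, map_mul, map_mul, arithmeticRingAut_algebraMap, arithmeticRingAut_algebraMap,
      hafix τ (W.C.le_inertia hτ), hgfix τ hτ, map_zpow₀ τ, W.C.π_fixed τ hτ]
  have hy : ∀ s, algebraMap QBar LSer W.C.π⁻¹ * (iota2 M p hpM s q - 1) ∈ locS A := by
    intro s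
    obtain ⟨hl, hr⟩ := hg₁r s
    obtain ⟨hql, hqr⟩ := redL_const_mul ha hl
    have e : iota2 M p hpM s q = algebraMap QBar LSer a * iota2 M p hpM s g₁ := by
      rw [hq, map_mul, AlgHom.commutes]
    refine W.C.inv_π_mul_mem hA (sub_mem (e ▸ hql) (one_mem _))
      ((show W.C.Fix (iota2 M p hpM s q) from fun τ hτ => by
        rw [← iota2_galF, hqfix τ hτ]).sub W.C.fix_one) ?_
    show redL A (⟨_, e ▸ hql⟩ - 1) = 0
    rw [map_sub, map_one, redL_congr _ hql e, hqr, hr, hares, ← map_mul, inv_mul_cancel₀ hβ0,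
      map_one, sub_self]
  refine ⟨{
    f₀ := K₀.f
    f₀_ne := K₀.f_ne
    f₀_dvd := K₀.dvd
    f₀_fix := K₀.fix
    f₀_red := fun s => ⟨hf₀l s, hf₀r s⟩
    q := q
    q_fix := hqfix
    y := fun s => algebraMap QBar LSer W.C.π⁻¹ * (iota2 M p hpM s q - 1)
    y_mem := hy
    q_eq := fun s => ?_
    κ := κ₁ / a ^ p
    κ_ne := div_ne_zero (mul_ne_zero hκ₀ (pow_ne_zero _ hπv)) (pow_ne_zero _ ha0)
    rel := ?_ }, rfl⟩
  · rw [← mul_assoc, ← map_mul, mul_inv_cancel₀ W.C.π_ne_zero, map_one, one_mul,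
      add_sub_cancel]
  · have e : algebraMap QBar (FB (p * M)) (κ₁ / a ^ p) * algebraMap QBar (FB (p * M)) a ^ p =
        algebraMap QBar (FB (p * M)) κ₁ := by
      rw [← map_pow, ← map_mul, div_mul_cancel₀ _ (pow_ne_zero _ ha0)]
    rw [hrel₁, hq, mul_pow, ← e]
    ring

/-! ### The divisibility -/

theorem ordDvd_of_sigmaRel_aux (hA : A.LiesOverPrime p) (hM : (M : Res A) ≠ 0)
    (V : VUnit A hpM) (hV : V.Simple) (W : Wild A p) (K : Kum hpM W.C) (R : SigmaRel W K)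
    (l : ℕ) [NeZero l] (hl : l.Prime) (hlN : ¬ l ∣ p * M) (a : ℤ)
    (hne : (((l : ℤ) + 1 - a : ℤ) : Res A) ≠ 0) (hδ : (p : ℤ) ∣ K.δ)
    {κh : QBar} {h : FB (p * M)} (hκh : κh ≠ 0) (hh : h ≠ 0)
    (hhfix : ∀ τ ∈ W.C.H, galF (p * M) τ h = h)
    (hN : heckeNorm (p * M) l K.f = algebraMap QBar (FB (p * M)) κh * K.f ^ a * h ^ p)
    (hord : ((l : ℤ) + 1 - a) * K.δ =
      p * (W.C.gord (iota2 M p hpM 1 h) - W.C.gord (iota2 M p hpM 0 h)))
    {κh₀ : QBar} {h₀ : FB (p * M)} (hκh₀ : κh₀ ≠ 0)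
    (hh₀fix : ∀ τ ∈ W.C₁.H, galF (p * M) τ h₀ = h₀)
    (hN₀ : heckeNorm (p * M) l R.f₀ = algebraMap QBar (FB (p * M)) κh₀ * R.f₀ ^ a * h₀ ^ p)
    (hh₀red : ∀ s, ∃ hm : iota2 M p hpM s h₀ ∈ locS A, redL A ⟨_, hm⟩ = 1) : OrdDvd K := by
  classical
  have hp : p.Prime := Fact.out
  set u := IsLocalRing.residue A W.u
  obtain ⟨r, hr⟩ := R.exists_red_const V hA hM hV
  set T : FB (p * M) :=
    h * h₀ * heckeNorm (p * M) l R.q / (R.q ^ a * galF (p * M) W.σ h) with hT
  have hq0 : R.q ≠ 0 := fun h0 => by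
    have := congrArg (galF (p * M) W.σ).symm R.rel
    rw [h0, zero_pow hp.ne_zero, mul_zero, map_zero, RingEquiv.symm_apply_apply] at this
    exact K.f_ne this
  have hσh : galF (p * M) W.σ h ≠ 0 := (_root_.map_ne_zero _).mpr hh
  have hTp : T ^ p = algebraMap QBar (FB (p * M))
      (W.σ κh * R.κ ^ a / (R.κ ^ (l + 1) * κh * κh₀)) := by
    have e := heckeNorm_galF hl hlN W.σ K.f
    rw [R.rel, map_mul, map_mul, map_mul, map_pow, heckeNorm_algebraMap hl hlN, hN, hN₀,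
      map_mul (galF (p * M) W.σ), map_mul (galF (p * M) W.σ), map_pow (galF (p * M) W.σ),
      map_zpow₀ (galF (p * M) W.σ), arithmeticRingAut_algebraMap, R.rel, mul_zpow, mul_zpow,
      mul_zpow, ← map_zpow₀ (algebraMap QBar (FB (p * M)))] at e
    have e1 : (R.q ^ p) ^ a = (R.q ^ a) ^ p := by
      rw [← zpow_natCast R.q p, ← zpow_natCast (R.q ^ a) p, ← zpow_mul, ← zpow_mul,
        mul_comm (p : ℤ) a]
    rw [e1] at e
    have n1 := zpow_ne_zero a K.f_ne
    have n2 := zpow_ne_zero a R.f₀_ne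
    have n3 : algebraMap QBar (FB (p * M)) (R.κ ^ (l + 1) * κh * κh₀) ≠ 0 :=
      (_root_.map_ne_zero _).mpr (mul_ne_zero (mul_ne_zero (pow_ne_zero _ R.κ_ne) hκh) hκh₀)
    rw [hT, div_pow, mul_pow, mul_pow, mul_pow, map_div₀, div_eq_div_iff
      (mul_ne_zero (pow_ne_zero _ (zpow_ne_zero _ hq0)) (pow_ne_zero _ hσh)) n3]
    refine mul_right_cancel₀ (mul_ne_zero n1 n2) ?_
    simp only [map_mul]
    linear_combination e
  obtain ⟨c, hc⟩ := exists_eq_algebraMap_of_pow hp.pos (div_ne_zero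
    (mul_ne_zero ((_root_.map_ne_zero _).mpr hκh) (zpow_ne_zero _ R.κ_ne))
    (mul_ne_zero (mul_ne_zero (pow_ne_zero _ R.κ_ne) hκh) hκh₀)) hTp
  set n : Fin 2 → ℤ := fun s => W.C.gord (iota2 M p hpM s h) with hn
  have hnear : ∀ s, Near1 W.C (algebraMap QBar LSer c)
      (((l : Res A) + 1) * r s - (a : Res A) * r s - (n s : Res A) * u) := by
    intro s
    have hqs : Near1 W.C (iota2 M p hpM s R.q) (r s) := Near1.mk' (R.y_mem s) (R.q_eq s) (hr s)
    have h1 := near1_σ_div hA W (iota2_fracS M p hpM s h) ((_root_.map_ne_zero _).mpr hh)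
      (fun τ hτ => by rw [← iota2_galF, hhfix τ hτ])
    have h2 := near1_of_tame hA W (fun τ hτ => by rw [← iota2_galF, hh₀fix τ hτ]) (hh₀red s)
    obtain ⟨ζ, hζ⟩ := exists_primitive hl hlN
    obtain ⟨y₁, hy₁, e₁, hr₁⟩ := heckeImage_congr_one (A := A) (l := l) hA hp W.C.π_nonunit
      W.C.π_ne_zero (R.y_mem s) (hr s) (iota2_fracS M p hpM s (heckeNorm (p * M) l R.q)) hζ
      (by rw [qExpand_iota2_heckeNorm p M l hpM hl hlN s hζ, R.q_eq])
    have h3 : Near1 W.C (iota2 M p hpM s (heckeNorm (p * M) l R.q)) (((l : Res A) + 1) * r s) :=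
      Near1.mk' hy₁ e₁ hr₁
    have h4 := ((h2.mul h3).div (hqs.zpow a)).div h1
    rw [zero_add] at h4
    convert h4 using 1
    have e : iota2 M p hpM s T = algebraMap QBar LSer c := by rw [hc, AlgHom.commutes]
    rw [← e, hT, map_div₀, map_mul, map_mul, map_mul, map_zpow₀, ← iota2_galF]
    have := (_root_.map_ne_zero (iota2 M p hpM s)).mpr hh
    have := (_root_.map_ne_zero (iota2 M p hpM s)).mpr hq0
    have := (_root_.map_ne_zero (iota2 M p hpM s)).mpr hσh
    field_simp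
  have hcmp := (hnear 0).unique (hnear 1)
  obtain ⟨d, hd⟩ := hδ
  have hnd : ((l : ℤ) + 1 - a) * d = n 1 - n 0 := by
    refine mul_left_cancel₀ (Int.natCast_ne_zero.mpr hp.ne_zero : (p : ℤ) ≠ 0) ?_
    rw [hd] at hord
    linear_combination hord
  have hrd : r 1 - r 0 = (d : Res A) * u := by
    refine mul_left_cancel₀ hne ?_
    have hnd' := congrArg (fun z : ℤ => (z : Res A)) hnd
    push_cast at hnd' ⊢
    linear_combination (-1 : Res A) * hcmp - u * hnd'
  intro s P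
  have hnode : V.oW P = 12 → (p : ℤ) ∣ K.s₀ P ∧ (p : ℤ) ∣ K.t₀ P := by
    intro hP
    obtain ⟨d', hd', h1, h2⟩ := R.node_eq V hA hM hV hr hP
    obtain rfl : d' = d :=
      mul_left_cancel₀ (Int.natCast_ne_zero.mpr hp.ne_zero : (p : ℤ) ≠ 0) (hd'.symm.trans hd)
    rw [hrd] at h1 h2
    push_cast at h1 h2
    constructor
    · refine (CharP.intCast_eq_zero_iff (Res A) p _).mp
        (mul_right_cancel₀ W.u_ne (show (K.s₀ P : Res A) * u = 0 * u from ?_))
      rw [zero_mul]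
      linear_combination h1
    · refine (CharP.intCast_eq_zero_iff (Res A) p _).mp
        (mul_right_cancel₀ W.u_ne (show (K.t₀ P : Res A) * u = 0 * u from ?_))
      rw [zero_mul]
      linear_combination -h2
  have hboth : (p : ℤ) ∣ K.s₀ P ∧ (p : ℤ) ∣ K.t₀ P := by
    rcases hV.val P with hP | hP
    · exact (K.res V hA hM hV).1 P hP
    · exact hnode hP
  fin_cases s
  · exact hboth.1
  · exact hboth.2

/-- **Wild case.** All orders of both reductions are divisible by `p`. -/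
theorem ordDvd_of_sigmaRel (hA : A.LiesOverPrime p) (hM : (M : Res A) ≠ 0)
    (V : VUnit A hpM) (hV : V.Simple) (W : Wild A p) (K : Kum hpM W.C) (R : SigmaRel W K)
    (K₀ : Kum hpM W.C₁) (h₀ : IsTriv K₀) (hf₀ : R.f₀ = K₀.f)
    (l : ℕ) [NeZero l] (hl : l.Prime) (hlN : ¬ l ∣ p * M) (a : ℤ)
    (hx : heckeOperatorBar (p * M) ⟨l, hl⟩ (cls K) = a • cls K)
    (hx₀ : heckeOperatorBar (p * M) ⟨l, hl⟩ (cls K₀) = a • cls K₀)
    (hne : (((l : ℤ) + 1 - a : ℤ) : Res A) ≠ 0) : OrdDvd K := by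
  obtain ⟨κh, h, hκh, hh, -, hhfix, hN, -, hord⟩ := exists_hecke hA K l hl hlN a hx
  obtain ⟨κh₀, h₀', hκh₀, -, -, hh₀fix, hN₀, -, -, hh₀red⟩ :=
    exists_hecke_triv hA K₀ h₀ l hl hlN a hx₀
  rw [← hf₀] at hN₀
  exact ordDvd_of_sigmaRel_aux hA hM V hV W K R l hl hlN a hne (dvd_delta hA K l hl hlN a hx hne)
    hκh hh hhfix hN hord hκh₀ hh₀fix hN₀ hh₀red

end Fermat.Agent.RT.LowerP

end
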