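import Fermat.Agent.RT.LowerP.Main
import Fermat.Agent.RT.LowerP.Sigma
import Fermat.Agent.RT.LowerP.Classes
import Fermat.Agent.GaloisReps.Unconditional

/-!
# Level lowering at `p`: the steps performed, given the step through differential forms
-/

set_option autoImplicit false
set_option synthInstance.maxHeartbeats 400000
set_option maxHeartbeats 1000000
set_option linter.unusedSectionVars false

noncomputable section

namespace Fermat.Agent.RT.LowerP

open ModularCurve AlgebraicCurve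
open Fermat.Agent.Semistable Fermat.Agent.Arith Fermat.Agent.RT.MazurP
open Fermat.Agent.NewformLocal (UnipotentAt ToricSquareAt)

/-- The steps for an eigen system that is not Eisenstein at a prime `l₀`. -/
theorem steps_of_form {A : ValuationSubring QBar} {p M : ℕ} [Fact p.Prime] [CharP (Res A) p]
    [NeZero M] [FF.IsFunctionField (Res A) (KM A M)] (hA : A.LiesOverPrime p)
    (hM : (M : Res A) ≠ 0) {hpM : ¬ p ∣ M} (V : VUnit A hpM) (hV : V.Simple) {G : ℕ → Prop}
    {a : ℕ → ℤ} (hG : ∀ l, l.Prime → G l → ¬ l ∣ p * M) {l₀ : ℕ} (hl : l₀.Prime) (hG₀ : G l₀)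
    (hne : ((((l₀ : ℤ) + 1 - a l₀ : ℤ)) : Res A) ≠ 0)
    (hform : ∀ {C : CoefField A p} (K : Kum hpM C), IsEigen (p * M) G a (cls K) → OrdDvd K →
      (p : ℤ) ∣ K.δ → CongAt M p G a ∨ ∃ K' : Kum hpM C, IsTriv K' ∧ cls K' = cls K) :
    Steps V G a :=
  have : NeZero l₀ := ⟨hl.ne_zero⟩
  { delta := fun K hK => dvd_delta hA K l₀ hl (hG l₀ hl hG₀) (a l₀) (hK l₀ hl hG₀) hne
    tame := fun K hd he => ordDvd_tame hA hM V hV K hd he
    wild := fun {W} K R K₀ hR hK₀ hK hK₀' _ =>
      ordDvd_of_sigmaRel hA hM V hV W K R K₀ hK₀ hR l₀ hl (hG l₀ hl hG₀) (a l₀) (hK l₀ hl hG₀)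
        (hK₀' l₀ hl hG₀) hne
    sigma := fun {W} K K₀ hK₀ h => exists_sigmaRel hA W K K₀ hK₀ h
    form := hform }

/-- Milestone statement 44 from the step through differential forms and the local behaviour of
the models at primes dividing the level once. -/
theorem lowerAtP_of_form
    (hD : ∀ (N p : ℕ) [NeZero N] [Fact p.Prime], ∃ D : GaloisReps.HeckeGaloisModel N p,
      ∀ q : ℕ, q.Prime → q ≠ p → q ∣ N → ¬ q ^ 2 ∣ N → UnipotentAt D q ∧ ToricSquareAt D q)
    (hform : ∀ {A : ValuationSubring QBar} {p M : ℕ} [Fact p.Prime] [CharP (Res A) p] [NeZero M]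
      [FF.IsFunctionField (Res A) (KM A M)], A.LiesOverPrime p → (M : Res A) ≠ 0 → 5 ≤ p →
      ∀ {hpM : ¬ p ∣ M} (V : VUnit A hpM), V.Simple →
      ∀ {G : ℕ → Prop} {a : ℕ → ℤ}, (∀ l, l.Prime → G l → ¬ l ∣ p * M) →
      ∀ {C : CoefField A p} (K : Kum hpM C), IsEigen (p * M) G a (cls K) → OrdDvd K →
      (p : ℤ) ∣ K.δ → CongAt M p G a ∨ ∃ K' : Kum hpM C, IsTriv K' ∧ cls K' = cls K) :
    RT.Frey.LowerAtPInput := by
  refine lowerAtP_of hD fun P _ M _ hpM hE hirr hpabc hmod => congAt_frey P hpM hE hirr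
    (fun hA => exists_classes P hmod (GaloisReps.congruenceProperty _ _) hirr hpabc hA) ?_
  intro A _ _ hA hM hpM' V hV G a hG l₀ hl hG₀ hne
  exact steps_of_form hA hM V hV hG hl hG₀ hne fun K => hform hA hM P.hp5 V hV hG K

end Fermat.Agent.RT.LowerP

end
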