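import Fermat.Agent.RT.LowerP.Lattice

/-!
# The first order gap of a class with trivial pair of reductions

For a nonprincipal `D` whose spaces `L(n ∞ + D)` reduce onto those of the trivial class, some
`jⁿ x - z = π ^ k t` with `x ≡ 1`, `z ≡ jⁿ` has `t` outside the gap.  Any other such relation of
smaller exponent lands in the gap, and `p`-th powers bound `k`.
-/

set_option autoImplicit false
set_option synthInstance.maxHeartbeats 400000
set_option maxHeartbeats 1000000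
set_option linter.unusedSectionVars false

noncomputable section

namespace Fermat.Agent.RT.LowerP

open ModularCurve AlgebraicCurve
open Fermat.Agent.Semistable Fermat.Agent.Arith Fermat.Agent.RT.MazurP
open Fermat.Agent.RT.Mazur (mulPair jPow jPow_add jPow_mul jPow_ne_zero jPow_mem_Pk cancel_jPow
  mul_mem_Pk mul_pi_smul pi_smul_mul pi_smul_pow exists_fixed_redBasis exists_principal_of_section)

variable {A : ValuationSubring QBar} {p M : ℕ} [hpf : Fact p.Prime] [CharP (Res A) p] [NeZero M]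
  [FF.IsFunctionField (Res A) (KM A M)]

/-- A large enough exponent. -/
structure Big (h : Setup A M p) (n : ℕ) : Prop where
  one : ∀ r ∈ Bn A M p h.hqM n, r ∈ Pk A M p 0 → ∃ β : Res A, r = β • 1
  cancel : ∀ (a : ℕ) (s : Fin 2 → LaurentSeries (Res A)),
    s ∈ Bn A M p h.hqM (n + n) → jPow A p a * s ∈ gapSp h (a + n) → s ∈ gapSp h n
  red : ∀ P, n ≤ P → ∀ y : loc2 A (iota2 M p h.hqM),
    (y : FB (p * M)) ∈ (HN M p P).map (LinearMap.mulLeft QBar ((jTop M h : FB (p * M)) ^ P)) ⊔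
      HN M p P → red2 A (iota2 M p h.hqM) y ∈ gapSp h P

theorem exists_big {h : Setup A M p} (hs : SmulOne h) : ∃ n₀, ∀ n, n₀ ≤ n → Big h n := by
  obtain ⟨n₁, h₁⟩ := exists_cancel h
  obtain ⟨n₂, h₂⟩ := exists_red_mem_gapSp hs
  obtain ⟨n₃, h₃⟩ := hs
  exact ⟨n₁ + n₂ + n₃, fun n hn => ⟨h₃ n (by omega), h₁ n (by omega),
    fun P hP => h₂ P (by omega)⟩⟩

/-- The relation with gap outside `gapSp`. -/
structure Wit (h : Setup A M p) (C : CoefField A p) (D : Divisor QBar (FB (p * M))) (n : ℕ) where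
  x : loc2 A (iota2 M p h.hqM)
  z : loc2 A (iota2 M p h.hqM)
  t : loc2 A (iota2 M p h.hqM)
  k : ℕ
  k_pos : 0 < k
  x_mem : (x : FB (p * M)) ∈ HD M p D n
  z_mem : (z : FB (p * M)) ∈ HD M p D n
  x_fix : x ∈ fixLoc C h
  z_fix : z ∈ fixLoc C h
  t_fix : t ∈ fixLoc C h
  x_red : red2 A (iota2 M p h.hqM) x = 1
  z_red : red2 A (iota2 M p h.hqM) z = jPow A p n
  rel : jTop M h ^ n * x - z = piF C h ^ k * t
  t_mem : red2 A (iota2 M p h.hqM) t ∈ Bn A M p h.hqM (n + n)
  t_not : red2 A (iota2 M p h.hqM) t ∉ gapSp h n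

variable {h : Setup A M p} {C : CoefField A p} {D : Divisor QBar (FB (p * M))} {n : ℕ}

theorem cst_mul_mem_HD {c : A} {x : loc2 A (iota2 M p h.hqM)} (hx : (x : FB (p * M)) ∈ HD M p D n) :
    ((cst h c * x : loc2 A (iota2 M p h.hqM)) : FB (p * M)) ∈ HD M p D n := by
  show algebraMap QBar (FB (p * M)) (c : QBar) * (x : FB (p * M)) ∈ _
  rw [← Algebra.smul_def]
  exact Submodule.smul_mem _ _ hx

theorem coe_piF_pow_mul (j : ℕ) (y : loc2 A (iota2 M p h.hqM)) :
    ((piF C h ^ j * y : loc2 A (iota2 M p h.hqM)) : FB (p * M)) =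
      (C.π ^ j) • (y : FB (p * M)) := by
  rw [Subring.coe_mul, SubmonoidClass.coe_pow, Algebra.smul_def, map_pow]
  rfl

theorem mem_of_piF_mul {V : Submodule QBar (FB (p * M))} {j : ℕ} {y : loc2 A (iota2 M p h.hqM)}
    (hy : ((piF C h ^ j * y : loc2 A (iota2 M p h.hqM)) : FB (p * M)) ∈ V) :
    (y : FB (p * M)) ∈ V := by
  rw [coe_piF_pow_mul] at hy
  have := Submodule.smul_mem V (C.π ^ j)⁻¹ hy
  rwa [smul_smul, inv_mul_cancel₀ (pow_ne_zero _ C.π_ne_zero), one_smul] at this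

/-- Any relation of smaller exponent lands in the gap. -/
theorem Wit.compare (w : Wit h C D n) (hn : Big h n) (hLD : LD A h.hqM D n = Bn A M p h.hqM n) :
    ∀ j, j < w.k → ∀ a b s : loc2 A (iota2 M p h.hqM),
      a ∈ fixLoc C h → b ∈ fixLoc C h → (a : FB (p * M)) ∈ HD M p D n →
      (b : FB (p * M)) ∈ HD M p D n → jTop M h ^ n * a - b = piF C h ^ j * s →
      red2 A (iota2 M p h.hqM) s ∈ gapSp h n := by
  intro j
  induction j with
  | zero =>
    intro _ a b s _ _ ha hb e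
    rw [pow_zero, one_mul] at e
    rw [← e, map_sub, map_mul, red2_jTop_pow]
    have hm : ∀ {y : loc2 A (iota2 M p h.hqM)}, (y : FB (p * M)) ∈ HD M p D n →
        red2 A (iota2 M p h.hqM) y ∈ Bn A M p h.hqM n := fun hy =>
      hLD ▸ mem_redSub.mpr ⟨_, hy, rfl⟩
    exact mem_gapSp.mpr ⟨_, hm ha, -red2 A (iota2 M p h.hqM) b, neg_mem (hm hb),
      (sub_eq_add_neg _ _).symm⟩
  | succ j ih =>
    intro hj a b s ha' hb' ha hb e
    have hBa : red2 A (iota2 M p h.hqM) a ∈ Bn A M p h.hqM n := hLD ▸ mem_redSub.mpr ⟨a, ha, rfl⟩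
    have hBb : red2 A (iota2 M p h.hqM) b ∈ Bn A M p h.hqM n := hLD ▸ mem_redSub.mpr ⟨b, hb, rfl⟩
    have hab : jPow A p n * red2 A (iota2 M p h.hqM) a = red2 A (iota2 M p h.hqM) b := by
      have := congrArg (red2 A (iota2 M p h.hqM)) e
      rw [pow_succ', mul_assoc, red2_piF_mul, map_sub, map_mul, red2_jTop_pow, sub_eq_zero] at this
      exact this
    obtain ⟨β, hβ⟩ := hn.one _ hBa (cancel_jPow (Bn_le_Pk M p h.hqM h.hA h.hM n hBa)
      (by rw [hab]; exact Bn_le_Pk M p h.hqM h.hA h.hM n hBb) (by omega))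
    obtain ⟨c, hc, hcβ⟩ := exists_cst_lift C h β
    obtain ⟨a', ha'f, ea⟩ := exists_eq_piF_mul (sub_mem ha' (mul_mem hc w.x_fix)) (by
      rw [map_sub, red2_cst_mul, hcβ, w.x_red, hβ, sub_self])
    obtain ⟨b', hb'f, eb⟩ := exists_eq_piF_mul (sub_mem hb' (mul_mem hc w.z_fix)) (by
      rw [map_sub, red2_cst_mul, hcβ, w.z_red, ← hab, hβ, mul_pi_smul, mul_one, sub_self])
    have hVa : (a' : FB (p * M)) ∈ HD M p D n := mem_of_piF_mul (C := C) (j := 1) (by
      rw [pow_one, ← ea, AddSubgroupClass.coe_sub]; exact sub_mem ha (cst_mul_mem_HD w.x_mem))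
    have hVb : (b' : FB (p * M)) ∈ HD M p D n := mem_of_piF_mul (C := C) (j := 1) (by
      rw [pow_one, ← eb, AddSubgroupClass.coe_sub]; exact sub_mem hb (cst_mul_mem_HD w.z_mem))
    obtain ⟨i, hi⟩ : ∃ i, w.k = j + 2 + i := ⟨w.k - (j + 2), by omega⟩
    have e' : jTop M h ^ n * a' - b' = piF C h ^ j * (s - piF C h * (piF C h ^ i * (cst h c * w.t))) := by
      refine mul_left_cancel₀ (piF_ne_zero (C := C) (h := h)) ?_
      have hr := w.rel
      rw [hi] at hr
      linear_combination jTop M h ^ n * (-ea) + eb + e - cst h c * hr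
    have := ih (by omega) a' b' _ ha'f hb'f hVa hVb e'
    rwa [map_sub, red2_piF_mul, sub_zero] at this

/-- A high enough power of the uniformiser makes a fixed function integral. -/
theorem exists_pi_pow_mul_mem {a : FB (p * M)} (ha : ∀ τ ∈ C.H, galF (p * M) τ a = a) :
    ∃ j, ∀ i, j ≤ i → (C.π ^ i) • a ∈ loc2 A (iota2 M p h.hqM) := by
  rcases eq_or_ne a 0 with rfl | h0
  · exact ⟨0, fun i _ => by rw [smul_zero]; exact zero_mem _⟩
  have key : ∀ s, ∃ j, ∀ i, j ≤ i → iota2 M p h.hqM s ((C.π ^ i) • a) ∈ locS A := by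
    intro s
    obtain ⟨g, hg, -⟩ := C.exists_zpow_isGUnit h.hA hpf.out (iota2_fracS M p h.hqM s a)
      ((_root_.map_ne_zero _).mpr h0) (fun τ hτ => by rw [← iota2_galF, ha τ hτ])
    refine ⟨(-g).toNat, fun i hi => ?_⟩
    obtain ⟨d, hd⟩ : ∃ d : ℕ, (i : ℤ) = -g + d := ⟨(i + g : ℤ).toNat, by omega⟩
    have := mul_mem (algebraMap_mem_locS (pow_mem (mem_of_mem_nonunits C.π_nonunit) d)) hg
    rwa [← mul_assoc, ← map_mul, ← zpow_natCast, ← zpow_add₀ C.π_ne_zero,
      show (d : ℤ) + -g = (i : ℤ) by omega, zpow_natCast,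
      ← AlgHom.commutes (iota2 M p h.hqM s), ← map_mul, ← Algebra.smul_def] at this
  choose j hj using key
  exact ⟨j 0 + j 1, fun i hi => (mem_loc2 _).mpr fun s => hj s i (by
    fin_cases s <;> simp <;> omega)⟩

theorem smul_fix {a : FB (p * M)} (ha : ∀ τ ∈ C.H, galF (p * M) τ a = a) {c : QBar}
    (hc : ∀ τ ∈ C.H, τ c = c) : ∀ τ ∈ C.H, galF (p * M) τ (c • a) = c • a := fun τ hτ => by
  rw [Algebra.smul_def, map_mul, ha τ hτ]
  congr 1
  exact galF_eq_self (by
    show coeffMap (τ : QBar →+* QBar) (algebraMap QBar LSer c) = algebraMap QBar LSer c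
    rw [coeffMap_algebraMap]
    exact congrArg _ (hc τ hτ))

/-- A nonprincipal class with trivial spaces has such a relation. -/
theorem exists_wit (hn : Big h n) (hLD : LD A h.hqM D n = Bn A M p h.hqM n)
    (hLD2 : LD A h.hqM D (n + n) = Bn A M p h.hqM (n + n))
    (hdim : Module.finrank QBar (HD M p D n) = Module.finrank QBar (HN M p n))
    (hfix : ∀ τ ∈ C.H, ∀ y ∈ HD M p D n, galF (p * M) τ y ∈ HD M p D n)
    (hL0 : ∀ y ∈ riemannRochSpace D, y = (0 : FB (p * M))) : Nonempty (Wit h C D n) := by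
  classical
  set V := HD M p D n with hV
  set J : FB (p * M) := (jTop M h : FB (p * M)) ^ n with hJdef
  have hJ0 : J ≠ 0 := fun h0 => by
    have e := red2_jTop_pow (h := h) n
    rw [show jTop M h ^ n = 0 from Subtype.ext (by rw [SubmonoidClass.coe_pow]; exact h0),
      map_zero] at e
    exact jPow_ne_zero n 0 (congrFun e.symm 0)
  have hJfix : ∀ τ : GQ, galF (p * M) τ J = J := fun τ => by
    rw [hJdef, map_pow, coe_jTop, galF_upF, galF_jM]
  set μ := LinearMap.mulLeft QBar J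
  have hμinj : Function.Injective μ := mul_right_injective₀ hJ0
  have hsmall : ∀ y ∈ V, J * y ∈ V → y = 0 := by
    intro y hy hy'
    by_contra hy0
    refine hy0 (hL0 y (FF.mem_riemannRochSpace'.mpr fun v => ?_))
    have h1 := (mem_HD M p).mp hy v
    by_cases hv : v.ord (upF M p (jM M)) < 0
    · have h2 := FF.le_ord_of_mem_ordGe v (mul_ne_zero hJ0 hy0) ((mem_HD M p).mp hy' v)
      rw [v.ord_mul hJ0 hy0, hJdef, FF.ord_pow, coe_jTop, FF.poles_apply,
        max_eq_right (by omega)] at h2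
      exact FF.mem_ordGe_of_le v (by linarith)
    · rw [FF.poles_apply, max_eq_left (by omega), mul_zero, zero_add] at h1
      exact h1
  have hinf : V.map μ ⊓ V = ⊥ := by
    rw [Submodule.eq_bot_iff]
    rintro _ ⟨⟨y, hy, rfl⟩, hy'⟩
    rw [hsmall y hy hy']
    exact map_zero μ
  set W := V.map μ ⊔ V
  have hdimW : Module.finrank QBar W = 2 * Module.finrank QBar (HN M p n) := by
    have := Submodule.finrank_sup_add_finrank_inf_eq (V.map μ) V
    rw [hinf, finrank_bot, add_zero, ← (Submodule.equivMapOfInjective μ hμinj V).finrank_eq,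
      hdim] at this
    exact this.trans (two_mul _).symm
  have hWfix : ∀ τ ∈ C.H, ∀ x ∈ W,
      arithmeticRingAut (modularFunctionFieldFull (p * M)) τ x ∈ W := by
    intro τ hτ x hx
    obtain ⟨_, ⟨y, hy, rfl⟩, y', hy', rfl⟩ := Submodule.mem_sup.mp hx
    show galF (p * M) τ (J * y + y') ∈ W
    rw [map_add, map_mul, hJfix]
    exact Submodule.add_mem_sup ⟨_, hfix τ hτ y hy, rfl⟩ (hfix τ hτ y' hy')
  obtain ⟨w, hw, hwW, hwfix, hwli⟩ := exists_fixed_redBasis h.hA hpf.out C.le_inertia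
    (iota2 M p h.hqM) (iota2_fracS M p h.hqM) (fun τ _ s x => iota2_galF h.hqM τ s x) W hWfix
  obtain ⟨a₀, ha₀⟩ : ∃ a, (fun s => redL A ⟨_, hw a s⟩) ∉ gapSp h n := by
    by_contra hall
    push Not at hall
    have := finiteDimensional_gapSp (h := h) n
    have h1 := Submodule.finrank_mono (Submodule.span_le.mpr (Set.range_subset_iff.mpr hall))
    rw [finrank_span_eq_card hwli, Fintype.card_fin, hdimW] at h1
    have h2 := finrank_gapSp_lt (h := h) n
    rw [(finrank_Bn M p h.hqM h.hA n).2] at h2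
    omega
  set u : loc2 A (iota2 M p h.hqM) := ⟨w a₀, (mem_loc2 _).mpr (hw a₀)⟩ with hu
  have hured : red2 A (iota2 M p h.hqM) u ∉ gapSp h n := ha₀
  have hufix : u ∈ fixLoc C h := fun τ hτ => galF_eq_self (hwfix a₀ 0 τ hτ)
  obtain ⟨_, ⟨a, ha, rfl⟩, b, hb, hab⟩ := Submodule.mem_sup.mp (hwW a₀)
  have hab' : J * a + b = (u : FB (p * M)) := hab
  have hafix : ∀ τ ∈ C.H, galF (p * M) τ a = a := by
    intro τ hτ
    have e := congrArg (galF (p * M) τ) hab'
    rw [map_add, map_mul, hJfix, hufix τ hτ, ← hab'] at e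
    refine sub_eq_zero.mp (hsmall _ (sub_mem (hfix τ hτ a ha) ha) ?_)
    rw [mul_sub, show J * galF (p * M) τ a - J * a = b - galF (p * M) τ b by linear_combination e]
    exact sub_mem hb (hfix τ hτ b hb)
  have hbfix : ∀ τ ∈ C.H, galF (p * M) τ b = b := by
    intro τ hτ
    have e := congrArg (galF (p * M) τ) hab'
    rw [map_add, map_mul, hJfix, hufix τ hτ, hafix τ hτ, ← hab'] at e
    exact add_left_cancel e
  have hex : ∃ j, (C.π ^ j) • a ∈ loc2 A (iota2 M p h.hqM) ∧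
      (C.π ^ j) • b ∈ loc2 A (iota2 M p h.hqM) := by
    obtain ⟨ja, hja⟩ := exists_pi_pow_mul_mem (h := h) hafix
    obtain ⟨jb, hjb⟩ := exists_pi_pow_mul_mem (h := h) hbfix
    exact ⟨ja + jb, hja _ (by omega), hjb _ (by omega)⟩
  set j := Nat.find hex with hj
  obtain ⟨hma, hmb⟩ := Nat.find_spec hex
  have hmin : ∀ i, i < j → ¬ _ := fun i hi => Nat.find_min hex hi
  have hπfix : ∀ τ ∈ C.H, τ (C.π ^ j) = C.π ^ j := fun τ hτ => by rw [map_pow, C.π_fixed τ hτ]
  set x : loc2 A (iota2 M p h.hqM) := ⟨_, hma⟩ with hx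
  set z : loc2 A (iota2 M p h.hqM) := -⟨_, hmb⟩ with hz
  have hxfix : x ∈ fixLoc C h := smul_fix hafix hπfix
  have hzfix : z ∈ fixLoc C h := neg_mem (smul_fix hbfix hπfix)
  have hxV : (x : FB (p * M)) ∈ V := Submodule.smul_mem _ _ ha
  have hzV : (z : FB (p * M)) ∈ V := neg_mem (Submodule.smul_mem _ _ hb)
  have hrel : jTop M h ^ n * x - z = piF C h ^ j * u := Subtype.ext (by
    rw [coe_piF_pow_mul, ← hab', hz, hx]
    push_cast
    rw [sub_neg_eq_add, smul_add, mul_smul_comm])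
  have hxB : red2 A (iota2 M p h.hqM) x ∈ Bn A M p h.hqM n := hLD ▸ mem_redSub.mpr ⟨x, hxV, rfl⟩
  have hzB : red2 A (iota2 M p h.hqM) z ∈ Bn A M p h.hqM n := hLD ▸ mem_redSub.mpr ⟨z, hzV, rfl⟩
  obtain ⟨i, hji⟩ : ∃ i, j = i + 1 := by
    refine Nat.exists_eq_succ_of_ne_zero fun h0 => hured ?_
    rw [h0, pow_zero, one_mul] at hrel
    rw [← hrel, map_sub, map_mul, red2_jTop_pow]
    exact mem_gapSp.mpr ⟨_, hxB, _, neg_mem hzB, (sub_eq_add_neg _ _).symm⟩
  have hxz : jPow A p n * red2 A (iota2 M p h.hqM) x = red2 A (iota2 M p h.hqM) z := by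
    have e := congrArg (red2 A (iota2 M p h.hqM)) hrel
    rw [hji, pow_succ', mul_assoc, red2_piF_mul, map_sub, map_mul, red2_jTop_pow, sub_eq_zero] at e
    exact e
  obtain ⟨β, hβ⟩ := hn.one _ hxB (cancel_jPow (Bn_le_Pk M p h.hqM h.hA h.hM n hxB)
    (by rw [hxz]; exact Bn_le_Pk M p h.hqM h.hA h.hM n hzB) (by omega))
  have hzβ : red2 A (iota2 M p h.hqM) z = β • jPow A p n := by
    rw [← hxz, hβ, mul_pi_smul, mul_one]
  have hβ0 : β ≠ 0 := by
    rintro rfl
    rw [zero_smul] at hβ hzβ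
    obtain ⟨x', -, ex⟩ := exists_eq_piF_mul hxfix hβ
    obtain ⟨z', -, ez⟩ := exists_eq_piF_mul hzfix hzβ
    have hdiv : ∀ (a : FB (p * M)) (y : loc2 A (iota2 M p h.hqM)),
        (C.π ^ j) • a = ((piF C h * y : loc2 A (iota2 M p h.hqM)) : FB (p * M)) →
        (C.π ^ i) • a ∈ loc2 A (iota2 M p h.hqM) := by
      intro a y e
      rw [← pow_one (piF C h), coe_piF_pow_mul, pow_one, hji, pow_succ', mul_smul] at e
      rw [smul_right_injective _ C.π_ne_zero e]
      exact y.2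
    refine hmin i (by omega) ⟨hdiv a x' (congrArg Subtype.val ex), ?_⟩
    have := hdiv (-b) z' (by rw [smul_neg, ← congrArg Subtype.val ez]; rfl)
    rw [smul_neg] at this
    simpa using this
  obtain ⟨c, hc, hcβ⟩ := exists_cst_lift C h β⁻¹
  have hwmem : (u : FB (p * M)) ∈ HD M p D (n + n) := by
    rw [← hab']
    refine add_mem ?_ (HD_mono D (Nat.le_add_right n n) hb)
    have := mul_mem_HD (D := 0) (x := J) (by rw [HD_zero]; exact jTop_pow_mem n) ha
    rwa [zero_add] at this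
  refine ⟨⟨cst h c * x, cst h c * z, cst h c * u, j, by omega, cst_mul_mem_HD hxV,
    cst_mul_mem_HD hzV, mul_mem hc hxfix, mul_mem hc hzfix, mul_mem hc hufix, ?_, ?_,
    by linear_combination cst h c * hrel, ?_, ?_⟩⟩
  · rw [red2_cst_mul, hcβ, hβ, smul_smul, inv_mul_cancel₀ hβ0, one_smul]
  · rw [red2_cst_mul, hcβ, hzβ, smul_smul, inv_mul_cancel₀ hβ0, one_smul]
  · rw [red2_cst_mul, ← hLD2]
    exact Submodule.smul_mem _ _ (mem_redSub.mpr ⟨u, hwmem, rfl⟩)
  · rw [red2_cst_mul]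
    exact fun hm => hured (by
      have := Submodule.smul_mem (gapSp h n) β hm
      rwa [hcβ, smul_smul, mul_inv_cancel₀ hβ0, one_smul] at this)

end Fermat.Agent.RT.LowerP

end
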